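/-
M59 / Sink B, cell (G12) assembly, part (b) [DESC-NEW], second half (helper1).  Prefix `m59g12_`.

The cover passage of S36 [DESC] (S36/Desc/{CoverStep,CoverStruct,CoverLeg}.lean) STOPPED BEFORE THE CORE:
for `g1 ∈ F_{N' q q}(L)` with all orders divisible by `m` and `Norm_α g1`, `Norm_β g1` constants times
`m`-th powers, the element `ι g1` of the Legendre cover field `E₂ = lg_E L (N' q q)` satisfies
`s36_NewAt N' q hq2 m (ι g1)`.
-/
import Mathlib
import Fermat.Agent.S36.Desc.CoverLeg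
import Fermat.Agent.SS2.DescPhi.Root
import Fermat.Agent.SS2.DescPhi.NormCover

set_option autoImplicit false
set_option linter.unusedSectionVars false
set_option linter.unusedVariables false
set_option linter.style.haveILetI false
set_option synthInstance.maxHeartbeats 400000
set_option maxHeartbeats 1000000

noncomputable section

namespace Fermat.Agent.M59

open ModularCurve AlgebraicCurve Module IntermediateField
open Fermat.Agent.S24 Fermat.Agent.S28 Fermat.Agent.JT3 Fermat.Agent.SS Fermat.Agent.S35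
  Fermat.Agent.S36 Fermat.Agent.SS2

local notation "Qb" => AlgebraicClosure ℚ

section Step

variable (L : Type) [Field L] [Algebra ℚ L] [Algebra L Qb]
  (M q k : ℕ) [NeZero M] [NeZero q] [NeZero k]

/-- the cover step of `s36d_cover_step`, stopped before the core. -/
theorem m59g12_cover_step (hq : q.Prime) (hqM : q ∣ M)
    (E₁ E₂ : IntermediateField L (LaurentSeries L))
    (hE : E₁ ≤ E₂) (hEβ : E₁.map (qExpandAlgHomC L q) ≤ E₂)
    (hφ1 : ∀ x ∈ laurentBaseChange L (modularFunctionFieldFull M),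
      qExpandAlgHomC L k x ∈ E₁)
    (hφ2 : ∀ x ∈ laurentBaseChange L (modularFunctionFieldFull (M * q)),
      qExpandAlgHomC L k x ∈ E₂)
    (hdα : IntermediateField.relfinrank E₁ E₂ = q)
    (hdβ : IntermediateField.relfinrank (E₁.map (qExpandAlgHomC L q)) E₂ = q)
    (hgenα : ∀ S : Subfield E₂, (∀ x : E₁, IntermediateField.inclusion hE x ∈ S) →
      (∀ y : laurentBaseChange L (modularFunctionFieldFull (M * q)),
        s35pe_res (qExpandAlgHomC L k) _ E₂ hφ2 y ∈ S) → S = ⊤)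
    (hgenβ : ∀ S : Subfield E₂,
      (∀ x : E₁, s35pe_res (qExpandAlgHomC L q) E₁ E₂
        (fun x hx => hEβ ⟨x, hx, rfl⟩) x ∈ S) →
      (∀ y : laurentBaseChange L (modularFunctionFieldFull (M * q)),
        s35pe_res (qExpandAlgHomC L k) _ E₂ hφ2 y ∈ S) → S = ⊤)
    {m : ℕ} (hm : m ≠ 0)
    (g1 : laurentBaseChange L (modularFunctionFieldFull (M * q))) (hg1 : g1 ≠ 0)
    (hord : ∀ w : Place L (laurentBaseChange L (modularFunctionFieldFull (M * q))),
      (m : ℤ) ∣ w.ord g1)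
    (hα : ∃ (a : L) (s : laurentBaseChange L (modularFunctionFieldFull M)),
      s35pe_normAlong (heckeAlphaBar L M q) g1 =
        algebraMap L (laurentBaseChange L (modularFunctionFieldFull M)) a * s ^ m)
    (hβ : ∃ (a : L) (s : laurentBaseChange L (modularFunctionFieldFull M)),
      s35pe_normAlong (heckeBetaBar L M q) g1 =
        algebraMap L (laurentBaseChange L (modularFunctionFieldFull M)) a * s ^ m) :
    s35pe_res (qExpandAlgHomC L k) _ E₂ hφ2 g1 ≠ 0 ∧
    (∀ v : Place L E₂, (m : ℤ) ∣ v.ord (s35pe_res (qExpandAlgHomC L k) _ E₂ hφ2 g1)) ∧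
    (∃ (c : L) (r : E₁), r ≠ 0 ∧
      (letI := (IntermediateField.inclusion hE).toRingHom.toAlgebra
       Algebra.norm ↥E₁ (s35pe_res (qExpandAlgHomC L k) _ E₂ hφ2 g1)) =
        algebraMap L ↥E₁ c * r ^ m) ∧
    (∃ (c : L) (r : ↥(E₁.map (qExpandAlgHomC L q))), r ≠ 0 ∧
      (letI := (IntermediateField.inclusion hEβ).toRingHom.toAlgebra
       Algebra.norm ↥(E₁.map (qExpandAlgHomC L q))
        (s35pe_res (qExpandAlgHomC L k) _ E₂ hφ2 g1)) =
        algebraMap L ↥(E₁.map (qExpandAlgHomC L q)) c * r ^ m) := by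
  -- the maps to the cover
  set ι₁ : laurentBaseChange L (modularFunctionFieldFull M) →ₐ[L] E₁ :=
    s35pe_res (qExpandAlgHomC L k) _ E₁ hφ1 with hι₁
  set ι₂ : laurentBaseChange L (modularFunctionFieldFull (M * q)) →ₐ[L] E₂ :=
    s35pe_res (qExpandAlgHomC L k) _ E₂ hφ2 with hι₂
  have heE : ∀ x ∈ E₁, qExpandAlgHomC L q x ∈ E₂ := fun x hx => hEβ ⟨x, hx, rfl⟩
  have hαdeg : finrankAlong L (heckeAlphaBar L M q) = q := s36d_finrankAlong_alpha L M q hq hqM
  have hβdeg : finrankAlong L (heckeBetaBar L M q) = q := s36d_finrankAlong_beta L M q hq hqM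
  have hcα : ∀ x, ι₂ (heckeAlphaBar L M q x) = IntermediateField.inclusion hE (ι₁ x) := by
    intro x
    apply Subtype.ext
    show qExpandAlgHomC L k ((heckeAlphaBar L M q x : _) : LaurentSeries L) =
      qExpandAlgHomC L k (x : LaurentSeries L)
    rw [coe_heckeAlphaBar]
  have hcβ : ∀ x, ι₂ (heckeBetaBar L M q x) =
      s35pe_res (qExpandAlgHomC L q) E₁ E₂ heE (ι₁ x) := by
    intro x
    apply Subtype.ext
    show qExpandAlgHomC L k ((heckeBetaBar L M q x : _) : LaurentSeries L) =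
      qExpandAlgHomC L q (qExpandAlgHomC L k (x : LaurentSeries L))
    rw [coe_heckeBetaBar, qExpandAlgHomC_apply, qExpandAlgHomC_apply, qExpandAlgHomC_apply,
      qExpand_qExpand, qExpand_qExpand]
    exact qExpand_congr (mul_comm k q) _
  obtain ⟨h1, h2⟩ := s36d_cover_norms (qExpandAlgHomC L q) E₁ E₂ hE hEβ heE
    (heckeAlphaBar L M q) (heckeBetaBar L M q) ι₁ ι₂ hcα hcβ hq.pos hαdeg hβdeg hdα hdβ
    hgenα hgenβ hm g1 hg1 hα hβ
  -- the element of the cover
  have hg0 : ι₂ g1 ≠ 0 := by rwa [Ne, map_eq_zero]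
  have hordE : ∀ v : Place L E₂, (m : ℤ) ∣ v.ord (ι₂ g1) :=
    fun v => lg_dvd_ord_of_embedding ι₂ (m : ℤ) g1 hord v
  exact ⟨hg0, hordE, h1, h2⟩

end Step

section Struct

variable (L : Type) [Field L] [Algebra ℚ L] [Algebra L Qb]
  (M q k lvl : ℕ) [NeZero M] [NeZero q] [NeZero k] [NeZero lvl]

/-- `φ` maps the level field into a cover field given by its structure. -/
theorem m59g12_phi_mem (M' : ℕ) [NeZero M'] (E K₀ : IntermediateField L (LaurentSeries L))
    (hS : E = (lg_F L M').map (qExpandAlgHomC L k) ⊔ K₀) :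
    haveI : CharZero L := algebraRat.charZero L
    ∀ x ∈ laurentBaseChange L (modularFunctionFieldFull M'), qExpandAlgHomC L k x ∈ E := by
  haveI : CharZero L := algebraRat.charZero L
  intro x hx
  rw [← lg_F_eq_laurentBaseChange] at hx
  rw [hS]
  exact (le_sup_left : _ ≤ (lg_F L M').map (qExpandAlgHomC L k) ⊔ K₀) ⟨x, hx, rfl⟩

/-- the cover step of `s36d_cover_struct_step`, stopped before the core. -/
theorem m59g12_cover_struct_step (hq : q.Prime) (hqM : q ∣ M) (hk : k.Prime) (hqk : q ≠ k)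
    (E₁ E₂ K₀ : IntermediateField L (LaurentSeries L))
    (hE : E₁ ≤ E₂) (hEβ : E₁.map (qExpandAlgHomC L q) ≤ E₂)
    (hS₁ : E₁ = (lg_F L M).map (qExpandAlgHomC L k) ⊔ K₀)
    (hS₂ : E₂ = (lg_F L (M * q)).map (qExpandAlgHomC L k) ⊔ K₀)
    (hk_lvl : k ∣ lvl) (hq_lvl : q ∣ lvl)
    (hL₁ : E₁ = lg_F L lvl) (hL₂ : E₂ = lg_F L (lvl * q))
    {m : ℕ} (hm : m ≠ 0)
    (g1 : laurentBaseChange L (modularFunctionFieldFull (M * q))) (hg1 : g1 ≠ 0)
    (hord : ∀ w : Place L (laurentBaseChange L (modularFunctionFieldFull (M * q))),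
      (m : ℤ) ∣ w.ord g1)
    (hα : ∃ (a : L) (s : laurentBaseChange L (modularFunctionFieldFull M)),
      s35pe_normAlong (heckeAlphaBar L M q) g1 =
        algebraMap L (laurentBaseChange L (modularFunctionFieldFull M)) a * s ^ m)
    (hβ : ∃ (a : L) (s : laurentBaseChange L (modularFunctionFieldFull M)),
      s35pe_normAlong (heckeBetaBar L M q) g1 =
        algebraMap L (laurentBaseChange L (modularFunctionFieldFull M)) a * s ^ m) :
    s35pe_res (qExpandAlgHomC L k) _ E₂ (m59g12_phi_mem L k (M * q) E₂ K₀ hS₂) g1 ≠ 0 ∧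
    (∀ v : Place L E₂, (m : ℤ) ∣
      v.ord (s35pe_res (qExpandAlgHomC L k) _ E₂ (m59g12_phi_mem L k (M * q) E₂ K₀ hS₂) g1)) ∧
    (∃ (c : L) (r : E₁), r ≠ 0 ∧
      (letI := (IntermediateField.inclusion hE).toRingHom.toAlgebra
       Algebra.norm ↥E₁
        (s35pe_res (qExpandAlgHomC L k) _ E₂ (m59g12_phi_mem L k (M * q) E₂ K₀ hS₂) g1)) =
        algebraMap L ↥E₁ c * r ^ m) ∧
    (∃ (c : L) (r : ↥(E₁.map (qExpandAlgHomC L q))), r ≠ 0 ∧
      (letI := (IntermediateField.inclusion hEβ).toRingHom.toAlgebra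
       Algebra.norm ↥(E₁.map (qExpandAlgHomC L q))
        (s35pe_res (qExpandAlgHomC L k) _ E₂ (m59g12_phi_mem L k (M * q) E₂ K₀ hS₂) g1)) =
        algebraMap L ↥(E₁.map (qExpandAlgHomC L q)) c * r ^ m) := by
  haveI : CharZero L := algebraRat.charZero L
  have hφ1 := m59g12_phi_mem L k M E₁ K₀ hS₁
  have hφ2 := m59g12_phi_mem L k (M * q) E₂ K₀ hS₂
  have hK₀ : K₀ ≤ E₁ := hS₁ ▸ le_sup_right
  -- degrees
  have hdα : IntermediateField.relfinrank E₁ E₂ = q := by
    rw [hL₁, hL₂]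
    exact s36pe_relfinrank_alpha_dvd L lvl q hq hq_lvl
  have hdβ : IntermediateField.relfinrank (E₁.map (qExpandAlgHomC L q)) E₂ = q := by
    rw [hL₁, hL₂]
    exact s36pe_relfinrank_beta_dvd L lvl q hq hq_lvl
  refine m59g12_cover_step L M q k hq hqM E₁ E₂ hE hEβ hφ1 hφ2 hdα hdβ ?_ ?_ hm g1 hg1
    hord hα hβ
  · -- generation, `α`-side
    intro S h1 h2
    refine s36d_gen_sup E₂ ((lg_F L (M * q)).map (qExpandAlgHomC L k)) K₀ hS₂ S (fun c => ?_)
      (fun x hx h => ?_) (fun x hx h => ?_)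
    · have := h1 (algebraMap L E₁ c)
      rwa [AlgHom.commutes] at this
    · obtain ⟨y, hy, rfl⟩ := hx
      have hy' : y ∈ laurentBaseChange L (modularFunctionFieldFull (M * q)) := by
        rw [← lg_F_eq_laurentBaseChange]; exact hy
      exact h2 ⟨y, hy'⟩
    · exact h1 ⟨x, hK₀ hx⟩
  · -- generation, `β`-side
    intro S h1 h2
    have key : ∀ (E₁' E₂' : IntermediateField L (LaurentSeries L)), E₁' = lg_F L lvl →
        E₂' = lg_F L (lvl * q) → ∀ S' : Subfield E₂',
        (∀ c : L, algebraMap L E₂' c ∈ S') →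
        (∀ x ∈ E₁', ∀ h : qExpand L q x ∈ E₂', (⟨qExpand L q x, h⟩ : E₂') ∈ S') →
        (∀ h : qExpand L k (jqModC L) ∈ E₂', (⟨qExpand L k (jqModC L), h⟩ : E₂') ∈ S') →
        S' = ⊤ := by
      rintro E₁' E₂' rfl rfl S' hK' h1' h2'
      exact s36d_gen_beta_full L lvl q k hq hk hqk hk_lvl S' hK' h1' h2'
    refine key E₁ E₂ hL₁ hL₂ S (fun c => ?_) (fun x hx h => ?_) (fun h => ?_)
    · have := h1 (algebraMap L E₁ c)
      rwa [AlgHom.commutes] at this
    · exact h1 ⟨x, hx⟩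
    · have hj : jqModC L ∈ laurentBaseChange L (modularFunctionFieldFull (M * q)) := by
        rw [← lg_F_eq_laurentBaseChange]; exact jqModC_mem_full L (M * q)
      exact h2 ⟨jqModC L, hj⟩

end Struct

section Leg

variable (L : Type) [Field L] [Algebra ℚ L] [Algebra L Qb]
  (N' q : ℕ) [NeZero N'] [NeZero q]

/-- **[DESC-NEW], second half, Legendre cover**: `ι g1` satisfies `s36_NewAt`. -/
theorem m59g12_newAt (hq : q.Prime) (hq2 : ¬ 2 ∣ q) {m : ℕ} (hm : m ≠ 0)
    (g1 : laurentBaseChange L (modularFunctionFieldFull (N' * q * q))) (hg1 : g1 ≠ 0)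
    (hord : ∀ w : Place L (laurentBaseChange L (modularFunctionFieldFull (N' * q * q))),
      (m : ℤ) ∣ w.ord g1)
    (hα : ∃ (a : L) (s : laurentBaseChange L (modularFunctionFieldFull (N' * q))),
      s35pe_normAlong (heckeAlphaBar L (N' * q) q) g1 =
        algebraMap L (laurentBaseChange L (modularFunctionFieldFull (N' * q))) a * s ^ m)
    (hβ : ∃ (a : L) (s : laurentBaseChange L (modularFunctionFieldFull (N' * q))),
      s35pe_normAlong (heckeBetaBar L (N' * q) q) g1 =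
        algebraMap L (laurentBaseChange L (modularFunctionFieldFull (N' * q))) a * s ^ m) :
    haveI : CharZero L := algebraRat.charZero L
    s36_NewAt (L := L) N' q hq2 m (ss2_dp_iota L (N' * q * q) g1) := by
  haveI : CharZero L := algebraRat.charZero L
  have hq2' : q ≠ 2 := by
    rintro rfl
    exact hq2 dvd_rfl
  have key := m59g12_cover_struct_step L (N' * q) q 2 (ssm_f4_level (N' * q)) hq
    (Dvd.intro_left N' rfl)
    Nat.prime_two hq2' (lg_E L (N' * q)) (lg_E L (N' * q * q)) (lg_K L)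
    (ssm_al_E_le L (N' * q) q) (ssm_al_E_beta_le L (N' * q) q hq2) rfl rfl
    ((Dvd.intro_left 2 rfl).trans (Nat.dvd_lcm_left 4 (2 * (N' * q))))
    (s36pe_dvd_f4_level (N' * q) q (Dvd.intro_left N' rfl))
    (ssm_f4 L (N' * q)) (ssm_al_E_eq L (N' * q) q hq2) hm g1 hg1 hord hα hβ
  have e : s35pe_res (qExpandAlgHomC L 2) _ (lg_E L (N' * q * q))
      (m59g12_phi_mem L 2 (N' * q * q) (lg_E L (N' * q * q)) (lg_K L) rfl) g1 =
      ss2_dp_iota L (N' * q * q) g1 := Subtype.ext rfl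
  rw [e] at key
  exact key

end Leg

end Fermat.Agent.M59
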