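/-
M59 / Sink B, cell (G12) assembly, part (b) [DESC-NEW], first half (helper1).  Prefix `m59g12_`.

Level pair `(N q, N)`, `q ∣ N` (for Sink B: `N = N' q`).  An `I_A`-fixed class `z ∈ J₀(N q)[m]` killed by
the two push-forwards `(α_q)_*`, `(β_q)_*` has a representing function `f = c₀ · r₀^m · bc g1` with `g1`
over an unramified level `L1 ⊇ T`, all orders of `g1` divisible by `m`, and
`Norm_α g1 = a · s^m`, `Norm_β g1 = a' · s'^m` OVER `L1`.

= `twfc_desc` (TW/Easy/Toric/Desc.lean) + the Kummer translation of `s36k_geomAt_of_keyBarAt`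
(S36/Kum/Inv0.lean) + the norm descent of `s36d_keyBarAt_of_coreF` (S36/Desc/Step.lean).
-/
import Mathlib
import Fermat.Agent.S36.Desc.Step
import Fermat.Agent.TW.Easy.Toric.Desc

set_option autoImplicit false
set_option linter.unusedSectionVars false
set_option linter.unusedVariables false
set_option linter.style.haveILetI false
set_option synthInstance.maxHeartbeats 400000
set_option maxHeartbeats 1000000

noncomputable section

namespace Fermat.Agent.M59

open ModularCurve AlgebraicCurve IntermediateField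
open Fermat.Agent.JT3 Fermat.Agent.SS Fermat.Agent.S35 Fermat.Agent.S36 Fermat.Agent.S24
  Fermat.Agent.S44 Fermat.Agent.SS2 Fermat.Agent.TW

local notation "Qb" => AlgebraicClosure ℚ

/-- **[DESC-NEW], first half.** -/
theorem m59g12_desc_new (A : ValuationSubring Qb) {q : ℕ} [hq : Fact q.Prime]
    (hA : A.LiesOverPrime q) (N : ℕ) [NeZero N] [NeZero q] [NeZero (N * q)] (hqN : q ∣ N)
    {m : ℕ} (hm : m ≠ 0) (T : Finset Qb)
    (hT : ∀ t ∈ T, ∀ s ∈ A.inertiaSubgroupIn ℚ, s t = t) {z : JZero (N * q)} (hz : m • z = 0)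
    (hfix : ∀ σ ∈ A.inertiaSubgroupIn ℚ, σ • z = z)
    (hP1 : s35p_P1J N q z = 0) (hP2 : s35p_P2J N q z = 0) :
    ∃ f : modularFunctionFieldBar (N * q), s44f_Rep (N * q) m z f ∧
      ∃ L1 : IntermediateField ℚ Qb, s35d_IsLevel A q L1 ∧ (↑T : Set Qb) ⊆ L1 ∧
        ∃ (g1 : laurentBaseChange L1 (modularFunctionFieldFull (N * q))) (c₀ : Qb)
          (r₀ : modularFunctionFieldBar (N * q)), g1 ≠ 0 ∧ c₀ ≠ 0 ∧ r₀ ≠ 0 ∧
          f = algebraMap Qb (modularFunctionFieldBar (N * q)) c₀ * r₀ ^ m *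
            dsc_bcHom L1 Qb (modularFunctionFieldFull (N * q)) g1 ∧
          (∀ w : Place L1 (laurentBaseChange L1 (modularFunctionFieldFull (N * q))),
            (m : ℤ) ∣ w.ord g1) ∧
          (∃ (a : L1) (s : laurentBaseChange L1 (modularFunctionFieldFull N)),
            s35pe_normAlong (heckeAlphaBar L1 N q) g1 =
              algebraMap L1 (laurentBaseChange L1 (modularFunctionFieldFull N)) a * s ^ m) ∧
          (∃ (a : L1) (s : laurentBaseChange L1 (modularFunctionFieldFull N)),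
            s35pe_normAlong (heckeBetaBar L1 N q) g1 =
              algebraMap L1 (laurentBaseChange L1 (modularFunctionFieldFull N)) a * s ^ m) := by
  obtain ⟨f, hrep, L1, hlev, hTL1, g1, c₀, r₀, hg1, hc₀, hr₀, hfeq, hord⟩ :=
    twfc_desc A hA (N * q) hm T hT hz hfix
  refine ⟨f, hrep, L1, hlev, hTL1, g1, c₀, r₀, hg1, hc₀, hr₀, hfeq, hord, ?_⟩
  obtain ⟨hf, D, hDz, hD⟩ := hrep
  subst hDz
  have hα := s35k_push_kummer (rt_isSepGen_jBar N) _ _ _ _ D hf hD hP1
  have hβ := s35k_push_kummer (rt_isSepGen_jBar N) _ _ _ _ D hf hD hP2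
  have hαpos : 0 < finrankAlong Qb (heckeAlphaBar Qb N q) := by
    rw [s36d_finrankAlong_alpha Qb N q hq.out hqN]; exact hq.out.pos
  have hβpos : 0 < finrankAlong Qb (heckeBetaBar Qb N q) := by
    rw [s36d_finrankAlong_beta Qb N q hq.out hqN]; exact hq.out.pos
  refine ⟨?_, ?_⟩
  · exact s36d_norm_descend L1 (modularFunctionFieldFull N) (modularFunctionFieldFull (N * q))
      (rt_isSepGen_jBar N) (heckeAlphaBar L1 N q) (heckeAlphaBar Qb N q)
      (s36d_norm_bc_alpha L1 N q hq.out hqN) hαpos hm g1 c₀ r₀ f hc₀ hr₀ hfeq (by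
        obtain ⟨c0, h, -, hh⟩ := hα
        exact ⟨c0, h, hh⟩)
  · exact s36d_norm_descend L1 (modularFunctionFieldFull N) (modularFunctionFieldFull (N * q))
      (rt_isSepGen_jBar N) (heckeBetaBar L1 N q) (heckeBetaBar Qb N q)
      (s36d_norm_bc_beta L1 N q hq.out hqN) hβpos hm g1 c₀ r₀ f hc₀ hr₀ hfeq (by
        obtain ⟨c0, h, -, hh⟩ := hβ
        exact ⟨c0, h, hh⟩)

end Fermat.Agent.M59
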