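/-
M59 / Sink B, cell (G12) assembly, part (d) [ABEL3-SHARP] (helper1; #5164 (2), #5195).  Prefix `m59g12_`.

The abstract additive core of S36 [ABEL3] (`s36a_core`, S36/Abel3/Core.lean) with EXACT exponent `1`
when `gcd(q - 1, m) = 1`: Steps A-E of `s36a_core` unchanged, Step F (the constants, exponent `q + 1`)
DROPPED: the conclusion keeps THREE constants (one per vertical valuation) instead of one.

* `m59g12_core_const`     : additive abstract core: `N1 g, N2 g ∈ K + m G`, `g` a unit at the three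
  valuations ⟹ `g = m R + g'` with `g' ≡ kA, kB, kC` (constants) modulo `PA`, `PB`, `PC`;
* `m59g12_core_const_mul` : multiplicative form;
* `m59g12_abel3_const`    : field form, vocabulary of `s36a_abel3` (S36/Abel3/Field.lean); the
  hypotheses `hnC2` and `hroot` of `s36a_abel3` are NOT needed.
-/
import Mathlib
import Fermat.Agent.S36.Abel3.Field

set_option autoImplicit false
set_option linter.unusedSectionVars false
set_option linter.unusedVariables false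

namespace Fermat.Agent.M59

open Fermat.Agent.S36

section Core

variable {G : Type*} [AddCommGroup G]

/-- **[ABEL3-SHARP]**, abstract core. -/
theorem m59g12_core_const (UA UB UC PA PB PC K : AddSubgroup G) (N1 N2 : G →+ G) (q m : ℤ)
    (hPA : PA ≤ UA) (hPB : PB ≤ UB) (hPC : PC ≤ UC)
    (hKA : K ≤ UA) (hKB : K ≤ UB) (hKC : K ≤ UC)
    (hKP : ∀ c ∈ K, c ∈ PC → c ∈ PA ∧ c ∈ PB)
    (hsatA : ∀ x : G, m • x ∈ UA → x ∈ UA) (hsatB : ∀ x : G, m • x ∈ UB → x ∈ UB)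
    (hsatC : ∀ x : G, m • x ∈ UC → x ∈ UC)
    (hnA : ∀ x, x ∈ UA → x ∈ UB → x ∈ UC → N2 x - q • x ∈ PA)
    (hnB : ∀ x, x ∈ UA → x ∈ UB → x ∈ UC → N1 x - q • x ∈ PB)
    (hnC1 : ∀ x, x ∈ UA → x ∈ UB → x ∈ UC → ∀ r ∈ K, x - r ∈ PA →
      N1 x - (r + (q - 1) • x) ∈ PC)
    (hWA : ∀ sA ∈ UA, ∀ sB ∈ UB, ∀ sC ∈ UC, ∃ R, R - sA ∈ PA ∧ R - sB ∈ PB ∧ R - sC ∈ PC)
    (a b : ℤ) (hab : a * q + b * m = 1)
    (a' b' : ℤ) (hab' : a' * (q - 1) + b' * m = 1)
    (g : G) (hgA : g ∈ UA) (hgB : g ∈ UB) (hgC : g ∈ UC) (c1 c2 : G) (hc1 : c1 ∈ K)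
    (hc2 : c2 ∈ K) (r1 r2 : G) (h1 : N1 g = c1 + m • r1) (h2 : N2 g = c2 + m • r2) :
    ∃ R g' : G, ∃ kA ∈ K, ∃ kB ∈ K, ∃ kC ∈ K, g' - kA ∈ PA ∧ g' - kB ∈ PB ∧ g' - kC ∈ PC ∧
      g = m • R + g' := by
  -- Step A
  have hA0 := hnA g hgA hgB hgC
  have hB0 := hnB g hgA hgB hgC
  have hr2 : r2 ∈ UA := by
    apply hsatA
    have : m • r2 = (N2 g - q • g) + q • g - c2 := by rw [h2]; abel
    rw [this]
    exact UA.sub_mem (UA.add_mem (hPA hA0) (UA.zsmul_mem hgA q)) (hKA hc2)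
  have hr1 : r1 ∈ UB := by
    apply hsatB
    have : m • r1 = (N1 g - q • g) + q • g - c1 := by rw [h1]; abel
    rw [this]
    exact UB.sub_mem (UB.add_mem (hPB hB0) (UB.zsmul_mem hgB q)) (hKB hc1)
  set sA : G := a • r2 + b • g with hsA
  set sB : G := a • r1 + b • g with hsB
  have hsAU : sA ∈ UA := UA.add_mem (UA.zsmul_mem hr2 a) (UA.zsmul_mem hgA b)
  have hsBU : sB ∈ UB := UB.add_mem (UB.zsmul_mem hr1 a) (UB.zsmul_mem hgB b)
  have hgA1 : g - (a • c2 + m • sA) ∈ PA := by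
    have : g - (a • c2 + m • sA) = (-a) • (N2 g - q • g) := by
      rw [h2, hsA]
      linear_combination (norm := module) hab.symm • g
    rw [this]
    exact PA.zsmul_mem hA0 _
  have hgB1 : g - (a • c1 + m • sB) ∈ PB := by
    have : g - (a • c1 + m • sB) = (-a) • (N1 g - q • g) := by
      rw [h1, hsB]
      linear_combination (norm := module) hab.symm • g
    rw [this]
    exact PB.zsmul_mem hB0 _
  -- Step C: first approximation
  obtain ⟨R1, hR1A, hR1B, hR1C⟩ := hWA sA hsAU sB hsBU 0 UC.zero_mem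
  have hR1UA : R1 ∈ UA := by
    have : R1 = (R1 - sA) + sA := by abel
    rw [this]; exact UA.add_mem (hPA hR1A) hsAU
  have hR1UB : R1 ∈ UB := by
    have : R1 = (R1 - sB) + sB := by abel
    rw [this]; exact UB.add_mem (hPB hR1B) hsBU
  have hR1UC : R1 ∈ UC := by
    have : R1 = (R1 - 0) := by abel
    rw [this]; exact hPC hR1C
  set g1 : G := g - m • R1 with hg1
  have hg1A : g1 ∈ UA := UA.sub_mem hgA (UA.zsmul_mem hR1UA m)
  have hg1B : g1 ∈ UB := UB.sub_mem hgB (UB.zsmul_mem hR1UB m)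
  have hg1C : g1 ∈ UC := UC.sub_mem hgC (UC.zsmul_mem hR1UC m)
  have hg1PA : g1 - a • c2 ∈ PA := by
    have : g1 - a • c2 = (g - (a • c2 + m • sA)) - m • (R1 - sA) := by
      rw [hg1]; module
    rw [this]
    exact PA.sub_mem hgA1 (PA.zsmul_mem hR1A m)
  have hg1PB : g1 - a • c1 ∈ PB := by
    have : g1 - a • c1 = (g - (a • c1 + m • sB)) - m • (R1 - sB) := by
      rw [hg1]; module
    rw [this]
    exact PB.sub_mem hgB1 (PB.zsmul_mem hR1B m)
  -- Step D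
  have hD1 := hnC1 g1 hg1A hg1B hg1C (a • c2) (K.zsmul_mem hc2 a) hg1PA
  set sC : G := r1 - N1 R1 with hsC
  have hN1g1 : N1 g1 = c1 + m • sC := by
    rw [hg1, map_sub, map_zsmul, h1, hsC]; module
  rw [hN1g1] at hD1
  -- Step E: second approximation
  have hsCU : sC ∈ UC := by
    apply hsatC
    have : m • sC = (c1 + m • sC - (a • c2 + (q - 1) • g1)) + (a • c2 + (q - 1) • g1) - c1 := by
      abel
    rw [this]
    exact UC.sub_mem (UC.add_mem (hPC hD1)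
      (UC.add_mem (hKC (K.zsmul_mem hc2 a)) (UC.zsmul_mem hg1C _))) (hKC hc1)
  obtain ⟨R2, hR2A, hR2B, hR2C⟩ := hWA 0 UA.zero_mem 0 UB.zero_mem sC hsCU
  rw [sub_zero] at hR2A hR2B
  set g2 : G := (q - 1) • g1 - m • R2 with hg2
  have hg2A : g2 - ((q - 1) * a) • c2 ∈ PA := by
    have : g2 - ((q - 1) * a) • c2 = (q - 1) • (g1 - a • c2) - m • R2 := by
      rw [hg2]; module
    rw [this]
    exact PA.sub_mem (PA.zsmul_mem hg1PA _) (PA.zsmul_mem hR2A m)
  have hg2B : g2 - ((q - 1) * a) • c1 ∈ PB := by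
    have : g2 - ((q - 1) * a) • c1 = (q - 1) • (g1 - a • c1) - m • R2 := by
      rw [hg2]; module
    rw [this]
    exact PB.sub_mem (PB.zsmul_mem hg1PB _) (PB.zsmul_mem hR2B m)
  have hg2C : g2 - (c1 - a • c2) ∈ PC := by
    have : g2 - (c1 - a • c2) =
        -(c1 + m • sC - (a • c2 + (q - 1) • g1)) - m • (R2 - sC) := by
      rw [hg2]; module
    rw [this]
    exact PC.sub_mem (PC.neg_mem hD1) (PC.zsmul_mem hR2C m)
  -- the three constants stay
  have hkA : ((q - 1) * a) • c2 ∈ K := K.zsmul_mem hc2 _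
  have hkB : ((q - 1) * a) • c1 ∈ K := K.zsmul_mem hc1 _
  have hkC : c1 - a • c2 ∈ K := K.sub_mem hc1 (K.zsmul_mem hc2 a)
  refine ⟨a' • (R2 + (q - 1) • R1) + b' • g, a' • g2,
    a' • (((q - 1) * a) • c2), K.zsmul_mem hkA _, a' • (((q - 1) * a) • c1), K.zsmul_mem hkB _,
    a' • (c1 - a • c2), K.zsmul_mem hkC _, ?_, ?_, ?_, ?_⟩
  · rw [← zsmul_sub]; exact PA.zsmul_mem hg2A _
  · rw [← zsmul_sub]; exact PB.zsmul_mem hg2B _
  · rw [← zsmul_sub]; exact PC.zsmul_mem hg2C _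
  · rw [hg2, hg1]
    linear_combination (norm := module) hab'.symm • g

end Core

section CoreMul

variable {G : Type*} [CommGroup G]

/-- **[ABEL3-SHARP]**, abstract core, multiplicative form. -/
theorem m59g12_core_const_mul (UA UB UC PA PB PC K : Subgroup G) (N1 N2 : G →* G) (q m : ℤ)
    (hPA : PA ≤ UA) (hPB : PB ≤ UB) (hPC : PC ≤ UC)
    (hKA : K ≤ UA) (hKB : K ≤ UB) (hKC : K ≤ UC)
    (hKP : ∀ c ∈ K, c ∈ PC → c ∈ PA ∧ c ∈ PB)
    (hsatA : ∀ x : G, x ^ m ∈ UA → x ∈ UA) (hsatB : ∀ x : G, x ^ m ∈ UB → x ∈ UB)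
    (hsatC : ∀ x : G, x ^ m ∈ UC → x ∈ UC)
    (hnA : ∀ x, x ∈ UA → x ∈ UB → x ∈ UC → N2 x / x ^ q ∈ PA)
    (hnB : ∀ x, x ∈ UA → x ∈ UB → x ∈ UC → N1 x / x ^ q ∈ PB)
    (hnC1 : ∀ x, x ∈ UA → x ∈ UB → x ∈ UC → ∀ r ∈ K, x / r ∈ PA →
      N1 x / (r * x ^ (q - 1)) ∈ PC)
    (hWA : ∀ sA ∈ UA, ∀ sB ∈ UB, ∀ sC ∈ UC, ∃ R, R / sA ∈ PA ∧ R / sB ∈ PB ∧ R / sC ∈ PC)
    (a b : ℤ) (hab : a * q + b * m = 1)
    (a' b' : ℤ) (hab' : a' * (q - 1) + b' * m = 1)
    (g : G) (hgA : g ∈ UA) (hgB : g ∈ UB) (hgC : g ∈ UC) (c1 c2 : G) (hc1 : c1 ∈ K)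
    (hc2 : c2 ∈ K) (r1 r2 : G) (h1 : N1 g = c1 * r1 ^ m) (h2 : N2 g = c2 * r2 ^ m) :
    ∃ R g' : G, ∃ kA ∈ K, ∃ kB ∈ K, ∃ kC ∈ K, g' / kA ∈ PA ∧ g' / kB ∈ PB ∧ g' / kC ∈ PC ∧
      g = R ^ m * g' :=
  m59g12_core_const (G := Additive G) (Subgroup.toAddSubgroup UA) (Subgroup.toAddSubgroup UB)
    (Subgroup.toAddSubgroup UC) (Subgroup.toAddSubgroup PA) (Subgroup.toAddSubgroup PB)
    (Subgroup.toAddSubgroup PC) (Subgroup.toAddSubgroup K) (MonoidHom.toAdditive N1)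
    (MonoidHom.toAdditive N2) q m (fun x hx => hPA hx) (fun x hx => hPB hx) (fun x hx => hPC hx)
    (fun x hx => hKA hx) (fun x hx => hKB hx) (fun x hx => hKC hx) hKP hsatA hsatB hsatC
    hnA hnB hnC1 hWA a b hab a' b' hab' g hgA hgB hgC c1 c2 hc1 hc2 r1 r2 h1 h2

end CoreMul


section Field

variable {L E : Type*} [Field L] [Field E] [Algebra L E]

/-- **[ABEL3-SHARP], field form**, `gcd(q - 1, m) = 1`: exponent `1`, three constants. -/
theorem m59g12_abel3_const (O : ValuationSubring L) (VA VB VC : ValuationSubring E) (N1 N2 : E →* E)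
    (q m : ℕ) (hq : 1 ≤ q) (hm : 1 ≤ m) (hqm : Nat.Coprime q m) (hq1m : Nat.Coprime (q - 1) m)
    (hVA : ∀ c : L, algebraMap L E c ∈ VA ↔ c ∈ O)
    (hVB : ∀ c : L, algebraMap L E c ∈ VB ↔ c ∈ O)
    (hVC : ∀ c : L, algebraMap L E c ∈ VC ↔ c ∈ O)
    (hnA : ∀ x : E, VA.valuation x = 1 → VB.valuation x = 1 → VC.valuation x = 1 →
      N2 x - x ^ q ∈ VA.nonunits)
    (hnB : ∀ x : E, VA.valuation x = 1 → VB.valuation x = 1 → VC.valuation x = 1 →
      N1 x - x ^ q ∈ VB.nonunits)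
    (hnC1 : ∀ x : E, VA.valuation x = 1 → VB.valuation x = 1 → VC.valuation x = 1 →
      ∀ r : L, O.valuation r = 1 → x - algebraMap L E r ∈ VA.nonunits →
        N1 x - algebraMap L E r * x ^ (q - 1) ∈ VC.nonunits)
    (hWA : ∀ sA sB sC : E, ∃ R : E, R - sA ∈ VA.nonunits ∧ R - sB ∈ VB.nonunits ∧
      R - sC ∈ VC.nonunits)
    (g : E) (hgA : VA.valuation g = 1) (hgB : VB.valuation g = 1) (hgC : VC.valuation g = 1)
    (c1 c2 : L) (hc1 : O.valuation c1 = 1) (hc2 : O.valuation c2 = 1) (r1 r2 : E)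
    (h1 : N1 g = algebraMap L E c1 * r1 ^ m) (h2 : N2 g = algebraMap L E c2 * r2 ^ m) :
    ∃ (R g' : E) (κA κB κC : L), R ≠ 0 ∧ O.valuation κA = 1 ∧ O.valuation κB = 1 ∧
      O.valuation κC = 1 ∧ g' - algebraMap L E κA ∈ VA.nonunits ∧
      g' - algebraMap L E κB ∈ VB.nonunits ∧ g' - algebraMap L E κC ∈ VC.nonunits ∧
      g = R ^ m * g' := by
  classical
  obtain ⟨a, b, hab⟩ : ∃ a b : ℤ, a * (q : ℤ) + b * (m : ℤ) = 1 :=
    Nat.Coprime.isCoprime hqm
  have hqz : ((q : ℤ) - 1) = ((q - 1 : ℕ) : ℤ) := (Nat.cast_pred hq).symm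
  obtain ⟨a', b', hab'⟩ : ∃ a' b' : ℤ, a' * ((q : ℤ) - 1) + b' * (m : ℤ) = 1 := by
    rw [hqz]
    exact Nat.Coprime.isCoprime hq1m
  -- the constant units
  set K : Subgroup Eˣ := Subgroup.map (Units.map (algebraMap L E : L →* E)) O.unitGroup with hK
  have hKmem : ∀ c : Eˣ, c ∈ K ↔ ∃ u : L, O.valuation u = 1 ∧ algebraMap L E u = (c : E) := by
    intro c
    rw [hK, Subgroup.mem_map]
    constructor
    · rintro ⟨u, hu, rfl⟩
      exact ⟨(u : L), (O.mem_unitGroup_iff u).1 hu, rfl⟩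
    · rintro ⟨u, hu, huc⟩
      have hu0 : u ≠ 0 := by
        rintro rfl
        rw [map_zero] at hu
        exact zero_ne_one hu
      refine ⟨Units.mk0 u hu0, (O.mem_unitGroup_iff _).2 hu, ?_⟩
      apply Units.ext
      rw [Units.coe_map]
      exact huc
  have hKU : ∀ (V : ValuationSubring E), (∀ c : L, algebraMap L E c ∈ V ↔ c ∈ O) →
      K ≤ V.unitGroup := by
    intro V hV c hc
    obtain ⟨u, hu, huc⟩ := (hKmem c).1 hc
    rw [V.mem_unitGroup_iff, ← huc]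
    exact s36a_const_unit O V hV hu
  have hg0 : g ≠ 0 := by
    rintro rfl
    rw [map_zero] at hgA
    exact zero_ne_one hgA
  have hc10 : c1 ≠ 0 := by
    rintro rfl
    rw [map_zero] at hc1
    exact zero_ne_one hc1
  have hc20 : c2 ≠ 0 := by
    rintro rfl
    rw [map_zero] at hc2
    exact zero_ne_one hc2
  have hN1g : N1 g ≠ 0 := (IsUnit.map N1 (isUnit_iff_ne_zero.2 hg0)).ne_zero
  have hN2g : N2 g ≠ 0 := (IsUnit.map N2 (isUnit_iff_ne_zero.2 hg0)).ne_zero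
  have hr10 : r1 ≠ 0 := by
    rintro rfl
    rw [zero_pow (by omega), mul_zero] at h1
    exact hN1g h1
  have hr20 : r2 ≠ 0 := by
    rintro rfl
    rw [zero_pow (by omega), mul_zero] at h2
    exact hN2g h2
  have key := m59g12_core_const_mul VA.unitGroup VB.unitGroup VC.unitGroup VA.principalUnitGroup
    VB.principalUnitGroup VC.principalUnitGroup K (Units.map N1) (Units.map N2) (q : ℤ) (m : ℤ)
    VA.principal_units_le_units VB.principal_units_le_units VC.principal_units_le_units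
    (hKU VA hVA) (hKU VB hVB) (hKU VC hVC) ?_ ?_ ?_ ?_ ?_ ?_ ?_ ?_ a b hab a' b' hab'
    (Units.mk0 g hg0) hgA hgB hgC
    (Units.mk0 (algebraMap L E c1) ((map_ne_zero _).2 hc10))
    (Units.mk0 (algebraMap L E c2) ((map_ne_zero _).2 hc20))
    ((hKmem _).2 ⟨c1, hc1, rfl⟩) ((hKmem _).2 ⟨c2, hc2, rfl⟩)
    (Units.mk0 r1 hr10) (Units.mk0 r2 hr20) ?_ ?_
  · obtain ⟨R, g', kA, hkA, kB, hkB, kC, hkC, hgA', hgB', hgC', hfin⟩ := key
    obtain ⟨uA, huA, huAc⟩ := (hKmem kA).1 hkA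
    obtain ⟨uB, huB, huBc⟩ := (hKmem kB).1 hkB
    obtain ⟨uC, huC, huCc⟩ := (hKmem kC).1 hkC
    have hkAu : VA.valuation (kA : E) = 1 := by
      rw [← huAc]; exact s36a_const_unit O VA hVA huA
    have hkBu : VB.valuation (kB : E) = 1 := by
      rw [← huBc]; exact s36a_const_unit O VB hVB huB
    have hkCu : VC.valuation (kC : E) = 1 := by
      rw [← huCc]; exact s36a_const_unit O VC hVC huC
    refine ⟨(R : E), (g' : E), uA, uB, uC, R.ne_zero, huA, huB, huC, ?_, ?_, ?_, ?_⟩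
    · rw [huAc]; exact (s36a_pug_iff VA _ _ hkAu).1 hgA'
    · rw [huBc]; exact (s36a_pug_iff VB _ _ hkBu).1 hgB'
    · rw [huCc]; exact (s36a_pug_iff VC _ _ hkCu).1 hgC'
    · rw [zpow_natCast] at hfin
      have := congrArg (fun z : Eˣ => (z : E)) hfin
      simp only [Units.val_pow_eq_pow_val, Units.val_mul, Units.val_mk0] at this
      exact this
  -- hKP
  · intro c hcK hcC
    obtain ⟨u, hu, huc⟩ := (hKmem c).1 hcK
    have h3 : algebraMap L E (u - 1) ∈ VC.nonunits := by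
      rw [map_sub, map_one, huc]
      exact VC.mem_nonunits_iff.2 ((VC.mem_principalUnitGroup_iff c).1 hcC)
    have h4 : u - 1 ∈ O.nonunits := (s36a_const_nonunit O VC hVC _).1 h3
    constructor
    · rw [VA.mem_principalUnitGroup_iff, ← VA.mem_nonunits_iff, ← huc, ← map_one (algebraMap L E),
        ← map_sub]
      exact (s36a_const_nonunit O VA hVA _).2 h4
    · rw [VB.mem_principalUnitGroup_iff, ← VB.mem_nonunits_iff, ← huc, ← map_one (algebraMap L E),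
        ← map_sub]
      exact (s36a_const_nonunit O VB hVB _).2 h4
  -- hsat
  · intro x hx
    rw [zpow_natCast, VA.mem_unitGroup_iff, Units.val_pow_eq_pow_val] at hx
    exact (VA.mem_unitGroup_iff x).2 (s36a_unit_of_pow VA hm hx)
  · intro x hx
    rw [zpow_natCast, VB.mem_unitGroup_iff, Units.val_pow_eq_pow_val] at hx
    exact (VB.mem_unitGroup_iff x).2 (s36a_unit_of_pow VB hm hx)
  · intro x hx
    rw [zpow_natCast, VC.mem_unitGroup_iff, Units.val_pow_eq_pow_val] at hx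
    exact (VC.mem_unitGroup_iff x).2 (s36a_unit_of_pow VC hm hx)
  -- hnA
  · intro x hxA hxB hxC
    rw [zpow_natCast]
    have hy : VA.valuation ((x ^ q : Eˣ) : E) = 1 := by
      rw [Units.val_pow_eq_pow_val, map_pow, (VA.mem_unitGroup_iff x).1 hxA, one_pow]
    rw [s36a_pug_iff VA _ _ hy, Units.coe_map, Units.val_pow_eq_pow_val]
    exact hnA x hxA hxB hxC
  -- hnB
  · intro x hxA hxB hxC
    rw [zpow_natCast]
    have hy : VB.valuation ((x ^ q : Eˣ) : E) = 1 := by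
      rw [Units.val_pow_eq_pow_val, map_pow, (VB.mem_unitGroup_iff x).1 hxB, one_pow]
    rw [s36a_pug_iff VB _ _ hy, Units.coe_map, Units.val_pow_eq_pow_val]
    exact hnB x hxA hxB hxC
  -- hnC1
  · intro x hxA hxB hxC r hrK hxr
    obtain ⟨u, hu, hur⟩ := (hKmem r).1 hrK
    have hrA : VA.valuation (r : E) = 1 := by
      rw [← hur]; exact s36a_const_unit O VA hVA hu
    have hrC : VC.valuation (r : E) = 1 := by
      rw [← hur]; exact s36a_const_unit O VC hVC hu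
    rw [s36a_pug_iff VA _ _ hrA, ← hur] at hxr
    rw [hqz, zpow_natCast]
    have hy : VC.valuation ((r * x ^ (q - 1) : Eˣ) : E) = 1 := by
      rw [Units.val_mul, Units.val_pow_eq_pow_val, map_mul, map_pow, hrC,
        (VC.mem_unitGroup_iff x).1 hxC, one_pow, one_mul]
    rw [s36a_pug_iff VC _ _ hy, Units.coe_map, Units.val_mul, Units.val_pow_eq_pow_val, ← hur]
    exact hnC1 x hxA hxB hxC u hu hxr
  -- hWA
  · intro sA hsA sB hsB sC hsC
    obtain ⟨R, hRA, hRB, hRC⟩ := hWA (sA : E) (sB : E) (sC : E)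
    have hRA1 : VA.valuation R = 1 := s36a_unit_of_sub VA ((VA.mem_unitGroup_iff sA).1 hsA) hRA
    have hR0 : R ≠ 0 := by
      rintro rfl
      rw [map_zero] at hRA1
      exact zero_ne_one hRA1
    refine ⟨Units.mk0 R hR0, ?_, ?_, ?_⟩
    · rw [s36a_pug_iff VA _ _ ((VA.mem_unitGroup_iff sA).1 hsA)]
      exact hRA
    · rw [s36a_pug_iff VB _ _ ((VB.mem_unitGroup_iff sB).1 hsB)]
      exact hRB
    · rw [s36a_pug_iff VC _ _ ((VC.mem_unitGroup_iff sC).1 hsC)]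
      exact hRC
  -- h1, h2
  · apply Units.ext
    rw [zpow_natCast, Units.coe_map, Units.val_mul, Units.val_pow_eq_pow_val]
    exact h1
  · apply Units.ext
    rw [zpow_natCast, Units.coe_map, Units.val_mul, Units.val_pow_eq_pow_val]
    exact h2

end Field

end Fermat.Agent.M59
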