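/-
M59 / Sink B, cell (G12) assembly, part (d') (helper1).  Prefix `m59g12_`.

[ABEL3-SHARP] on the (G)-list `s36c_G` of S36 [ACORE] (S36/ACore/Pack.lean), WITH THE VERTICAL
NORMALISATION AS AN INPUT (it comes from (G1) [EIS], not from `s36a_vert`):

`m59g12_const_of_G` : `G : s36c_G …`, `gcd(q, m) = gcd(q - 1, m) = 1`, `g ≠ 0` with
`N_i g = C c_i · r_i ^ m` and `(j, h)` such that `g · ϖ ^ j · (h ^ m)⁻¹` is a unit at `VA VB VC`
⟹ `g = C k · R ^ m · g'` with `g' ≡` three constant units at `VA`, `VB`, `VC`.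
-/
import Mathlib
import Fermat.Agent.M59.SinkB.G12.Abel3Sharp
import Fermat.Agent.S36.ACore.Pack

set_option autoImplicit false
set_option linter.unusedSectionVars false
set_option linter.unusedVariables false
set_option maxHeartbeats 1000000

namespace Fermat.Agent.M59

open Fermat.Agent.S36

section G

variable {L E : Type*} [Field L] [Field E] [Algebra L E]

/-- **[ABEL3-SHARP] on the (G)-list**, vertical normalisation given. -/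
theorem m59g12_const_of_G {O : ValuationSubring L} {VA VB VC : ValuationSubring E}
    {N1 N2 : E →* E} {K1 K2 : Subfield E} {q m : ℕ} {ordA ordB ordC : E → ℤ} {ϖ : L} {ε : ℤ}
    {zC : E}
    (G : s36c_G O VA VB VC N1 N2 K1 K2 q m ordA ordB ordC ϖ ε zC)
    (hq : 1 ≤ q) (hm : 1 ≤ m) (hqm : Nat.Coprime q m) (hq1m : Nat.Coprime (q - 1) m)
    (g : E) (hg : g ≠ 0) (j : ℤ) (h : E) (hh : h ≠ 0)
    (hA1 : VA.valuation (g * algebraMap L E ϖ ^ j * (h ^ m)⁻¹) = 1)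
    (hB1 : VB.valuation (g * algebraMap L E ϖ ^ j * (h ^ m)⁻¹) = 1)
    (hC1 : VC.valuation (g * algebraMap L E ϖ ^ j * (h ^ m)⁻¹) = 1)
    (c1 c2 : L) (hc1 : c1 ≠ 0) (hc2 : c2 ≠ 0) (r1 r2 : E)
    (h1 : N1 g = algebraMap L E c1 * r1 ^ m) (h2 : N2 g = algebraMap L E c2 * r2 ^ m) :
    ∃ (k : L) (R g' : E) (κA κB κC : L), k ≠ 0 ∧ R ≠ 0 ∧ O.valuation κA = 1 ∧
      O.valuation κB = 1 ∧ O.valuation κC = 1 ∧ g' - algebraMap L E κA ∈ VA.nonunits ∧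
      g' - algebraMap L E κB ∈ VB.nonunits ∧ g' - algebraMap L E κC ∈ VC.nonunits ∧
      g = algebraMap L E k * R ^ m * g' := by
  have hϖE : algebraMap L E ϖ ≠ 0 := (map_ne_zero _).2 G.hϖ0
  have hWA : ∀ sA sB sC : E, ∃ R : E, R - sA ∈ VA.nonunits ∧ R - sB ∈ VB.nonunits ∧
      R - sC ∈ VC.nonunits := by
    intro sA sB sC
    obtain ⟨x, hx1, hx2, hx3⟩ := G.hWA3 sA sB sC 1 1 1
    rw [mul_one] at hx1 hx2 hx3
    exact ⟨x, hx1, hx2, hx3⟩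
  set g1 : E := g * algebraMap L E ϖ ^ j * (h ^ m)⁻¹ with hg1
  have hzj : algebraMap L E ϖ ^ j ≠ 0 := zpow_ne_zero _ hϖE
  have hhm : h ^ m ≠ 0 := pow_ne_zero _ hh
  -- the norms of `g1`
  have hnorm : ∀ (N : E →* E), (∀ c : L, N (algebraMap L E c) = algebraMap L E c ^ q) →
      ∀ (c : L) (r : E), c ≠ 0 → N g = algebraMap L E c * r ^ m →
      ∃ (c' : L) (r' : E), c' ≠ 0 ∧ N g1 = algebraMap L E c' * r' ^ m := by
    intro N hNc c r hc hN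
    refine ⟨c * (ϖ ^ q) ^ j, r * (N h)⁻¹, mul_ne_zero hc (zpow_ne_zero _ (pow_ne_zero _ G.hϖ0)), ?_⟩
    rw [hg1, map_mul, map_mul, hN, s36a_map_zpow N hϖE, hNc, s36a_map_inv N hhm, map_pow,
      map_mul, map_zpow₀, map_pow, mul_pow, inv_pow]
    ring
  obtain ⟨c1', r1', hc1', hn1⟩ := hnorm N1 G.hNc1 c1 r1 hc1 h1
  obtain ⟨c2', r2', hc2', hn2⟩ := hnorm N2 G.hNc2 c2 r2 hc2 h2
  -- normalise the constants
  have hq1A : VA.valuation (g1 ^ q) = 1 := by rw [map_pow, hA1, one_pow]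
  have hq1B : VB.valuation (g1 ^ q) = 1 := by rw [map_pow, hB1, one_pow]
  have hu1 : VB.valuation (algebraMap L E c1' * r1' ^ m) = 1 := by
    rw [← hn1]
    exact s36a_unit_of_sub VB hq1B (G.hnB g1 hA1 hB1 hC1)
  have hu2 : VA.valuation (algebraMap L E c2' * r2' ^ m) = 1 := by
    rw [← hn2]
    exact s36a_unit_of_sub VA hq1A (G.hnA g1 hA1 hB1 hC1)
  have hϖ1A : VA.valuation (algebraMap L E ϖ) < 1 :=
    VA.mem_nonunits_iff.1 ((s36a_const_nonunit O VA G.hVA ϖ).2 G.hϖm)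
  have hϖ1B : VB.valuation (algebraMap L E ϖ) < 1 :=
    VB.mem_nonunits_iff.1 ((s36a_const_nonunit O VB G.hVB ϖ).2 G.hϖm)
  obtain ⟨d1, i1, hd1, he1⟩ := s36a_normalise O VB ϖ G.hϖO
    (s36a_exists_zpow_of_ord G.hoB hϖE G.hε G.hϖB) hϖ1B G.hϖ0 G.hVB hm c1' hc1' r1' hu1
  obtain ⟨d2, i2, hd2, he2⟩ := s36a_normalise O VA ϖ G.hϖO
    (s36a_exists_zpow_of_ord G.hoA hϖE G.hε G.hϖA) hϖ1A G.hϖ0 G.hVA hm c2' hc2' r2' hu2
  obtain ⟨R, g', κA, κB, κC, hR0, hκA, hκB, hκC, hgA, hgB, hgC, hfin⟩ :=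
    m59g12_abel3_const O VA VB VC N1 N2 q m hq hm hqm hq1m G.hVA G.hVB G.hVC G.hnA G.hnB G.hnC1 hWA
      g1 hA1 hB1 hC1 d1 d2 hd1 hd2 _ _ (hn1.trans he1) (hn2.trans he2)
  refine ⟨ϖ ^ (-j), R * h, g', κA, κB, κC, zpow_ne_zero _ G.hϖ0, mul_ne_zero hR0 hh, hκA, hκB,
    hκC, hgA, hgB, hgC, ?_⟩
  have hgg : g = g1 * algebraMap L E ϖ ^ (-j) * h ^ m := by
    rw [hg1, zpow_neg]
    field_simp
  rw [hgg, hfin, map_zpow₀, mul_pow]
  ring

end G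

end Fermat.Agent.M59
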