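/-
M59 / Sink B, cell (G12) assembly, part (e) (helper1).  Prefix `m59g12_`.

[ABEL3-SHARP] WITHOUT `gcd(q - 1, m) = 1`: the information at the third valuation `VC` is an INPUT
(it comes from (G2') [DELTA-C] when `p ∣ q - 1`): `g ≡ κ · w^m` at `VC` with `κ` a constant unit and
`w` a `VC`-unit.

* `m59g12_core_delta`     : additive abstract core (Steps A-C of `s36a_core` only);
* `m59g12_core_delta_mul` : multiplicative form;
* `m59g12_abel3_delta`    : field form;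
* `m59g12_const_of_G_delta` : on the (G)-list `s36c_G`, vertical normalisation given.
-/
import Mathlib
import Fermat.Agent.M59.SinkB.G12.Abel3G

set_option autoImplicit false
set_option linter.unusedSectionVars false
set_option linter.unusedVariables false
set_option maxHeartbeats 1000000

namespace Fermat.Agent.M59

open Fermat.Agent.S36

section Core

variable {G : Type*} [AddCommGroup G]

/-- **[ABEL3-SHARP] with the `C`-information given**, abstract core. -/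
theorem m59g12_core_delta (UA UB UC PA PB PC K : AddSubgroup G) (N1 N2 : G →+ G) (q m : ℤ)
    (hPA : PA ≤ UA) (hPB : PB ≤ UB) (hPC : PC ≤ UC)
    (hKA : K ≤ UA) (hKB : K ≤ UB)
    (hsatA : ∀ x : G, m • x ∈ UA → x ∈ UA) (hsatB : ∀ x : G, m • x ∈ UB → x ∈ UB)
    (hnA : ∀ x, x ∈ UA → x ∈ UB → x ∈ UC → N2 x - q • x ∈ PA)
    (hnB : ∀ x, x ∈ UA → x ∈ UB → x ∈ UC → N1 x - q • x ∈ PB)
    (hWA : ∀ sA ∈ UA, ∀ sB ∈ UB, ∀ sC ∈ UC, ∃ R, R - sA ∈ PA ∧ R - sB ∈ PB ∧ R - sC ∈ PC)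
    (a b : ℤ) (hab : a * q + b * m = 1)
    (g : G) (hgA : g ∈ UA) (hgB : g ∈ UB) (hgC : g ∈ UC) (c1 c2 : G) (hc1 : c1 ∈ K)
    (hc2 : c2 ∈ K) (r1 r2 : G) (h1 : N1 g = c1 + m • r1) (h2 : N2 g = c2 + m • r2)
    (κ : G) (hκ : κ ∈ K) (w : G) (hw : w ∈ UC) (hC : g - (κ + m • w) ∈ PC) :
    ∃ R g' : G, ∃ kA ∈ K, ∃ kB ∈ K, ∃ kC ∈ K, g' - kA ∈ PA ∧ g' - kB ∈ PB ∧ g' - kC ∈ PC ∧
      g = m • R + g' := by
  have hA0 := hnA g hgA hgB hgC
  have hB0 := hnB g hgA hgB hgC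
  have hr2 : r2 ∈ UA := by
    apply hsatA
    have : m • r2 = (N2 g - q • g) + q • g - c2 := by rw [h2]; abel
    rw [this]
    exact UA.sub_mem (UA.add_mem (hPA hA0) (UA.zsmul_mem hgA q)) (hKA hc2)
  have hr1 : r1 ∈ UB := by
    apply hsatB
    have : m • r1 = (N1 g - q • g) + q • g - c1 := by rw [h1]; abel
    rw [this]
    exact UB.sub_mem (UB.add_mem (hPB hB0) (UB.zsmul_mem hgB q)) (hKB hc1)
  set sA : G := a • r2 + b • g with hsA
  set sB : G := a • r1 + b • g with hsB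
  have hsAU : sA ∈ UA := UA.add_mem (UA.zsmul_mem hr2 a) (UA.zsmul_mem hgA b)
  have hsBU : sB ∈ UB := UB.add_mem (UB.zsmul_mem hr1 a) (UB.zsmul_mem hgB b)
  have hgA1 : g - (a • c2 + m • sA) ∈ PA := by
    have : g - (a • c2 + m • sA) = (-a) • (N2 g - q • g) := by
      rw [h2, hsA]
      linear_combination (norm := module) hab.symm • g
    rw [this]
    exact PA.zsmul_mem hA0 _
  have hgB1 : g - (a • c1 + m • sB) ∈ PB := by
    have : g - (a • c1 + m • sB) = (-a) • (N1 g - q • g) := by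
      rw [h1, hsB]
      linear_combination (norm := module) hab.symm • g
    rw [this]
    exact PB.zsmul_mem hB0 _
  obtain ⟨R, hRA, hRB, hRC⟩ := hWA sA hsAU sB hsBU w hw
  refine ⟨R, g - m • R, a • c2, K.zsmul_mem hc2 a, a • c1, K.zsmul_mem hc1 a, κ, hκ, ?_, ?_, ?_, ?_⟩
  · have : g - m • R - a • c2 = (g - (a • c2 + m • sA)) - m • (R - sA) := by module
    rw [this]
    exact PA.sub_mem hgA1 (PA.zsmul_mem hRA m)
  · have : g - m • R - a • c1 = (g - (a • c1 + m • sB)) - m • (R - sB) := by module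
    rw [this]
    exact PB.sub_mem hgB1 (PB.zsmul_mem hRB m)
  · have : g - m • R - κ = (g - (κ + m • w)) - m • (R - w) := by module
    rw [this]
    exact PC.sub_mem hC (PC.zsmul_mem hRC m)
  · abel

end Core

section CoreMul

variable {G : Type*} [CommGroup G]

/-- **[ABEL3-SHARP] with the `C`-information given**, multiplicative form. -/
theorem m59g12_core_delta_mul (UA UB UC PA PB PC K : Subgroup G) (N1 N2 : G →* G) (q m : ℤ)
    (hPA : PA ≤ UA) (hPB : PB ≤ UB) (hPC : PC ≤ UC)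
    (hKA : K ≤ UA) (hKB : K ≤ UB)
    (hsatA : ∀ x : G, x ^ m ∈ UA → x ∈ UA) (hsatB : ∀ x : G, x ^ m ∈ UB → x ∈ UB)
    (hnA : ∀ x, x ∈ UA → x ∈ UB → x ∈ UC → N2 x / x ^ q ∈ PA)
    (hnB : ∀ x, x ∈ UA → x ∈ UB → x ∈ UC → N1 x / x ^ q ∈ PB)
    (hWA : ∀ sA ∈ UA, ∀ sB ∈ UB, ∀ sC ∈ UC, ∃ R, R / sA ∈ PA ∧ R / sB ∈ PB ∧ R / sC ∈ PC)
    (a b : ℤ) (hab : a * q + b * m = 1)
    (g : G) (hgA : g ∈ UA) (hgB : g ∈ UB) (hgC : g ∈ UC) (c1 c2 : G) (hc1 : c1 ∈ K)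
    (hc2 : c2 ∈ K) (r1 r2 : G) (h1 : N1 g = c1 * r1 ^ m) (h2 : N2 g = c2 * r2 ^ m)
    (κ : G) (hκ : κ ∈ K) (w : G) (hw : w ∈ UC) (hC : g / (κ * w ^ m) ∈ PC) :
    ∃ R g' : G, ∃ kA ∈ K, ∃ kB ∈ K, ∃ kC ∈ K, g' / kA ∈ PA ∧ g' / kB ∈ PB ∧ g' / kC ∈ PC ∧
      g = R ^ m * g' :=
  m59g12_core_delta (G := Additive G) (Subgroup.toAddSubgroup UA) (Subgroup.toAddSubgroup UB)
    (Subgroup.toAddSubgroup UC) (Subgroup.toAddSubgroup PA) (Subgroup.toAddSubgroup PB)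
    (Subgroup.toAddSubgroup PC) (Subgroup.toAddSubgroup K) (MonoidHom.toAdditive N1)
    (MonoidHom.toAdditive N2) q m (fun x hx => hPA hx) (fun x hx => hPB hx) (fun x hx => hPC hx)
    (fun x hx => hKA hx) (fun x hx => hKB hx) hsatA hsatB
    hnA hnB hWA a b hab g hgA hgB hgC c1 c2 hc1 hc2 r1 r2 h1 h2 κ hκ w hw hC

end CoreMul

section Field

variable {L E : Type*} [Field L] [Field E] [Algebra L E]

/-- **[ABEL3-SHARP] with the `C`-information given, field form.** -/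
theorem m59g12_abel3_delta (O : ValuationSubring L) (VA VB VC : ValuationSubring E) (N1 N2 : E →* E)
    (q m : ℕ) (hq : 1 ≤ q) (hm : 1 ≤ m) (hqm : Nat.Coprime q m)
    (hVA : ∀ c : L, algebraMap L E c ∈ VA ↔ c ∈ O)
    (hVB : ∀ c : L, algebraMap L E c ∈ VB ↔ c ∈ O)
    (hVC : ∀ c : L, algebraMap L E c ∈ VC ↔ c ∈ O)
    (hnA : ∀ x : E, VA.valuation x = 1 → VB.valuation x = 1 → VC.valuation x = 1 →
      N2 x - x ^ q ∈ VA.nonunits)
    (hnB : ∀ x : E, VA.valuation x = 1 → VB.valuation x = 1 → VC.valuation x = 1 →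
      N1 x - x ^ q ∈ VB.nonunits)
    (hWA : ∀ sA sB sC : E, ∃ R : E, R - sA ∈ VA.nonunits ∧ R - sB ∈ VB.nonunits ∧
      R - sC ∈ VC.nonunits)
    (g : E) (hgA : VA.valuation g = 1) (hgB : VB.valuation g = 1) (hgC : VC.valuation g = 1)
    (c1 c2 : L) (hc1 : O.valuation c1 = 1) (hc2 : O.valuation c2 = 1) (r1 r2 : E)
    (h1 : N1 g = algebraMap L E c1 * r1 ^ m) (h2 : N2 g = algebraMap L E c2 * r2 ^ m)
    (κ : L) (hκ : O.valuation κ = 1) (w : E) (hw : VC.valuation w = 1)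
    (hC : g - algebraMap L E κ * w ^ m ∈ VC.nonunits) :
    ∃ (R g' : E) (κA κB κC : L), R ≠ 0 ∧ O.valuation κA = 1 ∧ O.valuation κB = 1 ∧
      O.valuation κC = 1 ∧ g' - algebraMap L E κA ∈ VA.nonunits ∧
      g' - algebraMap L E κB ∈ VB.nonunits ∧ g' - algebraMap L E κC ∈ VC.nonunits ∧
      g = R ^ m * g' := by
  classical
  obtain ⟨a, b, hab⟩ : ∃ a b : ℤ, a * (q : ℤ) + b * (m : ℤ) = 1 :=
    Nat.Coprime.isCoprime hqm
  -- the constant units
  set K : Subgroup Eˣ := Subgroup.map (Units.map (algebraMap L E : L →* E)) O.unitGroup with hK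
  have hKmem : ∀ c : Eˣ, c ∈ K ↔ ∃ u : L, O.valuation u = 1 ∧ algebraMap L E u = (c : E) := by
    intro c
    rw [hK, Subgroup.mem_map]
    constructor
    · rintro ⟨u, hu, rfl⟩
      exact ⟨(u : L), (O.mem_unitGroup_iff u).1 hu, rfl⟩
    · rintro ⟨u, hu, huc⟩
      have hu0 : u ≠ 0 := by
        rintro rfl
        rw [map_zero] at hu
        exact zero_ne_one hu
      refine ⟨Units.mk0 u hu0, (O.mem_unitGroup_iff _).2 hu, ?_⟩
      apply Units.ext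
      rw [Units.coe_map]
      exact huc
  have hKU : ∀ (V : ValuationSubring E), (∀ c : L, algebraMap L E c ∈ V ↔ c ∈ O) →
      K ≤ V.unitGroup := by
    intro V hV c hc
    obtain ⟨u, hu, huc⟩ := (hKmem c).1 hc
    rw [V.mem_unitGroup_iff, ← huc]
    exact s36a_const_unit O V hV hu
  have hg0 : g ≠ 0 := by
    rintro rfl
    rw [map_zero] at hgA
    exact zero_ne_one hgA
  have hw0 : w ≠ 0 := by
    rintro rfl
    rw [map_zero] at hw
    exact zero_ne_one hw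
  have hne : ∀ {c : L}, O.valuation c = 1 → c ≠ 0 := by
    intro c hc
    rintro rfl
    rw [map_zero] at hc
    exact zero_ne_one hc
  have hc10 : c1 ≠ 0 := hne hc1
  have hc20 : c2 ≠ 0 := hne hc2
  have hκ0 : κ ≠ 0 := hne hκ
  have hN1g : N1 g ≠ 0 := (IsUnit.map N1 (isUnit_iff_ne_zero.2 hg0)).ne_zero
  have hN2g : N2 g ≠ 0 := (IsUnit.map N2 (isUnit_iff_ne_zero.2 hg0)).ne_zero
  have hr10 : r1 ≠ 0 := by
    rintro rfl
    rw [zero_pow (by omega), mul_zero] at h1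
    exact hN1g h1
  have hr20 : r2 ≠ 0 := by
    rintro rfl
    rw [zero_pow (by omega), mul_zero] at h2
    exact hN2g h2
  have key := m59g12_core_delta_mul VA.unitGroup VB.unitGroup VC.unitGroup VA.principalUnitGroup
    VB.principalUnitGroup VC.principalUnitGroup K (Units.map N1) (Units.map N2) (q : ℤ) (m : ℤ)
    VA.principal_units_le_units VB.principal_units_le_units VC.principal_units_le_units
    (hKU VA hVA) (hKU VB hVB) ?_ ?_ ?_ ?_ ?_ a b hab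
    (Units.mk0 g hg0) hgA hgB hgC
    (Units.mk0 (algebraMap L E c1) ((map_ne_zero _).2 hc10))
    (Units.mk0 (algebraMap L E c2) ((map_ne_zero _).2 hc20))
    ((hKmem _).2 ⟨c1, hc1, rfl⟩) ((hKmem _).2 ⟨c2, hc2, rfl⟩)
    (Units.mk0 r1 hr10) (Units.mk0 r2 hr20) ?_ ?_
    (Units.mk0 (algebraMap L E κ) ((map_ne_zero _).2 hκ0)) ((hKmem _).2 ⟨κ, hκ, rfl⟩)
    (Units.mk0 w hw0) hw ?_
  · obtain ⟨R, g', kA, hkA, kB, hkB, kC, hkC, hgA', hgB', hgC', hfin⟩ := key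
    obtain ⟨uA, huA, huAc⟩ := (hKmem kA).1 hkA
    obtain ⟨uB, huB, huBc⟩ := (hKmem kB).1 hkB
    obtain ⟨uC, huC, huCc⟩ := (hKmem kC).1 hkC
    have hkAu : VA.valuation (kA : E) = 1 := by
      rw [← huAc]; exact s36a_const_unit O VA hVA huA
    have hkBu : VB.valuation (kB : E) = 1 := by
      rw [← huBc]; exact s36a_const_unit O VB hVB huB
    have hkCu : VC.valuation (kC : E) = 1 := by
      rw [← huCc]; exact s36a_const_unit O VC hVC huC
    refine ⟨(R : E), (g' : E), uA, uB, uC, R.ne_zero, huA, huB, huC, ?_, ?_, ?_, ?_⟩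
    · rw [huAc]; exact (s36a_pug_iff VA _ _ hkAu).1 hgA'
    · rw [huBc]; exact (s36a_pug_iff VB _ _ hkBu).1 hgB'
    · rw [huCc]; exact (s36a_pug_iff VC _ _ hkCu).1 hgC'
    · rw [zpow_natCast] at hfin
      have := congrArg (fun z : Eˣ => (z : E)) hfin
      simp only [Units.val_pow_eq_pow_val, Units.val_mul, Units.val_mk0] at this
      exact this
  -- hsat
  · intro x hx
    rw [zpow_natCast, VA.mem_unitGroup_iff, Units.val_pow_eq_pow_val] at hx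
    exact (VA.mem_unitGroup_iff x).2 (s36a_unit_of_pow VA hm hx)
  · intro x hx
    rw [zpow_natCast, VB.mem_unitGroup_iff, Units.val_pow_eq_pow_val] at hx
    exact (VB.mem_unitGroup_iff x).2 (s36a_unit_of_pow VB hm hx)
  -- hnA
  · intro x hxA hxB hxC
    rw [zpow_natCast]
    have hy : VA.valuation ((x ^ q : Eˣ) : E) = 1 := by
      rw [Units.val_pow_eq_pow_val, map_pow, (VA.mem_unitGroup_iff x).1 hxA, one_pow]
    rw [s36a_pug_iff VA _ _ hy, Units.coe_map, Units.val_pow_eq_pow_val]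
    exact hnA x hxA hxB hxC
  -- hnB
  · intro x hxA hxB hxC
    rw [zpow_natCast]
    have hy : VB.valuation ((x ^ q : Eˣ) : E) = 1 := by
      rw [Units.val_pow_eq_pow_val, map_pow, (VB.mem_unitGroup_iff x).1 hxB, one_pow]
    rw [s36a_pug_iff VB _ _ hy, Units.coe_map, Units.val_pow_eq_pow_val]
    exact hnB x hxA hxB hxC
  -- hWA
  · intro sA hsA sB hsB sC hsC
    obtain ⟨R, hRA, hRB, hRC⟩ := hWA (sA : E) (sB : E) (sC : E)
    have hRA1 : VA.valuation R = 1 := s36a_unit_of_sub VA ((VA.mem_unitGroup_iff sA).1 hsA) hRA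
    have hR0 : R ≠ 0 := by
      rintro rfl
      rw [map_zero] at hRA1
      exact zero_ne_one hRA1
    refine ⟨Units.mk0 R hR0, ?_, ?_, ?_⟩
    · rw [s36a_pug_iff VA _ _ ((VA.mem_unitGroup_iff sA).1 hsA)]
      exact hRA
    · rw [s36a_pug_iff VB _ _ ((VB.mem_unitGroup_iff sB).1 hsB)]
      exact hRB
    · rw [s36a_pug_iff VC _ _ ((VC.mem_unitGroup_iff sC).1 hsC)]
      exact hRC
  -- h1, h2
  · apply Units.ext
    rw [zpow_natCast, Units.coe_map, Units.val_mul, Units.val_pow_eq_pow_val]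
    exact h1
  · apply Units.ext
    rw [zpow_natCast, Units.coe_map, Units.val_mul, Units.val_pow_eq_pow_val]
    exact h2
  -- hC
  · rw [zpow_natCast]
    have hy : VC.valuation ((Units.mk0 (algebraMap L E κ) ((map_ne_zero _).2 hκ0) *
        Units.mk0 w hw0 ^ m : Eˣ) : E) = 1 := by
      rw [Units.val_mul, Units.val_pow_eq_pow_val, map_mul, map_pow, Units.val_mk0, Units.val_mk0,
        hw, one_pow, mul_one]
      exact s36a_const_unit O VC hVC hκ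
    rw [s36a_pug_iff VC _ _ hy, Units.val_mul, Units.val_pow_eq_pow_val]
    exact hC

end Field

section G

variable {L E : Type*} [Field L] [Field E] [Algebra L E]

/-- **[ABEL3-SHARP] with the `C`-information given, on the (G)-list**, vertical normalisation
given. -/
theorem m59g12_const_of_G_delta {O : ValuationSubring L} {VA VB VC : ValuationSubring E}
    {N1 N2 : E →* E} {K1 K2 : Subfield E} {q m : ℕ} {ordA ordB ordC : E → ℤ} {ϖ : L} {ε : ℤ}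
    {zC : E}
    (G : s36c_G O VA VB VC N1 N2 K1 K2 q m ordA ordB ordC ϖ ε zC)
    (hq : 1 ≤ q) (hm : 1 ≤ m) (hqm : Nat.Coprime q m)
    (g : E) (hg : g ≠ 0) (j : ℤ) (h : E) (hh : h ≠ 0)
    (hA1 : VA.valuation (g * algebraMap L E ϖ ^ j * (h ^ m)⁻¹) = 1)
    (hB1 : VB.valuation (g * algebraMap L E ϖ ^ j * (h ^ m)⁻¹) = 1)
    (hC1 : VC.valuation (g * algebraMap L E ϖ ^ j * (h ^ m)⁻¹) = 1)
    (c1 c2 : L) (hc1 : c1 ≠ 0) (hc2 : c2 ≠ 0) (r1 r2 : E)
    (h1 : N1 g = algebraMap L E c1 * r1 ^ m) (h2 : N2 g = algebraMap L E c2 * r2 ^ m)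
    (κ : L) (hκ : O.valuation κ = 1) (w : E) (hw : VC.valuation w = 1)
    (hC : g * algebraMap L E ϖ ^ j * (h ^ m)⁻¹ - algebraMap L E κ * w ^ m ∈ VC.nonunits) :
    ∃ (k : L) (R g' : E) (κA κB κC : L), k ≠ 0 ∧ R ≠ 0 ∧ O.valuation κA = 1 ∧
      O.valuation κB = 1 ∧ O.valuation κC = 1 ∧ g' - algebraMap L E κA ∈ VA.nonunits ∧
      g' - algebraMap L E κB ∈ VB.nonunits ∧ g' - algebraMap L E κC ∈ VC.nonunits ∧
      g = algebraMap L E k * R ^ m * g' := by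
  have hϖE : algebraMap L E ϖ ≠ 0 := (map_ne_zero _).2 G.hϖ0
  have hWA : ∀ sA sB sC : E, ∃ R : E, R - sA ∈ VA.nonunits ∧ R - sB ∈ VB.nonunits ∧
      R - sC ∈ VC.nonunits := by
    intro sA sB sC
    obtain ⟨x, hx1, hx2, hx3⟩ := G.hWA3 sA sB sC 1 1 1
    rw [mul_one] at hx1 hx2 hx3
    exact ⟨x, hx1, hx2, hx3⟩
  set g1 : E := g * algebraMap L E ϖ ^ j * (h ^ m)⁻¹ with hg1
  have hzj : algebraMap L E ϖ ^ j ≠ 0 := zpow_ne_zero _ hϖE
  have hhm : h ^ m ≠ 0 := pow_ne_zero _ hh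
  -- the norms of `g1`
  have hnorm : ∀ (N : E →* E), (∀ c : L, N (algebraMap L E c) = algebraMap L E c ^ q) →
      ∀ (c : L) (r : E), c ≠ 0 → N g = algebraMap L E c * r ^ m →
      ∃ (c' : L) (r' : E), c' ≠ 0 ∧ N g1 = algebraMap L E c' * r' ^ m := by
    intro N hNc c r hc hN
    refine ⟨c * (ϖ ^ q) ^ j, r * (N h)⁻¹, mul_ne_zero hc (zpow_ne_zero _ (pow_ne_zero _ G.hϖ0)), ?_⟩
    rw [hg1, map_mul, map_mul, hN, s36a_map_zpow N hϖE, hNc, s36a_map_inv N hhm, map_pow,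
      map_mul, map_zpow₀, map_pow, mul_pow, inv_pow]
    ring
  obtain ⟨c1', r1', hc1', hn1⟩ := hnorm N1 G.hNc1 c1 r1 hc1 h1
  obtain ⟨c2', r2', hc2', hn2⟩ := hnorm N2 G.hNc2 c2 r2 hc2 h2
  -- normalise the constants
  have hq1A : VA.valuation (g1 ^ q) = 1 := by rw [map_pow, hA1, one_pow]
  have hq1B : VB.valuation (g1 ^ q) = 1 := by rw [map_pow, hB1, one_pow]
  have hu1 : VB.valuation (algebraMap L E c1' * r1' ^ m) = 1 := by
    rw [← hn1]
    exact s36a_unit_of_sub VB hq1B (G.hnB g1 hA1 hB1 hC1)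
  have hu2 : VA.valuation (algebraMap L E c2' * r2' ^ m) = 1 := by
    rw [← hn2]
    exact s36a_unit_of_sub VA hq1A (G.hnA g1 hA1 hB1 hC1)
  have hϖ1A : VA.valuation (algebraMap L E ϖ) < 1 :=
    VA.mem_nonunits_iff.1 ((s36a_const_nonunit O VA G.hVA ϖ).2 G.hϖm)
  have hϖ1B : VB.valuation (algebraMap L E ϖ) < 1 :=
    VB.mem_nonunits_iff.1 ((s36a_const_nonunit O VB G.hVB ϖ).2 G.hϖm)
  obtain ⟨d1, i1, hd1, he1⟩ := s36a_normalise O VB ϖ G.hϖO
    (s36a_exists_zpow_of_ord G.hoB hϖE G.hε G.hϖB) hϖ1B G.hϖ0 G.hVB hm c1' hc1' r1' hu1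
  obtain ⟨d2, i2, hd2, he2⟩ := s36a_normalise O VA ϖ G.hϖO
    (s36a_exists_zpow_of_ord G.hoA hϖE G.hε G.hϖA) hϖ1A G.hϖ0 G.hVA hm c2' hc2' r2' hu2
  obtain ⟨R, g', κA, κB, κC, hR0, hκA, hκB, hκC, hgA, hgB, hgC, hfin⟩ :=
    m59g12_abel3_delta O VA VB VC N1 N2 q m hq hm hqm G.hVA G.hVB G.hVC G.hnA G.hnB hWA
      g1 hA1 hB1 hC1 d1 d2 hd1 hd2 _ _ (hn1.trans he1) (hn2.trans he2) κ hκ w hw hC
  refine ⟨ϖ ^ (-j), R * h, g', κA, κB, κC, zpow_ne_zero _ G.hϖ0, mul_ne_zero hR0 hh, hκA, hκB,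
    hκC, hgA, hgB, hgC, ?_⟩
  have hgg : g = g1 * algebraMap L E ϖ ^ (-j) * h ^ m := by
    rw [hg1, zpow_neg]
    field_simp
  rw [hgg, hfin, map_zpow₀, mul_pow]
  ring

end G

end Fermat.Agent.M59
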