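/-
M59 / Sink B, cell (G12) assembly, part (d'') (helper1).  Prefix `m59g12_`.

[ABEL3-SHARP] ON THE CONCRETE LEGENDRE TOWER: over a base `(L, O)` of [NF2-CTX] with a third valuation
`VC` (package `s36asm_Third`), for `g ∈ E₂ = lg_E L (N' q q)` with `s36_NewAt N' q hq2 m g`,
`gcd(q, m) = 1`, a vertical normalisation `(j, h)` of `g`, and EITHER `gcd(q - 1, m) = 1` OR the
`VC`-residue of SOME vertical normalisation `(j', h')` is a constant times an `m`-th power ([DELTA-C];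
transferred to `(j, h)` by `m59g12_resC_transfer`):
`g = C k · R^m · g'` with `g'` congruent to constant units of `O` at `VA`, `VB`, `VC`.

= the instantiation of `s36asm_coreAt_of_tower` (S36/Model/AsmLeg.lean) with `m59g12_const_of_G`
in place of `s36at_core`: tower from `s36asm_tower_of_third`, (G)-list from `s36at_G`, (root) from
`s36rt_leg_VA / _VB / _VC`.
-/
import Mathlib
import Fermat.Agent.M59.SinkB.G12.Abel3G
import Fermat.Agent.M59.SinkB.G12.Abel3Delta
import Fermat.Agent.M59.SinkB.G12.Transfer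
import Fermat.Agent.S36.Model.AsmLegFinal
import Fermat.Agent.S36.ATower.Pack

set_option autoImplicit false
set_option linter.unusedSectionVars false
set_option linter.unusedVariables false
set_option linter.style.haveILetI false
set_option synthInstance.maxHeartbeats 400000
set_option maxHeartbeats 1000000

noncomputable section

open ModularCurve AlgebraicCurve IntermediateField IsLocalRing
open Fermat.Agent.JT3 Fermat.Agent.SS Fermat.Agent.S35 Fermat.Agent.S36

namespace Fermat.Agent.M59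

section Key

variable {L : Type*} [Field L] {F1 E2 : IntermediateField L (LaurentSeries L)}

/-- the norm relation of `s36_NewAt` in helper11's vocabulary (the `key` of
`s36c_coreAt_gen_tower`). -/
theorem m59g12_norm_key (hF : F1 ≤ E2) (m : ℕ) (g : ↥E2) (hg : g ≠ 0) (c : L) (r : ↥F1)
    (h : (letI := ssm_gi_algebra hF; Algebra.norm ↥F1 g) = algebraMap L ↥F1 c * r ^ m) :
    c ≠ 0 ∧ s36c_normIncl hF g =
      algebraMap L ↥E2 c * (IntermediateField.inclusion hF r) ^ m := by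
  have e : s36c_normIncl hF g =
      algebraMap L ↥E2 c * (IntermediateField.inclusion hF r) ^ m := by
    rw [s36c_normIncl_apply, h, map_mul, map_pow]
    rfl
  refine ⟨?_, e⟩
  rintro rfl
  rw [map_zero, zero_mul] at e
  exact s36a_map_ne_zero (s36c_normIncl hF) hg e

end Key

section Legendre

variable {L : Type*} [Field L] [CharZero L] [Algebra L (AlgebraicClosure ℚ)]
  (O : ValuationSubring L) [IsDiscreteValuationRing O] {π : O} (hπ : Irreducible π)
variable (N' q : ℕ) [NeZero N'] [NeZero q] [hq : Fact q.Prime] [CharP (ResidueField O) q]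
  (hq2 : ¬ 2 ∣ q) (hqN' : ¬ q ∣ N')

/-- **[ABEL3-SHARP] on the concrete Legendre tower.** -/
theorem m59g12_const_of_third (u : ↥O) (hu : IsUnit u) (hqu : ((q : ℕ) : ↥O) = π * u)
    {VC : ValuationSubring ↥(lg_E L (N' * q * q))} (T3 : s36asm_Third O hπ N' q hq2 hqN' VC)
    (m : ℕ) (hqm : ¬ q ∣ m)
    (g : ↥(lg_E L (N' * q * q))) (hNew : s36_NewAt (L := L) N' q hq2 m g)
    (j : ℤ) (h : ↥(lg_E L (N' * q * q))) (hh : h ≠ 0)
    (hA1 : (s36i_VA O hπ (N' * q) q).valuation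
      (g * algebraMap L ↥(lg_E L (N' * q * q)) ((π : ↥O) : L) ^ j * (h ^ m)⁻¹) = 1)
    (hB1 : (s36i_VB O hπ N' q hq2 hqN').valuation
      (g * algebraMap L ↥(lg_E L (N' * q * q)) ((π : ↥O) : L) ^ j * (h ^ m)⁻¹) = 1)
    (hC1 : VC.valuation
      (g * algebraMap L ↥(lg_E L (N' * q * q)) ((π : ↥O) : L) ^ j * (h ^ m)⁻¹) = 1)
    (hCinfo : Nat.Coprime (q - 1) m ∨
      ∃ (j' : ℤ) (h' : ↥(lg_E L (N' * q * q))) (κ : L) (w : ↥(lg_E L (N' * q * q))), h' ≠ 0 ∧
        (s36i_VA O hπ (N' * q) q).valuation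
          (g * algebraMap L ↥(lg_E L (N' * q * q)) ((π : ↥O) : L) ^ j' * (h' ^ m)⁻¹) = 1 ∧
        VC.valuation
          (g * algebraMap L ↥(lg_E L (N' * q * q)) ((π : ↥O) : L) ^ j' * (h' ^ m)⁻¹) = 1 ∧
        O.valuation κ = 1 ∧ VC.valuation w = 1 ∧
        g * algebraMap L ↥(lg_E L (N' * q * q)) ((π : ↥O) : L) ^ j' * (h' ^ m)⁻¹ -
          algebraMap L ↥(lg_E L (N' * q * q)) κ * w ^ m ∈ VC.nonunits) :
    ∃ (k : L) (R g' : ↥(lg_E L (N' * q * q))) (κA κB κC : L), k ≠ 0 ∧ R ≠ 0 ∧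
      O.valuation κA = 1 ∧ O.valuation κB = 1 ∧ O.valuation κC = 1 ∧
      g' - algebraMap L ↥(lg_E L (N' * q * q)) κA ∈ (s36i_VA O hπ (N' * q) q).nonunits ∧
      g' - algebraMap L ↥(lg_E L (N' * q * q)) κB ∈ (s36i_VB O hπ N' q hq2 hqN').nonunits ∧
      g' - algebraMap L ↥(lg_E L (N' * q * q)) κC ∈ VC.nonunits ∧
      g = algebraMap L ↥(lg_E L (N' * q * q)) k * R ^ m * g' := by
  have T := s36asm_tower_of_third O hπ N' q hq2 hqN' u hu hqu T3
  letI := ssm_gi_algebra (ssm_al_E_le L (N' * q) q)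
  letI := ssm_gi_algebra (ssm_al_E_beta_le L (N' * q) q hq2)
  letI := ssm_gi_algebraV (ssm_al_E_le L (N' * q) q) (ssm_gl_V1 O hπ N' q)
  letI := ssm_gi_algebraV (ssm_al_E_le L (N' * q) q) (s36i_VV O hπ N' q hq2 hqN')
  letI := ssm_gi_algebraV (ssm_al_E_beta_le L (N' * q) q hq2) (s36i_RU O hπ N' q hq2 hqN')
  letI := ssm_gi_algebraV (ssm_al_E_beta_le L (N' * q) q hq2) (s36i_RG O hπ (N' * q) q hq2)
  haveI := ssm_gi_isScalarTower (ssm_al_E_le L (N' * q) q) (ssm_gl_V1 O hπ N' q)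
  haveI := ssm_gi_isScalarTower (ssm_al_E_le L (N' * q) q) (s36i_VV O hπ N' q hq2 hqN')
  haveI := ssm_gi_isScalarTower (ssm_al_E_beta_le L (N' * q) q hq2) (s36i_RU O hπ N' q hq2 hqN')
  haveI := ssm_gi_isScalarTower (ssm_al_E_beta_le L (N' * q) q hq2)
    (s36i_RG O hπ (N' * q) q hq2)
  haveI := ssm_gi_isScalarTower_base (ssm_al_E_le L (N' * q) q)
  haveI := ssm_gi_isScalarTower_base (ssm_al_E_beta_le L (N' * q) q hq2)
  have hT : s36at_Tower (K1 := ↥(lg_E L (N' * q)))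
      (K2 := ↥((lg_E L (N' * q)).map (qExpandAlgHomC L q)))
      O (π : L) q (s36i_VA O hπ (N' * q) q) (s36i_VB O hπ N' q hq2 hqN') VC
      _ _ _ _ _ _ _ _ _ _ := T
  have hq1 : q - 1 + 1 = q := Nat.sub_add_cancel hq.out.one_le
  haveI : FiniteDimensional ↥(lg_E L (N' * q)) ↥(lg_E L (N' * q * q)) :=
    ssm_gi_finiteDimensional (n := q - 1) (by rw [hq1]; exact hT.side1.finrank_eq)
  haveI : FiniteDimensional ↥((lg_E L (N' * q)).map (qExpandAlgHomC L q))
      ↥(lg_E L (N' * q * q)) :=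
    ssm_gi_finiteDimensional (n := q - 1) (by rw [hq1]; exact hT.side2.finrank_eq)
  haveI : Algebra.IsSeparable ↥(lg_E L (N' * q)) ↥(lg_E L (N' * q * q)) := ssm_gi_isSeparable
  haveI : Algebra.IsSeparable ↥((lg_E L (N' * q)).map (qExpandAlgHomC L q))
      ↥(lg_E L (N' * q * q)) := ssm_gi_isSeparable
  have hm1 : 1 ≤ m := by
    rcases Nat.eq_zero_or_pos m with h | h
    · exact absurd (h ▸ dvd_zero q) hqm
    · exact h
  have hcop : Nat.Coprime q m := (Nat.Prime.coprime_iff_not_dvd hq.out).2 hqm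
  have hmres : ((m : ℕ) : ResidueField O) ≠ 0 := fun h =>
    hqm ((CharP.cast_eq_zero_iff (ResidueField O) q m).1 h)
  -- the (root) property at `VC`
  have hrootC : s36rt_Root O VC m := by
    refine s36rt_leg_VC O hπ N' q m hmres VC ?_ ?_
    · intro z
      have h := hT.side1.overC z
      rw [ssm_gi_mem_range] at h
      exact h
    · intro a ha
      obtain ⟨r0, hr0⟩ := hT.side1.resC a ha
      exact ⟨(r0 : ↥(lg_E L (N' * q))), hr0⟩
  have G := s36at_G hT m (fun y hy c hc h => hrootC y hy c hc h)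
    (fun y hy c hc h => s36rt_leg_VA O hπ N' q m hmres y hy c hc h)
    (fun y hy c hc h => s36rt_leg_VB O hπ N' q hq2 hqN' m hmres y hy c hc h)
  obtain ⟨hg, hord, ⟨c1, r1, hr1, h1⟩, ⟨c2, r2, hr2, h2⟩⟩ := hNew
  obtain ⟨hc1, e1⟩ := m59g12_norm_key (ssm_al_E_le L (N' * q) q) m g hg c1 r1 h1
  obtain ⟨hc2, e2⟩ := m59g12_norm_key (ssm_al_E_beta_le L (N' * q) q hq2) m g hg c2 r2 h2
  rcases hCinfo with hq1m | ⟨j', h', κ, w, hh', hA1', hC1', hκ, hw, hC⟩
  · exact m59g12_const_of_G G hq.out.one_le hm1 hcop hq1m g hg j h hh hA1 hB1 hC1 c1 c2 hc1 hc2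
      _ _ e1 e2
  · obtain ⟨w₂, hw₂, hC₂⟩ := m59g12_resC_transfer G hm1 g hg j h hh hA1 hC1 j' h' hh' hA1' hC1'
      κ w hw hC
    exact m59g12_const_of_G_delta G hq.out.one_le hm1 hcop g hg j h hh hA1 hB1 hC1 c1 c2 hc1 hc2
      _ _ e1 e2 κ hκ w₂ hw₂ hC₂

end Legendre

end Fermat.Agent.M59
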