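/-
M59 / Sink B, cell (G12) (helper1): THE INNER SEAMS OF THE (G12) ASSEMBLY.  Prefix `m59sb_`.

Context of `m59sb_G12_stmt` (M59/SinkB/Defs.lean) plus the two ENTRY hypotheses
`(α_q)_* z = 0 = (β_q)_* z` (`s35p_P1J`, `s35p_P2J` at the level pair `(N' q q, N' q)`); the other
case is the push-forward `z' := (α_q)_* z` or `(β_q)_* z`, proved in the assembly.

* `m59sb_Vert0At O hπ N' q hq2 hqN' m g` : THE VERTICAL NORMAL FORM over an unramified base `(L, O)`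
  ([NF2-CTX]): for every third valuation `VC` there are `j : ℤ` and `h ≠ 0` with
  `g · π^j · (h^m)⁻¹` a unit at `VA`, `VB`, `VC`.
* `m59sb_Eis_stmt` = (G1) [EIS]: for a non-Eisenstein eigenclass `z`, there is a finite `I_A`-fixed set
  `T` of constants such that over EVERY unramified level `L1 ⊇ T` and for EVERY model `g1` over `L1`
  of a representing function of `z` (up to a constant and a `p`-th power): `Vert0At p (ι g1)`.
* `m59sb_DeltaC_stmt` = (G2') [DELTA-C], needed only when `p ∣ q - 1`: either there is a nonzero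
  eigenclass of level `N' q` with the same eigenvalues, or (same quantifier shape as [EIS]) for every
  `(j, h)` normalising `ι g1` vertically, the unit `u = ι g1 · π^j · (h^p)⁻¹` is, at `VC`, congruent to
  a constant unit times a `p`-th power of a `VC`-unit.
* ISSUE 2 (same file): `m59sb_IsModel A N' q p z L1 g1` packs what the assembly knows about a model
  `g1` over a level `L1` (representing function of `z` up to `c₀ · r₀^p`, horizontal orders, the two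
  norm relations over `L1`); [EIS] takes it as its hypothesis.  `m59sb_LowChar N' q p S a` = a nonzero
  eigen-character `gh_H N' →+ ZMod p` (the input of `s44c_lift`; the δ-exit of [DELTA-C] at level `N'`),
  `m59sb_ResCPow1` = SOME vertical normalisation has a `VC`-residue `κ · w^p`,
  `m59sb_DeltaC2_stmt` ([DELTA-C], conclusion `LowChar ∨ ResCPow1 over all levels ⊇ T`),
  `m59sb_G12c_stmt` = (G12) with the THREE-WAY conclusion `TorAt ∨ level N' q ∨ LowChar`.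
The assemblies `m59g12_G12_of : Eis → DeltaC → G12` and `m59g12_G12c_of : Eis → DeltaC2 → G12c` are in
M59/SinkB/G12/Asm.lean.
-/
import Mathlib
import Fermat.Agent.M59.SinkB.Defs
import Fermat.Agent.S44.Old0.Lift

set_option autoImplicit false
set_option linter.unusedSectionVars false
set_option linter.unusedVariables false
set_option linter.style.haveILetI false
set_option synthInstance.maxHeartbeats 400000
set_option maxHeartbeats 1000000

noncomputable section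

namespace Fermat.Agent.M59

open ModularCurve AlgebraicCurve IntermediateField IsLocalRing
open Fermat.Agent.JT3 Fermat.Agent.SS Fermat.Agent.S35 Fermat.Agent.S36 Fermat.Agent.S24
  Fermat.Agent.S44 Fermat.Agent.SS2 Fermat.Agent.TW

local notation "Qb" => AlgebraicClosure ℚ

section Legendre

variable {L : Type*} [Field L] [CharZero L] [Algebra L (AlgebraicClosure ℚ)]
  (O : ValuationSubring L) [IsDiscreteValuationRing O] {π : O} (hπ : Irreducible π)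
variable (N' q : ℕ) [NeZero N'] [NeZero q] [hq : Fact q.Prime] [CharP (ResidueField O) q]
  (hq2 : ¬ 2 ∣ q) (hqN' : ¬ q ∣ N')

/-- `u` is a unit at the three vertical valuations `VA`, `VB`, `VC`. -/
def m59sb_Unit3 (VC : ValuationSubring ↥(lg_E L (N' * q * q))) (u : ↥(lg_E L (N' * q * q))) : Prop :=
  (s36i_VA O hπ (N' * q) q).valuation u = 1 ∧
    (s36i_VB O hπ N' q hq2 hqN').valuation u = 1 ∧ VC.valuation u = 1

/-- **the vertical normal form**: for every third valuation `VC`, `g = π^(-j) · h^m · u` with `u` a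
unit at `VA`, `VB`, `VC`. -/
def m59sb_Vert0At (m : ℕ) (g : ↥(lg_E L (N' * q * q))) : Prop :=
  ∀ VC : ValuationSubring ↥(lg_E L (N' * q * q)), s36asm_Third O hπ N' q hq2 hqN' VC →
    ∃ (j : ℤ) (h : ↥(lg_E L (N' * q * q))), h ≠ 0 ∧
      m59sb_Unit3 O hπ N' q hq2 hqN' VC
        (g * algebraMap L ↥(lg_E L (N' * q * q)) ((π : ↥O) : L) ^ j * (h ^ m)⁻¹)

/-- the `VC`-residue of every vertical normalisation of `g` is a constant times an `m`-th power. -/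
def m59sb_ResCPow (m : ℕ) (g : ↥(lg_E L (N' * q * q))) : Prop :=
  ∀ VC : ValuationSubring ↥(lg_E L (N' * q * q)), s36asm_Third O hπ N' q hq2 hqN' VC →
    ∀ (j : ℤ) (h : ↥(lg_E L (N' * q * q))), h ≠ 0 →
      m59sb_Unit3 O hπ N' q hq2 hqN' VC
        (g * algebraMap L ↥(lg_E L (N' * q * q)) ((π : ↥O) : L) ^ j * (h ^ m)⁻¹) →
      ∃ (κ : L) (w : ↥(lg_E L (N' * q * q))), O.valuation κ = 1 ∧ VC.valuation w = 1 ∧
        g * algebraMap L ↥(lg_E L (N' * q * q)) ((π : ↥O) : L) ^ j * (h ^ m)⁻¹ -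
          algebraMap L ↥(lg_E L (N' * q * q)) κ * w ^ m ∈ VC.nonunits

/-- SOME vertical normalisation of `g` has a `VC`-residue which is a constant times an `m`-th power
(provided `g` has a vertical normalisation at all). -/
def m59sb_ResCPow1 (m : ℕ) (g : ↥(lg_E L (N' * q * q))) : Prop :=
  ∀ VC : ValuationSubring ↥(lg_E L (N' * q * q)), s36asm_Third O hπ N' q hq2 hqN' VC →
    (∃ (j : ℤ) (h : ↥(lg_E L (N' * q * q))), h ≠ 0 ∧
      m59sb_Unit3 O hπ N' q hq2 hqN' VC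
        (g * algebraMap L ↥(lg_E L (N' * q * q)) ((π : ↥O) : L) ^ j * (h ^ m)⁻¹)) →
    ∃ (j : ℤ) (h : ↥(lg_E L (N' * q * q))) (κ : L) (w : ↥(lg_E L (N' * q * q))), h ≠ 0 ∧
      m59sb_Unit3 O hπ N' q hq2 hqN' VC
        (g * algebraMap L ↥(lg_E L (N' * q * q)) ((π : ↥O) : L) ^ j * (h ^ m)⁻¹) ∧
      O.valuation κ = 1 ∧ VC.valuation w = 1 ∧
        g * algebraMap L ↥(lg_E L (N' * q * q)) ((π : ↥O) : L) ^ j * (h ^ m)⁻¹ -
          algebraMap L ↥(lg_E L (N' * q * q)) κ * w ^ m ∈ VC.nonunits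

end Legendre

/-- **a model over the level `L1` of a representing function of `z`**, with the data of [DESC-NEW]:
`C c₀ · r₀^p · bc g1` represents `z`, `p` divides all (horizontal) orders of `g1`, and the two norms
of `g1` to level `N' q` are constants times `p`-th powers OVER `L1`. -/
def m59sb_IsModel (N' q p : ℕ) [NeZero N'] [NeZero q] [NeZero (N' * q)] [NeZero (N' * q * q)]
    (z : JZero (N' * q * q)) (L1 : IntermediateField ℚ Qb)
    (g1 : laurentBaseChange L1 (modularFunctionFieldFull (N' * q * q))) : Prop :=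
  g1 ≠ 0 ∧
  (∃ (c₀ : Qb) (r₀ : modularFunctionFieldBar (N' * q * q)), c₀ ≠ 0 ∧ r₀ ≠ 0 ∧
    s44f_Rep (N' * q * q) p z
      (algebraMap Qb (modularFunctionFieldBar (N' * q * q)) c₀ * r₀ ^ p *
        dsc_bcHom L1 Qb (modularFunctionFieldFull (N' * q * q)) g1)) ∧
  (∀ w : Place L1 (laurentBaseChange L1 (modularFunctionFieldFull (N' * q * q))),
    (p : ℤ) ∣ w.ord g1) ∧
  (∃ (a : L1) (s : laurentBaseChange L1 (modularFunctionFieldFull (N' * q))),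
    s35pe_normAlong (heckeAlphaBar L1 (N' * q) q) g1 =
      algebraMap L1 (laurentBaseChange L1 (modularFunctionFieldFull (N' * q))) a * s ^ p) ∧
  (∃ (a : L1) (s : laurentBaseChange L1 (modularFunctionFieldFull (N' * q))),
    s35pe_normAlong (heckeBetaBar L1 (N' * q) q) g1 =
      algebraMap L1 (laurentBaseChange L1 (modularFunctionFieldFull (N' * q))) a * s ^ p)

/-- **the δ-exit at level `N'`**: a nonzero eigen-character `gh_H N' →+ ZMod p` with the eigenvalues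
`a ℓ` at the primes `ℓ ∤ N' q`, `ℓ ∉ S` (the input shape of `s44c_lift`, the output shape of
`m59dl_char_of_delta` at `M := N'`). -/
def m59sb_LowChar (N' q p : ℕ) [NeZero N'] (S : Finset ℕ) (a : ℕ → ℤ) : Prop :=
  ∃ v : gh_H N' →+ ZMod p, v ≠ 0 ∧
    ∀ ℓ : ℕ, ℓ.Prime → ¬ ℓ ∣ N' → ℓ ∈ {ℓ : ℕ | ℓ ∉ S ∧ ¬ ℓ ∣ N' * q} →
      v.comp (t2f_TH N' ℓ).toAddMonoidHom = ((a ℓ : ℤ) : ZMod p) • v

/-- **(G1) [EIS]**. -/
def m59sb_Eis_stmt : Prop :=
  ∀ (N' q p : ℕ) [NeZero N'] [NeZero q] [Fact q.Prime] [NeZero (N' * q)] [NeZero (N' * q * q)]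
    [Fact p.Prime],
    p ≠ 2 → q ≠ p → ∀ (hq2 : ¬ 2 ∣ q) (hqN' : ¬ q ∣ N'), 4 ∣ N' →
    ∀ A : ValuationSubring Qb, A.LiesOverPrime q →
    ∀ (S : Finset ℕ) (a : ℕ → ℤ), p ∈ S →
      (∃ ℓ₀ : ℕ, ℓ₀.Prime ∧ ¬ ℓ₀ ∣ N' * q * q ∧ ℓ₀ ∉ S ∧ ¬ (p : ℤ) ∣ (ℓ₀ : ℤ) + 1 - a ℓ₀) →
      ∀ z : JZero (N' * q * q), z ≠ 0 → p • z = 0 →
        (∀ σ ∈ A.inertiaSubgroupIn ℚ, σ • z = z) →
        (∀ (ℓ : ℕ) (hℓ : ℓ.Prime), ¬ ℓ ∣ N' * q * q → ℓ ∉ S →
          heckeOperatorBar (N' * q * q) ⟨ℓ, hℓ⟩ z = a ℓ • z) →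
        s35p_P1J (N' * q) q z = 0 → s35p_P2J (N' * q) q z = 0 →
        ∃ T : Finset Qb, (∀ t ∈ T, ∀ s ∈ A.inertiaSubgroupIn ℚ, s t = t) ∧
          ∀ L1 : IntermediateField ℚ Qb, s35d_IsLevel A q L1 → (↑T : Set Qb) ⊆ L1 →
            ∀ g1 : laurentBaseChange L1 (modularFunctionFieldFull (N' * q * q)),
              m59sb_IsModel N' q p z L1 g1 →
              ∀ [IsDiscreteValuationRing ↥(A.comap (algebraMap ↥L1 Qb))]
                [CharP (ResidueField ↥(A.comap (algebraMap ↥L1 Qb))) q]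
                (hπ : Irreducible ((q : ℕ) : ↥(A.comap (algebraMap ↥L1 Qb)))),
                m59sb_Vert0At (A.comap (algebraMap ↥L1 Qb)) hπ N' q hq2 hqN' p
                  (ss2_dp_iota ↥L1 (N' * q * q) g1)

/-- **(G2') [DELTA-C]** (`p ∣ q - 1`). -/
def m59sb_DeltaC_stmt : Prop :=
  ∀ (N' q p : ℕ) [NeZero N'] [NeZero q] [Fact q.Prime] [NeZero (N' * q)] [NeZero (N' * q * q)]
    [Fact p.Prime],
    p ≠ 2 → q ≠ p → p ∣ q - 1 → ∀ (hq2 : ¬ 2 ∣ q) (hqN' : ¬ q ∣ N'), 4 ∣ N' →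
    ∀ A : ValuationSubring Qb, A.LiesOverPrime q →
    ∀ (S : Finset ℕ) (a : ℕ → ℤ), p ∈ S →
      (∃ ℓ₀ : ℕ, ℓ₀.Prime ∧ ¬ ℓ₀ ∣ N' * q * q ∧ ℓ₀ ∉ S ∧ ¬ (p : ℤ) ∣ (ℓ₀ : ℤ) + 1 - a ℓ₀) →
      ∀ z : JZero (N' * q * q), z ≠ 0 → p • z = 0 →
        (∀ σ ∈ A.inertiaSubgroupIn ℚ, σ • z = z) →
        (∀ (ℓ : ℕ) (hℓ : ℓ.Prime), ¬ ℓ ∣ N' * q * q → ℓ ∉ S →
          heckeOperatorBar (N' * q * q) ⟨ℓ, hℓ⟩ z = a ℓ • z) →
        s35p_P1J (N' * q) q z = 0 → s35p_P2J (N' * q) q z = 0 →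
        (∃ z' : JZero (N' * q), z' ≠ 0 ∧ p • z' = 0 ∧
          ∀ (ℓ : ℕ) (hℓ : ℓ.Prime), ¬ ℓ ∣ N' * q → ℓ ∉ S →
            heckeOperatorBar (N' * q) ⟨ℓ, hℓ⟩ z' = a ℓ • z') ∨
        ∃ T : Finset Qb, (∀ t ∈ T, ∀ s ∈ A.inertiaSubgroupIn ℚ, s t = t) ∧
          ∀ L1 : IntermediateField ℚ Qb, s35d_IsLevel A q L1 → (↑T : Set Qb) ⊆ L1 →
            ∀ (g1 : laurentBaseChange L1 (modularFunctionFieldFull (N' * q * q))) (c₀ : Qb)
              (r₀ : modularFunctionFieldBar (N' * q * q)), g1 ≠ 0 → c₀ ≠ 0 → r₀ ≠ 0 →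
              s44f_Rep (N' * q * q) p z
                (algebraMap Qb (modularFunctionFieldBar (N' * q * q)) c₀ * r₀ ^ p *
                  dsc_bcHom L1 Qb (modularFunctionFieldFull (N' * q * q)) g1) →
              ∀ [IsDiscreteValuationRing ↥(A.comap (algebraMap ↥L1 Qb))]
                [CharP (ResidueField ↥(A.comap (algebraMap ↥L1 Qb))) q]
                (hπ : Irreducible ((q : ℕ) : ↥(A.comap (algebraMap ↥L1 Qb)))),
                m59sb_ResCPow (A.comap (algebraMap ↥L1 Qb)) hπ N' q hq2 hqN' p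
                  (ss2_dp_iota ↥L1 (N' * q * q) g1)

/-- **(G2') [DELTA-C], issue 2** (`p ∣ q - 1`): the δ-exit at level `N'`, or, over every level
`L1 ⊇ T` and for every model `g1`, SOME vertical normalisation of `ι g1` has a `VC`-residue
`κ · w^p`. -/
def m59sb_DeltaC2_stmt : Prop :=
  ∀ (N' q p : ℕ) [NeZero N'] [NeZero q] [Fact q.Prime] [NeZero (N' * q)] [NeZero (N' * q * q)]
    [Fact p.Prime],
    p ≠ 2 → q ≠ p → p ∣ q - 1 → ∀ (hq2 : ¬ 2 ∣ q) (hqN' : ¬ q ∣ N'), 4 ∣ N' →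
    ∀ A : ValuationSubring Qb, A.LiesOverPrime q →
    ∀ (S : Finset ℕ) (a : ℕ → ℤ), p ∈ S →
      (∃ ℓ₀ : ℕ, ℓ₀.Prime ∧ ¬ ℓ₀ ∣ N' * q * q ∧ ℓ₀ ∉ S ∧ ¬ (p : ℤ) ∣ (ℓ₀ : ℤ) + 1 - a ℓ₀) →
      ∀ z : JZero (N' * q * q), z ≠ 0 → p • z = 0 →
        (∀ σ ∈ A.inertiaSubgroupIn ℚ, σ • z = z) →
        (∀ (ℓ : ℕ) (hℓ : ℓ.Prime), ¬ ℓ ∣ N' * q * q → ℓ ∉ S →
          heckeOperatorBar (N' * q * q) ⟨ℓ, hℓ⟩ z = a ℓ • z) →
        s35p_P1J (N' * q) q z = 0 → s35p_P2J (N' * q) q z = 0 →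
        m59sb_LowChar N' q p S a ∨
        ∃ T : Finset Qb, (∀ t ∈ T, ∀ s ∈ A.inertiaSubgroupIn ℚ, s t = t) ∧
          ∀ L1 : IntermediateField ℚ Qb, s35d_IsLevel A q L1 → (↑T : Set Qb) ⊆ L1 →
            ∀ g1 : laurentBaseChange L1 (modularFunctionFieldFull (N' * q * q)),
              m59sb_IsModel N' q p z L1 g1 →
              ∀ [IsDiscreteValuationRing ↥(A.comap (algebraMap ↥L1 Qb))]
                [CharP (ResidueField ↥(A.comap (algebraMap ↥L1 Qb))) q]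
                (hπ : Irreducible ((q : ℕ) : ↥(A.comap (algebraMap ↥L1 Qb)))),
                m59sb_ResCPow1 (A.comap (algebraMap ↥L1 Qb)) hπ N' q hq2 hqN' p
                  (ss2_dp_iota ↥L1 (N' * q * q) g1)

/-- **(G12), three-way conclusion**: a toric class, or a nonzero eigenclass of `J₀(N' q)[p]`, or a
nonzero eigen-character of level `N'`. -/
def m59sb_G12c_stmt : Prop :=
  ∀ (N' q p : ℕ) [NeZero N'] [NeZero q] [Fact q.Prime] [NeZero (N' * q * q)] [Fact p.Prime],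
    p ≠ 2 → q ≠ p → ∀ (hq2 : ¬ 2 ∣ q) (hqN' : ¬ q ∣ N'), 4 ∣ N' →
    ∀ A : ValuationSubring Qb, A.LiesOverPrime q →
    ∀ (S : Finset ℕ) (a : ℕ → ℤ), p ∈ S →
      (∃ ℓ₀ : ℕ, ℓ₀.Prime ∧ ¬ ℓ₀ ∣ N' * q * q ∧ ℓ₀ ∉ S ∧ ¬ (p : ℤ) ∣ (ℓ₀ : ℤ) + 1 - a ℓ₀) →
      ∀ z : JZero (N' * q * q), z ≠ 0 → p • z = 0 →
        (∀ σ ∈ A.inertiaSubgroupIn ℚ, σ • z = z) →
        (∀ (ℓ : ℕ) (hℓ : ℓ.Prime), ¬ ℓ ∣ N' * q * q → ℓ ∉ S →
          heckeOperatorBar (N' * q * q) ⟨ℓ, hℓ⟩ z = a ℓ • z) →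
        m59sb_TorAt A N' q hq2 hqN' p z ∨
          (∃ z' : JZero (N' * q), z' ≠ 0 ∧ p • z' = 0 ∧
            ∀ (ℓ : ℕ) (hℓ : ℓ.Prime), ¬ ℓ ∣ N' * q → ℓ ∉ S →
              heckeOperatorBar (N' * q) ⟨ℓ, hℓ⟩ z' = a ℓ • z') ∨
          m59sb_LowChar N' q p S a

end Fermat.Agent.M59
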