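/-
M59 / Sink B, cell (G12) (helper1): THE ASSEMBLY.  Prefix `m59g12_`.

`m59g12_G12c_of : m59sb_Eis_stmt → m59sb_DeltaC2_stmt → m59sb_G12c_stmt`  (three-way conclusion, issue 2)
`m59g12_G12_of  : m59sb_Eis_stmt → m59sb_DeltaC_stmt  → m59sb_G12_stmt`   (two-way conclusion, issue 1)
(Props of M59/SinkB/G12/Seams.lean and M59/SinkB/Defs.lean).

Steps: [PUSH] `m59g12_push` (one of the two push-forwards nonzero ⟹ right disjunct);
[DESC-NEW] `m59g12_desc_new` + `m59g12_newAt` (representing function over an unramified level with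
`s36_NewAt` on the Legendre cover); (G1) the vertical normal form (seam [EIS]); the `C`-information:
`gcd(q - 1, p) = 1` or the seam [DELTA-C]; [ABEL3-SHARP] on the concrete tower `m59g12_const_of_third`;
uniqueness of the third valuation `m59g12_third_unique`.
-/
import Mathlib
import Fermat.Agent.M59.SinkB.G12.Seams
import Fermat.Agent.M59.SinkB.G12.DescNew
import Fermat.Agent.M59.SinkB.G12.Cover
import Fermat.Agent.M59.SinkB.G12.Inst
import Fermat.Agent.M59.SinkB.G12.Push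

set_option autoImplicit false
set_option linter.unusedSectionVars false
set_option linter.unusedVariables false
set_option linter.style.haveILetI false
set_option synthInstance.maxHeartbeats 400000
set_option maxHeartbeats 1000000

noncomputable section

namespace Fermat.Agent.M59

open ModularCurve AlgebraicCurve IntermediateField IsLocalRing
open Fermat.Agent.JT3 Fermat.Agent.SS Fermat.Agent.S35 Fermat.Agent.S36 Fermat.Agent.S24
  Fermat.Agent.S44 Fermat.Agent.SS2 Fermat.Agent.TW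

local notation "Qb" => AlgebraicClosure ℚ

section Legendre

variable {L : Type*} [Field L] [CharZero L] [Algebra L (AlgebraicClosure ℚ)]
  (O : ValuationSubring L) [IsDiscreteValuationRing O] {π : O} (hπ : Irreducible π)
variable (N' q : ℕ) [NeZero N'] [NeZero q] [hq : Fact q.Prime] [CharP (ResidueField O) q]
  (hq2 : ¬ 2 ∣ q) (hqN' : ¬ q ∣ N')

/-- the third valuation is unique. -/
theorem m59g12_third_unique {VC VC' : ValuationSubring ↥(lg_E L (N' * q * q))}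
    (T3 : s36asm_Third O hπ N' q hq2 hqN' VC) (T3' : s36asm_Third O hπ N' q hq2 hqN' VC') :
    VC' = VC := by
  unfold s36asm_Third at T3 T3'
  letI := ssm_gi_algebra (ssm_al_E_le L (N' * q) q)
  letI := ssm_gi_algebraV (ssm_al_E_le L (N' * q) q) (ssm_gl_V1 O hπ N' q)
  haveI := ssm_gi_isScalarTower (ssm_al_E_le L (N' * q) q) (ssm_gl_V1 O hπ N' q)
  rcases T3.only VC' T3'.overC with h | h
  · exact absurd h T3'.ne
  · exact h

end Legendre

section Main

variable (A : ValuationSubring Qb) (N' q : ℕ) [NeZero N'] [NeZero q] [hq : Fact q.Prime]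
  [NeZero (N' * q)] [NeZero (N' * q * q)] (hq2 : ¬ 2 ∣ q) (hqN' : ¬ q ∣ N')

/-- **the toric normal form from the vertical normal form and the `C`-information.** -/
theorem m59g12_torAt_of (hA : A.LiesOverPrime q) (p : ℕ) (hp : p.Prime) (hqp : q ≠ p)
    (z : JZero (N' * q * q)) (hpz : p • z = 0)
    (hfix : ∀ σ ∈ A.inertiaSubgroupIn ℚ, σ • z = z)
    (hP1 : s35p_P1J (N' * q) q z = 0) (hP2 : s35p_P2J (N' * q) q z = 0)
    (T : Finset Qb) (hT : ∀ t ∈ T, ∀ s ∈ A.inertiaSubgroupIn ℚ, s t = t)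
    (hV : ∀ L1 : IntermediateField ℚ Qb, s35d_IsLevel A q L1 → (↑T : Set Qb) ⊆ L1 →
      ∀ g1 : laurentBaseChange L1 (modularFunctionFieldFull (N' * q * q)),
        m59sb_IsModel N' q p z L1 g1 →
        ∀ [IsDiscreteValuationRing ↥(A.comap (algebraMap ↥L1 Qb))]
          [CharP (ResidueField ↥(A.comap (algebraMap ↥L1 Qb))) q]
          (hπ : Irreducible ((q : ℕ) : ↥(A.comap (algebraMap ↥L1 Qb)))),
          m59sb_Vert0At (A.comap (algebraMap ↥L1 Qb)) hπ N' q hq2 hqN' p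
            (ss2_dp_iota ↥L1 (N' * q * q) g1))
    (hC : Nat.Coprime (q - 1) p ∨
      ∀ L1 : IntermediateField ℚ Qb, s35d_IsLevel A q L1 → (↑T : Set Qb) ⊆ L1 →
      ∀ g1 : laurentBaseChange L1 (modularFunctionFieldFull (N' * q * q)),
        m59sb_IsModel N' q p z L1 g1 →
        ∀ [IsDiscreteValuationRing ↥(A.comap (algebraMap ↥L1 Qb))]
          [CharP (ResidueField ↥(A.comap (algebraMap ↥L1 Qb))) q]
          (hπ : Irreducible ((q : ℕ) : ↥(A.comap (algebraMap ↥L1 Qb)))),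
          m59sb_ResCPow1 (A.comap (algebraMap ↥L1 Qb)) hπ N' q hq2 hqN' p
            (ss2_dp_iota ↥L1 (N' * q * q) g1)) :
    m59sb_TorAt A N' q hq2 hqN' p z := by
  have hqp' : ¬ q ∣ p := fun h => hqp ((Nat.prime_dvd_prime_iff_eq hq.out hp).1 h)
  obtain ⟨f, hrep, L1, hlev, hTL1, g1, c₀, r₀, hg1, hc₀, hr₀, hfeq, hord, hα, hβ⟩ :=
    m59g12_desc_new A hA (N' * q) (Dvd.intro_left N' rfl) hp.ne_zero T hT hpz hfix hP1 hP2
  refine ⟨f, hrep, L1, hlev, g1, c₀, r₀, hg1, hc₀, hr₀, hfeq, ?_⟩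
  intro _ _ hπ
  have hrep' : s44f_Rep (N' * q * q) p z
      (algebraMap Qb (modularFunctionFieldBar (N' * q * q)) c₀ * r₀ ^ p *
        dsc_bcHom L1 Qb (modularFunctionFieldFull (N' * q * q)) g1) := hfeq ▸ hrep
  have hmodel : m59sb_IsModel N' q p z L1 g1 :=
    ⟨hg1, ⟨c₀, r₀, hc₀, hr₀, hrep'⟩, hord, hα, hβ⟩
  have hNew : s36_NewAt (L := ↥L1) N' q hq2 p (ss2_dp_iota ↥L1 (N' * q * q) g1) :=
    m59g12_newAt ↥L1 N' q hq.out hq2 hp.ne_zero g1 hg1 hord hα hβ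
  have hqu : ((q : ℕ) : ↥(A.comap (algebraMap ↥L1 Qb))) =
      ((q : ℕ) : ↥(A.comap (algebraMap ↥L1 Qb))) * 1 := (mul_one _).symm
  obtain ⟨VC, T3⟩ := s36asm_third_exists (A.comap (algebraMap ↥L1 Qb)) hπ N' q hq2 hqN' 1
    isUnit_one hqu
  obtain ⟨j, h, hh, hA1, hB1, hC1⟩ := hV L1 hlev hTL1 g1 hmodel hπ VC T3
  have hCinfo : Nat.Coprime (q - 1) p ∨
      ∃ (j' : ℤ) (h' : ↥(lg_E ↥L1 (N' * q * q))) (κ : ↥L1) (w : ↥(lg_E ↥L1 (N' * q * q))),
        h' ≠ 0 ∧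
        (s36i_VA (A.comap (algebraMap ↥L1 Qb)) hπ (N' * q) q).valuation
          (ss2_dp_iota ↥L1 (N' * q * q) g1 *
            algebraMap ↥L1 ↥(lg_E ↥L1 (N' * q * q))
              ((((q : ℕ) : ↥(A.comap (algebraMap ↥L1 Qb))) : ↥(A.comap (algebraMap ↥L1 Qb))) : ↥L1)
              ^ j' * (h' ^ p)⁻¹) = 1 ∧
        VC.valuation
          (ss2_dp_iota ↥L1 (N' * q * q) g1 *
            algebraMap ↥L1 ↥(lg_E ↥L1 (N' * q * q))
              ((((q : ℕ) : ↥(A.comap (algebraMap ↥L1 Qb))) : ↥(A.comap (algebraMap ↥L1 Qb))) : ↥L1)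
              ^ j' * (h' ^ p)⁻¹) = 1 ∧
        (A.comap (algebraMap ↥L1 Qb)).valuation κ = 1 ∧ VC.valuation w = 1 ∧
        ss2_dp_iota ↥L1 (N' * q * q) g1 *
            algebraMap ↥L1 ↥(lg_E ↥L1 (N' * q * q))
              ((((q : ℕ) : ↥(A.comap (algebraMap ↥L1 Qb))) : ↥(A.comap (algebraMap ↥L1 Qb))) : ↥L1)
              ^ j' * (h' ^ p)⁻¹ -
          algebraMap ↥L1 ↥(lg_E ↥L1 (N' * q * q)) κ * w ^ p ∈ VC.nonunits := by
    rcases hC with hc | hc
    · exact Or.inl hc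
    · obtain ⟨j', h', κ, w, hh', ⟨hA1', hB1', hC1'⟩, hκ, hw, hCw⟩ :=
        hc L1 hlev hTL1 g1 hmodel hπ VC T3 ⟨j, h, hh, hA1, hB1, hC1⟩
      exact Or.inr ⟨j', h', κ, w, hh', hA1', hC1', hκ, hw, hCw⟩
  obtain ⟨k, R, g', κA, κB, κC, hk, hR, hκA, hκB, hκC, hgA, hgB, hgC, hfin⟩ :=
    m59g12_const_of_third (A.comap (algebraMap ↥L1 Qb)) hπ N' q hq2 hqN' 1 isUnit_one hqu T3 p
      hqp' (ss2_dp_iota ↥L1 (N' * q * q) g1) hNew j h hh hA1 hB1 hC1 hCinfo
  have hG0 : ss2_dp_iota ↥L1 (N' * q * q) g1 ≠ 0 := hNew.1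
  have hg'0 : g' ≠ 0 := by
    rintro rfl
    rw [mul_zero] at hfin
    exact hG0 hfin
  refine ⟨k, R, g', hk, hR, hg'0, hfin, ?_, ?_⟩
  · intro v
    have hcE : algebraMap ↥L1 ↥(lg_E ↥L1 (N' * q * q)) k ≠ 0 := by
      rw [Ne, map_eq_zero]
      exact hk
    have h1 := congrArg v.ord hfin
    rw [v.ord_mul (mul_ne_zero hcE (pow_ne_zero p hR)) hg'0,
      v.ord_mul hcE (pow_ne_zero p hR), hw_ord_algebraMap, zero_add, ← zpow_natCast,
      v.ord_zpow] at h1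
    have h2 : v.ord g' = v.ord (ss2_dp_iota ↥L1 (N' * q * q) g1) - (p : ℤ) * v.ord R := by
      rw [h1]; ring
    rw [h2]
    exact dvd_sub (hNew.2.1 v) (dvd_mul_right _ _)
  · intro VC' T3'
    obtain rfl := m59g12_third_unique (A.comap (algebraMap ↥L1 Qb)) hπ N' q hq2 hqN' T3 T3'
    have hmem : ∀ {κ : ↥L1}, (A.comap (algebraMap ↥L1 Qb)).valuation κ = 1 →
        κ ∈ A.comap (algebraMap ↥L1 Qb) := fun {κ} hκ =>
      ((A.comap (algebraMap ↥L1 Qb)).valuation_le_one_iff κ).1 hκ.le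
    have hunit : ∀ {κ : ↥L1} (hκ : (A.comap (algebraMap ↥L1 Qb)).valuation κ = 1),
        IsUnit (⟨κ, hmem hκ⟩ : ↥(A.comap (algebraMap ↥L1 Qb))) := fun {κ} hκ =>
      ((A.comap (algebraMap ↥L1 Qb)).valuation_eq_one_iff ⟨κ, hmem hκ⟩).2 hκ
    exact ⟨⟨κA, hmem hκA⟩, ⟨κB, hmem hκB⟩, ⟨κC, hmem hκC⟩, hunit hκA, hunit hκB, hunit hκC,
      hgA, hgB, hgC⟩

end Main

/-- **(G12), three-way conclusion, from its two inner seams** ([EIS] and [DELTA-C] issue 2). -/
theorem m59g12_G12c_of (hEis : m59sb_Eis_stmt) (hDel : m59sb_DeltaC2_stmt) : m59sb_G12c_stmt := by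
  intro N' q p _ _ hqF _ hpF hp2 hqp hq2 hqN' h4 A hA S a hpS hne z hz0 hpz hfix heig
  have hq : q.Prime := hqF.out
  have hp : p.Prime := hpF.out
  haveI : NeZero (N' * q) := ⟨Nat.mul_ne_zero (NeZero.ne N') (NeZero.ne q)⟩
  by_cases hP : s35p_P1J (N' * q) q z ≠ 0 ∨ s35p_P2J (N' * q) q z ≠ 0
  · exact Or.inr (Or.inl
      (m59g12_push (N' * q) q hq (Dvd.intro_left N' rfl) p hp.ne_zero S a z hpz heig hP))
  have hP1 : s35p_P1J (N' * q) q z = 0 := by
    by_contra h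
    exact hP (Or.inl h)
  have hP2 : s35p_P2J (N' * q) q z = 0 := by
    by_contra h
    exact hP (Or.inr h)
  obtain ⟨T1, hT1, hE⟩ :=
    hEis N' q p hp2 hqp hq2 hqN' h4 A hA S a hpS hne z hz0 hpz hfix heig hP1 hP2
  classical
  by_cases hpq1 : p ∣ q - 1
  · rcases hDel N' q p hp2 hqp hpq1 hq2 hqN' h4 A hA S a hpS hne z hz0 hpz hfix heig hP1 hP2 with
      h | ⟨T2, hT2, hD⟩
    · exact Or.inr (Or.inr h)
    · refine Or.inl (m59g12_torAt_of A N' q hq2 hqN' hA p hp hqp z hpz hfix hP1 hP2 (T1 ∪ T2) ?_ ?_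
        (Or.inr ?_))
      · intro t ht
        rcases Finset.mem_union.1 ht with h | h
        · exact hT1 t h
        · exact hT2 t h
      · intro L1 hlev hTL1
        exact hE L1 hlev (fun t ht => hTL1 (by
          rw [Finset.coe_union]; exact Set.mem_union_left _ ht))
      · intro L1 hlev hTL1
        exact hD L1 hlev (fun t ht => hTL1 (by
          rw [Finset.coe_union]; exact Set.mem_union_right _ ht))
  · refine Or.inl (m59g12_torAt_of A N' q hq2 hqN' hA p hp hqp z hpz hfix hP1 hP2 T1 hT1 hE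
      (Or.inl ?_))
    exact ((Nat.Prime.coprime_iff_not_dvd hp).2 hpq1).symm

/-- **(G12) from its two inner seams** ([EIS] and [DELTA-C] issue 1: two-way conclusion). -/
theorem m59g12_G12_of (hEis : m59sb_Eis_stmt) (hDel : m59sb_DeltaC_stmt) : m59sb_G12_stmt := by
  intro N' q p _ _ hqF _ hpF hp2 hqp hq2 hqN' h4 A hA S a hpS hne z hz0 hpz hfix heig
  have hq : q.Prime := hqF.out
  have hp : p.Prime := hpF.out
  haveI : NeZero (N' * q) := ⟨Nat.mul_ne_zero (NeZero.ne N') (NeZero.ne q)⟩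
  by_cases hP : s35p_P1J (N' * q) q z ≠ 0 ∨ s35p_P2J (N' * q) q z ≠ 0
  · exact Or.inr (m59g12_push (N' * q) q hq (Dvd.intro_left N' rfl) p hp.ne_zero S a z hpz heig hP)
  have hP1 : s35p_P1J (N' * q) q z = 0 := by
    by_contra h
    exact hP (Or.inl h)
  have hP2 : s35p_P2J (N' * q) q z = 0 := by
    by_contra h
    exact hP (Or.inr h)
  obtain ⟨T1, hT1, hE⟩ :=
    hEis N' q p hp2 hqp hq2 hqN' h4 A hA S a hpS hne z hz0 hpz hfix heig hP1 hP2
  classical
  by_cases hpq1 : p ∣ q - 1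
  · rcases hDel N' q p hp2 hqp hpq1 hq2 hqN' h4 A hA S a hpS hne z hz0 hpz hfix heig hP1 hP2 with
      h | ⟨T2, hT2, hD⟩
    · exact Or.inr h
    · refine Or.inl (m59g12_torAt_of A N' q hq2 hqN' hA p hp hqp z hpz hfix hP1 hP2 (T1 ∪ T2) ?_ ?_
        (Or.inr ?_))
      · intro t ht
        rcases Finset.mem_union.1 ht with h | h
        · exact hT1 t h
        · exact hT2 t h
      · intro L1 hlev hTL1
        exact hE L1 hlev (fun t ht => hTL1 (by
          rw [Finset.coe_union]; exact Set.mem_union_left _ ht))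
      · intro L1 hlev hTL1 g1 hmodel _ _ hπ VC T3 hex
        obtain ⟨hg1, ⟨c₀, r₀, hc₀, hr₀, hrep⟩, -, -, -⟩ := hmodel
        obtain ⟨j, h, hh, hU⟩ := hex
        obtain ⟨κ, w, hκ, hw, hCw⟩ := hD L1 hlev (fun t ht => hTL1 (by
          rw [Finset.coe_union]; exact Set.mem_union_right _ ht)) g1 c₀ r₀ hg1 hc₀ hr₀ hrep hπ VC
          T3 j h hh hU
        exact ⟨j, h, κ, w, hh, hU, hκ, hw, hCw⟩
  · refine Or.inl (m59g12_torAt_of A N' q hq2 hqN' hA p hp hqp z hpz hfix hP1 hP2 T1 hT1 hE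
      (Or.inl ?_))
    exact ((Nat.Prime.coprime_iff_not_dvd hp).2 hpq1).symm

end Fermat.Agent.M59
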