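/-
M59 / Sink B, cell [G12-U] (helper29): THE (G12) ASSEMBLY IS UNIFORM IN THE LEVEL FIELD.
Prefix `m59g12u_`.

`m59sb_TorAt` (M59/SinkB/Defs.lean) asks for the normal form of `z` over SOME unramified level `L1`.
Leaf 4 ([TOR-SURJ], `m59tc_Data_stmt`) needs the normal forms of finitely many classes over ONE
level `L*`.  Here:

* `m59g12u_TorAtU A N' q hq2 hqN' m z` : the UNIFORM normal form: there is a finite `I_A`-fixed set
  `T` of constants such that OVER EVERY unramified level `L1 ⊇ T` the class `z` has the normal form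
  (the body of `m59sb_TorAt`, literally).
* `m59g12u_torAt_of_U : TorAtU → TorAt`.
* `m59g12u_descU` : uniform [DESC-NEW] (`m59g12_desc_new` over every field `L1 ⊇ T'`).
* `m59g12u_torAtU_of` : the uniform twin of `m59g12_torAt_of` (same hypotheses).
* `m59g12u_G12cU_stmt`, `m59g12u_G12cU_of : m59sb_Eis_stmt → m59sb_DeltaC2_stmt → m59g12u_G12cU_stmt`
  ((G12), three-way conclusion, with `TorAtU` in the first disjunct; the same two leaves).
* `m59g12u_common` : finitely many classes with `TorAtU` have their normal forms over ONE level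
  `L* ⊇ T0` (any finite `I_A`-fixed `T0`).
-/
import Mathlib
import Fermat.Agent.M59.SinkB.G12.Asm

set_option autoImplicit false
set_option linter.unusedSectionVars false
set_option linter.unusedVariables false
set_option linter.style.haveILetI false
set_option synthInstance.maxHeartbeats 400000
set_option maxHeartbeats 1000000

noncomputable section

namespace Fermat.Agent.M59

open ModularCurve AlgebraicCurve IntermediateField IsLocalRing
open Fermat.Agent.JT3 Fermat.Agent.SS Fermat.Agent.S35 Fermat.Agent.S36 Fermat.Agent.S24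
  Fermat.Agent.S44 Fermat.Agent.SS2 Fermat.Agent.TW Fermat.Agent.FF

local notation "Qb" => AlgebraicClosure ℚ
local notation "GQ" => (AlgebraicClosure ℚ ≃ₐ[ℚ] AlgebraicClosure ℚ)

/-! ### the normal form over a given level -/

section Defs

variable (A : ValuationSubring Qb) (N' q : ℕ) [NeZero N'] [NeZero q] [hq : Fact q.Prime]
  [NeZero (N' * q * q)] (hq2 : ¬ 2 ∣ q) (hqN' : ¬ q ∣ N')

/-- **the normal form of the representing function `f` over the level `L1`** (the body of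
`m59sb_TorAt` after `∃ L1, s35d_IsLevel A q L1 ∧`, literally). -/
def m59g12u_NFOver (m : ℕ) (f : modularFunctionFieldBar (N' * q * q))
    (L1 : IntermediateField ℚ Qb) : Prop :=
  ∃ (g1 : laurentBaseChange L1 (modularFunctionFieldFull (N' * q * q))) (c₀ : Qb)
    (r₀ : modularFunctionFieldBar (N' * q * q)), g1 ≠ 0 ∧ c₀ ≠ 0 ∧ r₀ ≠ 0 ∧
    f = algebraMap Qb (modularFunctionFieldBar (N' * q * q)) c₀ * r₀ ^ m *
      dsc_bcHom L1 Qb (modularFunctionFieldFull (N' * q * q)) g1 ∧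
    ∀ [IsDiscreteValuationRing ↥(A.comap (algebraMap ↥L1 Qb))]
      [CharP (ResidueField ↥(A.comap (algebraMap ↥L1 Qb))) q]
      (hπ : Irreducible ((q : ℕ) : ↥(A.comap (algebraMap ↥L1 Qb)))),
      ∃ (k : ↥L1) (R g' : ↥(lg_E ↥L1 (N' * q * q))), k ≠ 0 ∧ R ≠ 0 ∧ g' ≠ 0 ∧
        ss2_dp_iota ↥L1 (N' * q * q) g1 =
          algebraMap ↥L1 ↥(lg_E ↥L1 (N' * q * q)) k * R ^ m * g' ∧
        (∀ v : Place ↥L1 ↥(lg_E ↥L1 (N' * q * q)), (m : ℤ) ∣ v.ord g') ∧
        m59sb_ConstRed3 (A.comap (algebraMap ↥L1 Qb)) hπ N' q hq2 hqN' g'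

/-- `m59sb_TorAt` in terms of `m59g12u_NFOver`. -/
theorem m59g12u_torAt_iff (m : ℕ) (z : JZero (N' * q * q)) :
    m59sb_TorAt A N' q hq2 hqN' m z ↔
      ∃ f : modularFunctionFieldBar (N' * q * q), s44f_Rep (N' * q * q) m z f ∧
        ∃ L1 : IntermediateField ℚ Qb, s35d_IsLevel A q L1 ∧
          m59g12u_NFOver A N' q hq2 hqN' m f L1 := Iff.rfl

/-- **the uniform normal form at level `N' q q`, exponent `m`.** -/
def m59g12u_TorAtU (m : ℕ) (z : JZero (N' * q * q)) : Prop :=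
  ∃ f : modularFunctionFieldBar (N' * q * q), s44f_Rep (N' * q * q) m z f ∧
    ∃ T : Finset Qb, (∀ t ∈ T, ∀ s ∈ A.inertiaSubgroupIn ℚ, s t = t) ∧
      ∀ L1 : IntermediateField ℚ Qb, s35d_IsLevel A q L1 → (↑T : Set Qb) ⊆ L1 →
        m59g12u_NFOver A N' q hq2 hqN' m f L1

/-- the uniform normal form gives the normal form. -/
theorem m59g12u_torAt_of_U (hA : A.LiesOverPrime q) (m : ℕ) (z : JZero (N' * q * q))
    (h : m59g12u_TorAtU A N' q hq2 hqN' m z) : m59sb_TorAt A N' q hq2 hqN' m z := by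
  obtain ⟨f, hrep, T, hT, hU⟩ := h
  obtain ⟨L2, L1, -, -, -, -, hlev, hTL1, -⟩ := s35d_exists_level A q hA ∅ T
    (fun t ht => ffi_mem_L.2 (hT t ht))
  exact ⟨f, hrep, L1, hlev, hU L1 hlev hTL1⟩

end Defs

/-! ### uniform [DESC-NEW] -/

/-- a finite-dimensional intermediate field is generated by a finite set. -/
theorem m59g12u_fg (L0 : IntermediateField ℚ Qb) [FiniteDimensional ℚ L0] :
    ∃ t : Finset Qb, IntermediateField.adjoin ℚ (↑t : Set Qb) = L0 := by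
  have h1 : (L0.toSubalgebra.toSubmodule).FG := Module.Finite.iff_fg.1 ‹_›
  exact L0.fg_of_fg_toSubalgebra (Subalgebra.fg_of_fg_toSubmodule h1)

/-- **uniform [DESC-NEW]**: the conclusion of `m59g12_desc_new` over EVERY intermediate field
`L1 ⊇ T'`, for one finite `I_A`-fixed set `T' ⊇ T`. -/
theorem m59g12u_descU (A : ValuationSubring Qb) {q : ℕ} [hq : Fact q.Prime]
    (hA : A.LiesOverPrime q) (N : ℕ) [NeZero N] [NeZero q] [NeZero (N * q)] (hqN : q ∣ N)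
    {m : ℕ} (hm : m ≠ 0) (T : Finset Qb)
    (hT : ∀ t ∈ T, ∀ s ∈ A.inertiaSubgroupIn ℚ, s t = t) {z : JZero (N * q)} (hz : m • z = 0)
    (hfix : ∀ σ ∈ A.inertiaSubgroupIn ℚ, σ • z = z)
    (hP1 : s35p_P1J N q z = 0) (hP2 : s35p_P2J N q z = 0) :
    ∃ f : modularFunctionFieldBar (N * q), s44f_Rep (N * q) m z f ∧
      ∃ T' : Finset Qb, (∀ t ∈ T', ∀ s ∈ A.inertiaSubgroupIn ℚ, s t = t) ∧ T ⊆ T' ∧
        ∀ L1 : IntermediateField ℚ Qb, (↑T' : Set Qb) ⊆ L1 →
        ∃ (g1 : laurentBaseChange L1 (modularFunctionFieldFull (N * q))) (c₀ : Qb)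
          (r₀ : modularFunctionFieldBar (N * q)), g1 ≠ 0 ∧ c₀ ≠ 0 ∧ r₀ ≠ 0 ∧
          f = algebraMap Qb (modularFunctionFieldBar (N * q)) c₀ * r₀ ^ m *
            dsc_bcHom L1 Qb (modularFunctionFieldFull (N * q)) g1 ∧
          (∀ w : Place L1 (laurentBaseChange L1 (modularFunctionFieldFull (N * q))),
            (m : ℤ) ∣ w.ord g1) ∧
          (∃ (a : L1) (s : laurentBaseChange L1 (modularFunctionFieldFull N)),
            s35pe_normAlong (heckeAlphaBar L1 N q) g1 =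
              algebraMap L1 (laurentBaseChange L1 (modularFunctionFieldFull N)) a * s ^ m) ∧
          (∃ (a : L1) (s : laurentBaseChange L1 (modularFunctionFieldFull N)),
            s35pe_normAlong (heckeBetaBar L1 N q) g1 =
              algebraMap L1 (laurentBaseChange L1 (modularFunctionFieldFull N)) a * s ^ m) := by
  classical
  obtain ⟨f, hrep⟩ := s44f_rep_exists (N * q) z hz
  refine ⟨f, hrep, ?_⟩
  obtain ⟨hf, D, hDz, hD⟩ := hrep
  subst hDz
  have hord : ∀ v : Place Qb (modularFunctionFieldBar (N * q)), (m : ℤ) ∣ v.ord f :=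
    fun v => ⟨_, (hD v).symm⟩
  have hfix' : ∀ s ∈ A.inertiaSubgroupIn ℚ,
      ∃ (c : Qb) (r : modularFunctionFieldBar (N * q)), c ≠ 0 ∧ r ≠ 0 ∧
        arithmeticGalois (modularFunctionFieldFull (N * q)) s • f =
          algebraMap Qb (modularFunctionFieldBar (N * q)) c * r ^ m * f := by
    intro s hs
    obtain ⟨c, r, hr, hcr⟩ := s35k_fix_kummer (rt_isSepGen_jBar (N * q))
      (arithmeticGalois (modularFunctionFieldFull (N * q)) s) D hf hD (hfix s hs)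
    refine ⟨c, r, ?_, hr, hcr⟩
    rintro rfl
    rw [map_zero, zero_mul, zero_mul] at hcr
    have : arithmeticGalois (modularFunctionFieldFull (N * q)) s • f ≠ 0 := by
      rwa [Ne, smul_eq_zero_iff_eq]
    exact this hcr
  obtain ⟨Sf, hSf⟩ := ssd_exists_fix (modularFunctionFieldFull (N * q)) f
  obtain ⟨L2, L0, -, -, hS2, -, hlev, hTL0, hfac⟩ := s35d_exists_level A q hA Sf T
    (fun t ht => ffi_mem_L.2 (hT t ht))
  haveI := hlev.fd
  obtain ⟨t0, ht0⟩ := m59g12u_fg L0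
  have ht0L0 : ∀ x ∈ t0, x ∈ L0 := fun x hx => by
    rw [← ht0]
    exact IntermediateField.subset_adjoin ℚ _ (Finset.mem_coe.2 hx)
  refine ⟨T ∪ t0, ?_, Finset.subset_union_left, ?_⟩
  · intro t ht s hs
    rcases Finset.mem_union.1 ht with h | h
    · exact hT t h s hs
    · exact hlev.fixed (ht0L0 t h) hs
  intro L1 hTL1
  have hL0L1 : L0 ≤ L1 := by
    rw [← ht0, IntermediateField.adjoin_le_iff]
    intro x hx
    exact hTL1 (by
      rw [Finset.coe_union]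
      exact Set.mem_union_right _ hx)
  obtain ⟨g1, c₀, r₀, hg1, hc₀, hr₀, hfeq, hordg⟩ :=
    ss2_du_descend_X0 (N * q) L1 hm hf hord (by
      intro τ hτ
      obtain ⟨s, hs, hτs⟩ := hfac τ (fun a ha => hτ ⟨a, hL0L1 ha⟩)
      have h1 : arithmeticGalois (modularFunctionFieldFull (N * q)) τ • f =
          arithmeticGalois (modularFunctionFieldFull (N * q)) s • f :=
        s35d_fix_of_factor (modularFunctionFieldFull (N * q)) f Sf hSf τ s
          (fun x hx => hτs x (hS2 (Finset.mem_coe.2 hx)))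
      rw [h1]
      exact hfix' s hs)
  refine ⟨g1, c₀, r₀, hg1, hc₀, hr₀, hfeq, hordg, ?_⟩
  have hα := s35k_push_kummer (rt_isSepGen_jBar N) _ _ _ _ D hf hD hP1
  have hβ := s35k_push_kummer (rt_isSepGen_jBar N) _ _ _ _ D hf hD hP2
  have hαpos : 0 < finrankAlong Qb (heckeAlphaBar Qb N q) := by
    rw [s36d_finrankAlong_alpha Qb N q hq.out hqN]; exact hq.out.pos
  have hβpos : 0 < finrankAlong Qb (heckeBetaBar Qb N q) := by
    rw [s36d_finrankAlong_beta Qb N q hq.out hqN]; exact hq.out.pos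
  refine ⟨?_, ?_⟩
  · exact s36d_norm_descend L1 (modularFunctionFieldFull N) (modularFunctionFieldFull (N * q))
      (rt_isSepGen_jBar N) (heckeAlphaBar L1 N q) (heckeAlphaBar Qb N q)
      (s36d_norm_bc_alpha L1 N q hq.out hqN) hαpos hm g1 c₀ r₀ f hc₀ hr₀ hfeq (by
        obtain ⟨c0, h, -, hh⟩ := hα
        exact ⟨c0, h, hh⟩)
  · exact s36d_norm_descend L1 (modularFunctionFieldFull N) (modularFunctionFieldFull (N * q))
      (rt_isSepGen_jBar N) (heckeBetaBar L1 N q) (heckeBetaBar Qb N q)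
      (s36d_norm_bc_beta L1 N q hq.out hqN) hβpos hm g1 c₀ r₀ f hc₀ hr₀ hfeq (by
        obtain ⟨c0, h, -, hh⟩ := hβ
        exact ⟨c0, h, hh⟩)

/-! ### the uniform assembly -/

section Main

variable (A : ValuationSubring Qb) (N' q : ℕ) [NeZero N'] [NeZero q] [hq : Fact q.Prime]
  [NeZero (N' * q)] [NeZero (N' * q * q)] (hq2 : ¬ 2 ∣ q) (hqN' : ¬ q ∣ N')

/-- **the normal form over a level `L1` from a model over `L1`**, the vertical normal form and the
`C`-information over `L1` (the second half of `m59g12_torAt_of`). -/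
theorem m59g12u_nfOver_of_model (p : ℕ) (hp : p.Prime) (hqp : q ≠ p)
    (z : JZero (N' * q * q)) (f : modularFunctionFieldBar (N' * q * q))
    (L1 : IntermediateField ℚ Qb)
    (g1 : laurentBaseChange L1 (modularFunctionFieldFull (N' * q * q))) (c₀ : Qb)
    (r₀ : modularFunctionFieldBar (N' * q * q)) (hg1 : g1 ≠ 0) (hc₀ : c₀ ≠ 0) (hr₀ : r₀ ≠ 0)
    (hfeq : f = algebraMap Qb (modularFunctionFieldBar (N' * q * q)) c₀ * r₀ ^ p *
      dsc_bcHom L1 Qb (modularFunctionFieldFull (N' * q * q)) g1)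
    (hord : ∀ w : Place L1 (laurentBaseChange L1 (modularFunctionFieldFull (N' * q * q))),
      (p : ℤ) ∣ w.ord g1)
    (hα : ∃ (a : L1) (s : laurentBaseChange L1 (modularFunctionFieldFull (N' * q))),
      s35pe_normAlong (heckeAlphaBar L1 (N' * q) q) g1 =
        algebraMap L1 (laurentBaseChange L1 (modularFunctionFieldFull (N' * q))) a * s ^ p)
    (hβ : ∃ (a : L1) (s : laurentBaseChange L1 (modularFunctionFieldFull (N' * q))),
      s35pe_normAlong (heckeBetaBar L1 (N' * q) q) g1 =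
        algebraMap L1 (laurentBaseChange L1 (modularFunctionFieldFull (N' * q))) a * s ^ p)
    (hV : ∀ [IsDiscreteValuationRing ↥(A.comap (algebraMap ↥L1 Qb))]
          [CharP (ResidueField ↥(A.comap (algebraMap ↥L1 Qb))) q]
          (hπ : Irreducible ((q : ℕ) : ↥(A.comap (algebraMap ↥L1 Qb)))),
          m59sb_Vert0At (A.comap (algebraMap ↥L1 Qb)) hπ N' q hq2 hqN' p
            (ss2_dp_iota ↥L1 (N' * q * q) g1))
    (hC : Nat.Coprime (q - 1) p ∨
        ∀ [IsDiscreteValuationRing ↥(A.comap (algebraMap ↥L1 Qb))]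
          [CharP (ResidueField ↥(A.comap (algebraMap ↥L1 Qb))) q]
          (hπ : Irreducible ((q : ℕ) : ↥(A.comap (algebraMap ↥L1 Qb)))),
          m59sb_ResCPow1 (A.comap (algebraMap ↥L1 Qb)) hπ N' q hq2 hqN' p
            (ss2_dp_iota ↥L1 (N' * q * q) g1)) :
    m59g12u_NFOver A N' q hq2 hqN' p f L1 := by
  have hqp' : ¬ q ∣ p := fun h => hqp ((Nat.prime_dvd_prime_iff_eq hq.out hp).1 h)
  refine ⟨g1, c₀, r₀, hg1, hc₀, hr₀, hfeq, ?_⟩
  intro _ _ hπ
  have hNew : s36_NewAt (L := ↥L1) N' q hq2 p (ss2_dp_iota ↥L1 (N' * q * q) g1) :=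
    m59g12_newAt ↥L1 N' q hq.out hq2 hp.ne_zero g1 hg1 hord hα hβ
  have hqu : ((q : ℕ) : ↥(A.comap (algebraMap ↥L1 Qb))) =
      ((q : ℕ) : ↥(A.comap (algebraMap ↥L1 Qb))) * 1 := (mul_one _).symm
  obtain ⟨VC, T3⟩ := s36asm_third_exists (A.comap (algebraMap ↥L1 Qb)) hπ N' q hq2 hqN' 1
    isUnit_one hqu
  obtain ⟨j, h, hh, hA1, hB1, hC1⟩ := hV hπ VC T3
  have hCinfo : Nat.Coprime (q - 1) p ∨
      ∃ (j' : ℤ) (h' : ↥(lg_E ↥L1 (N' * q * q))) (κ : ↥L1) (w : ↥(lg_E ↥L1 (N' * q * q))),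
        h' ≠ 0 ∧
        (s36i_VA (A.comap (algebraMap ↥L1 Qb)) hπ (N' * q) q).valuation
          (ss2_dp_iota ↥L1 (N' * q * q) g1 *
            algebraMap ↥L1 ↥(lg_E ↥L1 (N' * q * q))
              ((((q : ℕ) : ↥(A.comap (algebraMap ↥L1 Qb))) : ↥(A.comap (algebraMap ↥L1 Qb))) : ↥L1)
              ^ j' * (h' ^ p)⁻¹) = 1 ∧
        VC.valuation
          (ss2_dp_iota ↥L1 (N' * q * q) g1 *
            algebraMap ↥L1 ↥(lg_E ↥L1 (N' * q * q))
              ((((q : ℕ) : ↥(A.comap (algebraMap ↥L1 Qb))) : ↥(A.comap (algebraMap ↥L1 Qb))) : ↥L1)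
              ^ j' * (h' ^ p)⁻¹) = 1 ∧
        (A.comap (algebraMap ↥L1 Qb)).valuation κ = 1 ∧ VC.valuation w = 1 ∧
        ss2_dp_iota ↥L1 (N' * q * q) g1 *
            algebraMap ↥L1 ↥(lg_E ↥L1 (N' * q * q))
              ((((q : ℕ) : ↥(A.comap (algebraMap ↥L1 Qb))) : ↥(A.comap (algebraMap ↥L1 Qb))) : ↥L1)
              ^ j' * (h' ^ p)⁻¹ -
          algebraMap ↥L1 ↥(lg_E ↥L1 (N' * q * q)) κ * w ^ p ∈ VC.nonunits := by
    rcases hC with hc | hc
    · exact Or.inl hc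
    · obtain ⟨j', h', κ, w, hh', ⟨hA1', hB1', hC1'⟩, hκ, hw, hCw⟩ :=
        hc hπ VC T3 ⟨j, h, hh, hA1, hB1, hC1⟩
      exact Or.inr ⟨j', h', κ, w, hh', hA1', hC1', hκ, hw, hCw⟩
  obtain ⟨k, R, g', κA, κB, κC, hk, hR, hκA, hκB, hκC, hgA, hgB, hgC, hfin⟩ :=
    m59g12_const_of_third (A.comap (algebraMap ↥L1 Qb)) hπ N' q hq2 hqN' 1 isUnit_one hqu T3 p
      hqp' (ss2_dp_iota ↥L1 (N' * q * q) g1) hNew j h hh hA1 hB1 hC1 hCinfo
  have hG0 : ss2_dp_iota ↥L1 (N' * q * q) g1 ≠ 0 := hNew.1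
  have hg'0 : g' ≠ 0 := by
    rintro rfl
    rw [mul_zero] at hfin
    exact hG0 hfin
  refine ⟨k, R, g', hk, hR, hg'0, hfin, ?_, ?_⟩
  · intro v
    have hcE : algebraMap ↥L1 ↥(lg_E ↥L1 (N' * q * q)) k ≠ 0 := by
      rw [Ne, map_eq_zero]
      exact hk
    have h1 := congrArg v.ord hfin
    rw [v.ord_mul (mul_ne_zero hcE (pow_ne_zero p hR)) hg'0,
      v.ord_mul hcE (pow_ne_zero p hR), hw_ord_algebraMap, zero_add, ← zpow_natCast,
      v.ord_zpow] at h1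
    have h2 : v.ord g' = v.ord (ss2_dp_iota ↥L1 (N' * q * q) g1) - (p : ℤ) * v.ord R := by
      rw [h1]; ring
    rw [h2]
    exact dvd_sub (hNew.2.1 v) (dvd_mul_right _ _)
  · intro VC' T3'
    obtain rfl := m59g12_third_unique (A.comap (algebraMap ↥L1 Qb)) hπ N' q hq2 hqN' T3 T3'
    have hmem : ∀ {κ : ↥L1}, (A.comap (algebraMap ↥L1 Qb)).valuation κ = 1 →
        κ ∈ A.comap (algebraMap ↥L1 Qb) := fun {κ} hκ =>
      ((A.comap (algebraMap ↥L1 Qb)).valuation_le_one_iff κ).1 hκ.le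
    have hunit : ∀ {κ : ↥L1} (hκ : (A.comap (algebraMap ↥L1 Qb)).valuation κ = 1),
        IsUnit (⟨κ, hmem hκ⟩ : ↥(A.comap (algebraMap ↥L1 Qb))) := fun {κ} hκ =>
      ((A.comap (algebraMap ↥L1 Qb)).valuation_eq_one_iff ⟨κ, hmem hκ⟩).2 hκ
    exact ⟨⟨κA, hmem hκA⟩, ⟨κB, hmem hκB⟩, ⟨κC, hmem hκC⟩, hunit hκA, hunit hκB, hunit hκC,
      hgA, hgB, hgC⟩

/-- **the UNIFORM toric normal form from the vertical normal form and the `C`-information**
(uniform twin of `m59g12_torAt_of`, same hypotheses). -/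
theorem m59g12u_torAtU_of (hA : A.LiesOverPrime q) (p : ℕ) (hp : p.Prime) (hqp : q ≠ p)
    (z : JZero (N' * q * q)) (hpz : p • z = 0)
    (hfix : ∀ σ ∈ A.inertiaSubgroupIn ℚ, σ • z = z)
    (hP1 : s35p_P1J (N' * q) q z = 0) (hP2 : s35p_P2J (N' * q) q z = 0)
    (T : Finset Qb) (hT : ∀ t ∈ T, ∀ s ∈ A.inertiaSubgroupIn ℚ, s t = t)
    (hV : ∀ L1 : IntermediateField ℚ Qb, s35d_IsLevel A q L1 → (↑T : Set Qb) ⊆ L1 →
      ∀ g1 : laurentBaseChange L1 (modularFunctionFieldFull (N' * q * q)),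
        m59sb_IsModel N' q p z L1 g1 →
        ∀ [IsDiscreteValuationRing ↥(A.comap (algebraMap ↥L1 Qb))]
          [CharP (ResidueField ↥(A.comap (algebraMap ↥L1 Qb))) q]
          (hπ : Irreducible ((q : ℕ) : ↥(A.comap (algebraMap ↥L1 Qb)))),
          m59sb_Vert0At (A.comap (algebraMap ↥L1 Qb)) hπ N' q hq2 hqN' p
            (ss2_dp_iota ↥L1 (N' * q * q) g1))
    (hC : Nat.Coprime (q - 1) p ∨
      ∀ L1 : IntermediateField ℚ Qb, s35d_IsLevel A q L1 → (↑T : Set Qb) ⊆ L1 →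
      ∀ g1 : laurentBaseChange L1 (modularFunctionFieldFull (N' * q * q)),
        m59sb_IsModel N' q p z L1 g1 →
        ∀ [IsDiscreteValuationRing ↥(A.comap (algebraMap ↥L1 Qb))]
          [CharP (ResidueField ↥(A.comap (algebraMap ↥L1 Qb))) q]
          (hπ : Irreducible ((q : ℕ) : ↥(A.comap (algebraMap ↥L1 Qb)))),
          m59sb_ResCPow1 (A.comap (algebraMap ↥L1 Qb)) hπ N' q hq2 hqN' p
            (ss2_dp_iota ↥L1 (N' * q * q) g1)) :
    m59g12u_TorAtU A N' q hq2 hqN' p z := by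
  obtain ⟨f, hrep, T', hT', hTT', hall⟩ :=
    m59g12u_descU A hA (N' * q) (Dvd.intro_left N' rfl) hp.ne_zero T hT hpz hfix hP1 hP2
  refine ⟨f, hrep, T', hT', ?_⟩
  intro L1 hlev hT'L1
  have hTL1 : (↑T : Set Qb) ⊆ L1 := fun x hx => hT'L1 (Finset.mem_coe.2 (hTT' (Finset.mem_coe.1 hx)))
  obtain ⟨g1, c₀, r₀, hg1, hc₀, hr₀, hfeq, hord, hα, hβ⟩ := hall L1 hT'L1
  have hrep' : s44f_Rep (N' * q * q) p z
      (algebraMap Qb (modularFunctionFieldBar (N' * q * q)) c₀ * r₀ ^ p *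
        dsc_bcHom L1 Qb (modularFunctionFieldFull (N' * q * q)) g1) := hfeq ▸ hrep
  have hmodel : m59sb_IsModel N' q p z L1 g1 :=
    ⟨hg1, ⟨c₀, r₀, hc₀, hr₀, hrep'⟩, hord, hα, hβ⟩
  refine m59g12u_nfOver_of_model A N' q hq2 hqN' p hp hqp z f L1 g1 c₀ r₀ hg1 hc₀ hr₀ hfeq hord
    hα hβ ?_ ?_
  · intro _ _ hπ
    exact hV L1 hlev hTL1 g1 hmodel hπ
  · rcases hC with hc | hc
    · exact Or.inl hc
    · refine Or.inr ?_
      intro _ _ hπ
      exact hc L1 hlev hTL1 g1 hmodel hπ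

end Main

/-- **(G12), three-way conclusion, UNIFORM toric disjunct.** -/
def m59g12u_G12cU_stmt : Prop :=
  ∀ (N' q p : ℕ) [NeZero N'] [NeZero q] [Fact q.Prime] [NeZero (N' * q * q)] [Fact p.Prime],
    p ≠ 2 → q ≠ p → ∀ (hq2 : ¬ 2 ∣ q) (hqN' : ¬ q ∣ N'), 4 ∣ N' →
    ∀ A : ValuationSubring Qb, A.LiesOverPrime q →
    ∀ (S : Finset ℕ) (a : ℕ → ℤ), p ∈ S →
      (∃ ℓ₀ : ℕ, ℓ₀.Prime ∧ ¬ ℓ₀ ∣ N' * q * q ∧ ℓ₀ ∉ S ∧ ¬ (p : ℤ) ∣ (ℓ₀ : ℤ) + 1 - a ℓ₀) →
      ∀ z : JZero (N' * q * q), z ≠ 0 → p • z = 0 →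
        (∀ σ ∈ A.inertiaSubgroupIn ℚ, σ • z = z) →
        (∀ (ℓ : ℕ) (hℓ : ℓ.Prime), ¬ ℓ ∣ N' * q * q → ℓ ∉ S →
          heckeOperatorBar (N' * q * q) ⟨ℓ, hℓ⟩ z = a ℓ • z) →
        m59g12u_TorAtU A N' q hq2 hqN' p z ∨
          (∃ z' : JZero (N' * q), z' ≠ 0 ∧ p • z' = 0 ∧
            ∀ (ℓ : ℕ) (hℓ : ℓ.Prime), ¬ ℓ ∣ N' * q → ℓ ∉ S →
              heckeOperatorBar (N' * q) ⟨ℓ, hℓ⟩ z' = a ℓ • z') ∨
          m59sb_LowChar N' q p S a

/-- the uniform (G12) gives (G12). -/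
theorem m59g12u_G12c_of_U (h : m59g12u_G12cU_stmt) : m59sb_G12c_stmt := by
  intro N' q p _ _ hqF _ hpF hp2 hqp hq2 hqN' h4 A hA S a hpS hne z hz0 hpz hfix heig
  rcases h N' q p hp2 hqp hq2 hqN' h4 A hA S a hpS hne z hz0 hpz hfix heig with h1 | h1
  · exact Or.inl (m59g12u_torAt_of_U A N' q hq2 hqN' hA p z h1)
  · exact Or.inr h1

/-- **(G12), three-way conclusion with the UNIFORM toric disjunct, from its two inner seams**
([EIS] and [DELTA-C] issue 2; uniform twin of `m59g12_G12c_of`). -/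
theorem m59g12u_G12cU_of (hEis : m59sb_Eis_stmt) (hDel : m59sb_DeltaC2_stmt) :
    m59g12u_G12cU_stmt := by
  intro N' q p _ _ hqF _ hpF hp2 hqp hq2 hqN' h4 A hA S a hpS hne z hz0 hpz hfix heig
  have hq : q.Prime := hqF.out
  have hp : p.Prime := hpF.out
  haveI : NeZero (N' * q) := ⟨Nat.mul_ne_zero (NeZero.ne N') (NeZero.ne q)⟩
  by_cases hP : s35p_P1J (N' * q) q z ≠ 0 ∨ s35p_P2J (N' * q) q z ≠ 0
  · exact Or.inr (Or.inl
      (m59g12_push (N' * q) q hq (Dvd.intro_left N' rfl) p hp.ne_zero S a z hpz heig hP))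
  have hP1 : s35p_P1J (N' * q) q z = 0 := by
    by_contra h
    exact hP (Or.inl h)
  have hP2 : s35p_P2J (N' * q) q z = 0 := by
    by_contra h
    exact hP (Or.inr h)
  obtain ⟨T1, hT1, hE⟩ :=
    hEis N' q p hp2 hqp hq2 hqN' h4 A hA S a hpS hne z hz0 hpz hfix heig hP1 hP2
  classical
  by_cases hpq1 : p ∣ q - 1
  · rcases hDel N' q p hp2 hqp hpq1 hq2 hqN' h4 A hA S a hpS hne z hz0 hpz hfix heig hP1 hP2 with
      h | ⟨T2, hT2, hD⟩
    · exact Or.inr (Or.inr h)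
    · refine Or.inl (m59g12u_torAtU_of A N' q hq2 hqN' hA p hp hqp z hpz hfix hP1 hP2 (T1 ∪ T2)
        ?_ ?_ (Or.inr ?_))
      · intro t ht
        rcases Finset.mem_union.1 ht with h | h
        · exact hT1 t h
        · exact hT2 t h
      · intro L1 hlev hTL1
        exact hE L1 hlev (fun t ht => hTL1 (by
          rw [Finset.coe_union]; exact Set.mem_union_left _ ht))
      · intro L1 hlev hTL1
        exact hD L1 hlev (fun t ht => hTL1 (by
          rw [Finset.coe_union]; exact Set.mem_union_right _ ht))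
  · refine Or.inl (m59g12u_torAtU_of A N' q hq2 hqN' hA p hp hqp z hpz hfix hP1 hP2 T1 hT1 hE
      (Or.inl ?_))
    exact ((Nat.Prime.coprime_iff_not_dvd hp).2 hpq1).symm

/-! ### one level for finitely many classes -/

/-- **finitely many classes with the uniform normal form have their normal forms over ONE level**
`L* ⊇ T0` (`T0` any finite `I_A`-fixed set of constants), with the representing functions chosen
once and for all (independently of `T0`, `L*`). -/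
theorem m59g12u_common (A : ValuationSubring Qb) (N' q : ℕ) [NeZero N'] [NeZero q]
    [hq : Fact q.Prime] [NeZero (N' * q * q)] (hq2 : ¬ 2 ∣ q) (hqN' : ¬ q ∣ N')
    (hA : A.LiesOverPrime q) (m : ℕ) (Z : Set (JZero (N' * q * q))) (hZ : Z.Finite)
    (hU : ∀ z ∈ Z, m59g12u_TorAtU A N' q hq2 hqN' m z) :
    ∃ (F : JZero (N' * q * q) → modularFunctionFieldBar (N' * q * q)) (T : Finset Qb),
      (∀ z ∈ Z, s44f_Rep (N' * q * q) m z (F z)) ∧
      (∀ t ∈ T, ∀ s ∈ A.inertiaSubgroupIn ℚ, s t = t) ∧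
      ∀ L1 : IntermediateField ℚ Qb, s35d_IsLevel A q L1 → (↑T : Set Qb) ⊆ L1 →
        ∀ z ∈ Z, m59g12u_NFOver A N' q hq2 hqN' m (F z) L1 := by
  classical
  choose! F hF using hU
  choose! TT hTT using fun z hz => (hF z hz).2
  refine ⟨F, hZ.toFinset.biUnion TT, fun z hz => (hF z hz).1, ?_, ?_⟩
  · intro t ht s hs
    obtain ⟨z, hz, htz⟩ := Finset.mem_biUnion.1 ht
    exact (hTT z (hZ.mem_toFinset.1 hz)).1 t htz s hs
  · intro L1 hlev hTL1 z hz
    refine (hTT z hz).2 L1 hlev ?_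
    intro t ht
    exact hTL1 (Finset.mem_coe.2 (Finset.mem_biUnion.2 ⟨z, hZ.mem_toFinset.2 hz, Finset.mem_coe.1 ht⟩))

/-- the same with ONE level `L* ⊇ T0` produced. -/
theorem m59g12u_common_level (A : ValuationSubring Qb) (N' q : ℕ) [NeZero N'] [NeZero q]
    [hq : Fact q.Prime] [NeZero (N' * q * q)] (hq2 : ¬ 2 ∣ q) (hqN' : ¬ q ∣ N')
    (hA : A.LiesOverPrime q) (m : ℕ) (Z : Set (JZero (N' * q * q))) (hZ : Z.Finite)
    (hU : ∀ z ∈ Z, m59g12u_TorAtU A N' q hq2 hqN' m z)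
    (T0 : Finset Qb) (hT0 : ∀ t ∈ T0, ∀ s ∈ A.inertiaSubgroupIn ℚ, s t = t) :
    ∃ L1 : IntermediateField ℚ Qb, s35d_IsLevel A q L1 ∧ (↑T0 : Set Qb) ⊆ L1 ∧
      ∀ z ∈ Z, ∃ f : modularFunctionFieldBar (N' * q * q), s44f_Rep (N' * q * q) m z f ∧
        m59g12u_NFOver A N' q hq2 hqN' m f L1 := by
  classical
  obtain ⟨F, T, hF, hT, hall⟩ := m59g12u_common A N' q hq2 hqN' hA m Z hZ hU
  obtain ⟨L2, L1, -, -, -, -, hlev, hTL1, -⟩ := s35d_exists_level A q hA ∅ (T0 ∪ T)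
    (fun t ht => ffi_mem_L.2 (fun s hs => by
      rcases Finset.mem_union.1 ht with h | h
      · exact hT0 t h s hs
      · exact hT t h s hs))
  refine ⟨L1, hlev, ?_, ?_⟩
  · intro t ht
    exact hTL1 (by rw [Finset.coe_union]; exact Set.mem_union_left _ ht)
  · intro z hz
    exact ⟨F z, hF z hz, hall L1 hlev (fun t ht => hTL1 (by
      rw [Finset.coe_union]; exact Set.mem_union_right _ ht)) z hz⟩

end Fermat.Agent.M59
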