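/-
M59 / Sink B, cell (G12), [RESTR] (helper1), ABSTRACT PART.  Prefix `m59g12_`.

* `m59g12_comap_nonunits_iff`, `m59g12_comap_val_one` : units / nonunits of `V.comap φ` for a ring
  homomorphism `φ : K → E` of fields.
* `m59g12_quad_dec` : `E = φ K ⊕ φ K · s`, `s² = φ λ₀` with `λ₀` a unit of `V.comap φ`, `2` a unit of
  `V`, and `V.comap φ` a discrete valuation ring with uniformiser `ϖ` (`s36at_Unif`, `s36wa_Arch`):
  every `w ≠ 0` of `E` is `(φ ϖ)^n` times a unit of `V` (the extension is unramified at `V`).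
* `m59g12_quad_absurd` : hence `V` cannot have a uniformiser `z` with `φ ϖ = u z^e`, `e ≥ 2`.
-/
import Mathlib
import Fermat.Agent.S36.ATower.Ord

set_option autoImplicit false
set_option linter.unusedSectionVars false
set_option linter.unusedVariables false

open Fermat.Agent.JT3 Fermat.Agent.SS Fermat.Agent.S36

namespace Fermat.Agent.M59

section Comap

variable {K E : Type*} [Field K] [Field E] (φ : K →+* E) (V : ValuationSubring E)

theorem m59g12_comap_nonunits_iff (a : K) :
    a ∈ (V.comap φ).nonunits ↔ φ a ∈ V.nonunits := by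
  rw [ssm_tw_nonunits_iff, ssm_tw_nonunits_iff, ValuationSubring.mem_comap,
    ValuationSubring.mem_comap, map_inv₀, map_eq_zero]

theorem m59g12_val_one_iff {F : Type*} [Field F] (W : ValuationSubring F) (x : F) :
    W.valuation x = 1 ↔ x ∈ W ∧ x ∉ W.nonunits := by
  constructor
  · intro h
    refine ⟨(W.valuation_le_one_iff x).1 h.le, fun hn => ?_⟩
    have := W.mem_nonunits_iff.1 hn
    rw [h] at this
    exact lt_irrefl _ this
  · rintro ⟨h1, h2⟩
    exact s36at_val_eq_one h1 h2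

theorem m59g12_comap_val_one (a : K) :
    (V.comap φ).valuation a = 1 ↔ V.valuation (φ a) = 1 := by
  rw [m59g12_val_one_iff, m59g12_val_one_iff, m59g12_comap_nonunits_iff, ValuationSubring.mem_comap]

theorem m59g12_comap_arch (h : s36wa_Arch V) : s36wa_Arch (V.comap φ) := by
  intro z hz hz0 y
  obtain ⟨k, hk⟩ := h (φ z) ((m59g12_comap_nonunits_iff φ V z).1 hz) ((map_ne_zero φ).2 hz0) (φ y)
  refine ⟨k, ?_⟩
  rw [m59g12_comap_nonunits_iff, map_mul, map_pow]
  exact hk

end Comap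

section Quad

variable {K E : Type*} [Field K] [Field E] (φ : K →+* E) (V : ValuationSubring E)

/-- a square root of a unit is a unit. -/
theorem m59g12_val_one_of_sq {x : E} (h : V.valuation (x ^ 2) = 1) : V.valuation x = 1 := by
  rw [map_pow] at h
  rcases lt_trichotomy (V.valuation x) 1 with h1 | h1 | h1
  · have := pow_lt_one₀ zero_le h1 (two_ne_zero)
    rw [h] at this
    exact absurd this (lt_irrefl _)
  · exact h1
  · have := one_lt_pow₀ h1 (two_ne_zero)
    rw [h] at this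
    exact absurd this (lt_irrefl _)

/-- the translate `φ c + s` of the Kummer generator is a power of `φ ϖ` times a unit. -/
theorem m59g12_quad_dec_aux (s : E) (lam0 ϖ : K) (hs : s ^ 2 = φ lam0)
    (hU : s36at_Unif (V.comap φ) ϖ) (harch : s36wa_Arch (V.comap φ))
    (hlam : (V.comap φ).valuation lam0 = 1) (h2 : V.valuation (2 : E) = 1)
    (c : K) (ht : φ c + s ≠ 0) : ∃ n : ℤ, V.valuation ((φ c + s) * φ ϖ ^ n) = 1 := by
  have hs1 : V.valuation s = 1 := by
    apply m59g12_val_one_of_sq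
    rw [hs]
    exact (m59g12_comap_val_one φ V lam0).1 hlam
  rcases lt_trichotomy (V.valuation (φ c)) 1 with h1 | h1 | h1
  · -- `φ c` small
    refine ⟨0, ?_⟩
    rw [zpow_zero, mul_one, add_comm]
    rw [Valuation.map_add_eq_of_lt_left _ (by rw [hs1]; exact h1)]
    exact hs1
  · -- `φ c` a unit
    by_cases hu : V.valuation (φ c + s) = 1
    · exact ⟨0, by rw [zpow_zero, mul_one]; exact hu⟩
    have htV : V.valuation (φ c + s) ≤ 1 := by
      refine le_trans (Valuation.map_add _ _ _) ?_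
      rw [h1, hs1, max_self]
    have hlt : V.valuation (φ c + s) < 1 := lt_of_le_of_ne htV hu
    -- `s - φ c` is a unit
    have h2c : V.valuation (2 * φ c) = 1 := by rw [map_mul, h2, h1, mul_one]
    have hsub : V.valuation (s - φ c) = 1 := by
      have e : s - φ c = (φ c + s) + -(2 * φ c) := by ring
      rw [e, Valuation.map_add_eq_of_lt_right _ (by rw [Valuation.map_neg, h2c]; exact hlt),
        Valuation.map_neg, h2c]
    -- `d = λ₀ - c²`
    set d : K := lam0 - c ^ 2 with hd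
    have hφd : φ d = (s - φ c) * (φ c + s) := by
      rw [hd, map_sub, map_pow, ← hs]
      ring
    have hsub0 : s - φ c ≠ 0 := by
      intro h0
      rw [h0, map_zero] at hsub
      exact zero_ne_one hsub
    have hd0 : d ≠ 0 := by
      intro h0
      rw [h0, map_zero] at hφd
      rcases mul_eq_zero.1 hφd.symm with h | h
      · exact hsub0 h
      · exact ht h
    obtain ⟨n, hn⟩ := s36at_dec hU harch d hd0
    refine ⟨n, ?_⟩
    have hn' : V.valuation (φ (d * ϖ ^ n)) = 1 := (m59g12_comap_val_one φ V _).1 hn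
    rw [map_mul, map_zpow₀, hφd] at hn'
    rw [map_mul, map_mul, hsub, one_mul, ← map_mul] at hn'
    exact hn'
  · -- `φ c` large
    have hc0 : c ≠ 0 := by
      rintro rfl
      rw [map_zero, map_zero] at h1
      exact absurd h1 (not_lt.2 zero_le_one)
    obtain ⟨n, hn⟩ := s36at_dec hU harch c hc0
    refine ⟨n, ?_⟩
    have hn' : V.valuation (φ (c * ϖ ^ n)) = 1 := (m59g12_comap_val_one φ V _).1 hn
    rw [map_mul, map_zpow₀, map_mul] at hn'
    rw [map_mul, Valuation.map_add_eq_of_lt_left _ (by rw [hs1]; exact h1)]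
    exact hn'

/-- **the quadratic extension `E = φ K ⊕ φ K · s` is unramified at `V`.** -/
theorem m59g12_quad_dec (s : E) (lam0 ϖ : K)
    (hgen : ∀ w : E, ∃ x y : K, w = φ x + φ y * s) (hs : s ^ 2 = φ lam0)
    (hU : s36at_Unif (V.comap φ) ϖ) (harch : s36wa_Arch (V.comap φ))
    (hlam : (V.comap φ).valuation lam0 = 1) (h2 : V.valuation (2 : E) = 1)
    (w : E) (hw : w ≠ 0) : ∃ n : ℤ, V.valuation (w * φ ϖ ^ n) = 1 := by
  obtain ⟨x, y, rfl⟩ := hgen w
  by_cases hy : y = 0
  · subst hy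
    rw [map_zero, zero_mul, add_zero] at hw ⊢
    have hx0 : x ≠ 0 := by
      rintro rfl
      exact hw (map_zero φ)
    obtain ⟨n, hn⟩ := s36at_dec hU harch x hx0
    refine ⟨n, ?_⟩
    have hn' : V.valuation (φ (x * ϖ ^ n)) = 1 := (m59g12_comap_val_one φ V _).1 hn
    rwa [map_mul, map_zpow₀] at hn'
  · have hφy : φ y ≠ 0 := (map_ne_zero φ).2 hy
    have e : φ x + φ y * s = φ y * (φ (x / y) + s) := by
      rw [map_div₀]
      field_simp
    have ht : φ (x / y) + s ≠ 0 := by
      intro h0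
      rw [e, h0, mul_zero] at hw
      exact hw rfl
    obtain ⟨n1, hn1⟩ := m59g12_quad_dec_aux φ V s lam0 ϖ hs hU harch hlam h2 (x / y) ht
    obtain ⟨n2, hn2⟩ := s36at_dec hU harch y hy
    have hn2' : V.valuation (φ (y * ϖ ^ n2)) = 1 := (m59g12_comap_val_one φ V _).1 hn2
    rw [map_mul, map_zpow₀] at hn2'
    refine ⟨n2 + n1, ?_⟩
    have hϖ0 : φ ϖ ≠ 0 := (map_ne_zero φ).2 hU.ne_zero
    have e2 : (φ x + φ y * s) * φ ϖ ^ (n2 + n1) =
        (φ y * φ ϖ ^ n2) * ((φ (x / y) + s) * φ ϖ ^ n1) := by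
      rw [e, zpow_add₀ hϖ0]
      ring
    rw [e2, map_mul, hn2', hn1, mul_one]

/-- **consequence**: `V` has no uniformiser `z` with `φ ϖ = u · z^e`, `e ≥ 2`. -/
theorem m59g12_quad_absurd (s : E) (lam0 ϖ : K)
    (hgen : ∀ w : E, ∃ x y : K, w = φ x + φ y * s) (hs : s ^ 2 = φ lam0)
    (hU : s36at_Unif (V.comap φ) ϖ) (harch : s36wa_Arch (V.comap φ))
    (hlam : (V.comap φ).valuation lam0 = 1) (h2 : V.valuation (2 : E) = 1)
    (z u : E) (hz0 : z ≠ 0) (hz : z ∈ V.nonunits) (hu : V.valuation u = 1) (e : ℕ) (he : 2 ≤ e)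
    (hram : φ ϖ = u * z ^ e) : False := by
  obtain ⟨n, hn⟩ := m59g12_quad_dec φ V s lam0 ϖ hgen hs hU harch hlam h2 z hz0
  -- `z ^ (1 + n e)` is a unit
  have h1 : V.valuation (z ^ (1 + n * (e : ℤ))) = 1 := by
    have e1 : z ^ (1 + n * (e : ℤ)) = (z * φ ϖ ^ n) * (u ^ n)⁻¹ := by
      have hu0 : u ≠ 0 := by
        rintro rfl
        rw [map_zero] at hu
        exact zero_ne_one hu
      rw [hram, mul_zpow, zpow_add₀ hz0, zpow_one, ← zpow_natCast z e, ← zpow_mul, mul_comm n]
      field_simp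
    rw [e1, map_mul, hn, one_mul, map_inv₀, map_zpow₀, hu, one_zpow, inv_one]
  have h3 := s36at_zpow_eq_one hz0 (V.mem_nonunits_iff.1 hz) h1
  -- `1 + n e = 0` is impossible for `e ≥ 2`
  have he' : (2 : ℤ) ≤ (e : ℤ) := by exact_mod_cast he
  have h4 : n * (e : ℤ) = -1 := by omega
  have h5 : (e : ℤ) ∣ 1 := ⟨-n, by linarith⟩
  have h6 := Int.le_of_dvd one_pos h5
  omega

end Quad

end Fermat.Agent.M59
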