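/-
M59 / Sink B, cell (G12), [RESTR] (helper1), part 2: THE MAP `φ' : lg_E L N₀ → lg_E L N₁`,
`x ↦ x(X²)`, FOR `N₁ = 2 N₀`, `2 ∣ N₀`, AND THE GAUSS VALUATIONS.  Prefix `m59g12_`.

For `2 ∣ N₀`: `lg_E L N₀ = F^C_L(lcm(4, 2 N₀)) = F^C_L(2 N₀) = lg_F L (2 N₀)` (`ssm_f4`), the PLAIN
field of level `2 N₀`, and `lg_E L (2 N₀) = φ(lg_F L (2 N₀))(λ)`; so `φ = (X ↦ X²)` maps
`lg_E L N₀` into `lg_E L (2 N₀)`.

* `m59g12_phi2 L N₀ N₁ h2 h : ↥(lg_E L N₀) →ₐ[L] ↥(lg_E L N₁)`, `m59g12_phi2_coe`;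
* `m59g12_phi2_gauss_mem_iff`, `m59g12_phi2_gauss_nonunits_iff` : the Gauss valuation subrings
  correspond under `φ'` (`ssm_ga_beta_mem_iff` at the exponent `2`);
* `m59g12_phi2_hgen` : helper7's `m59rt_hgen` in terms of `φ'`: every `w ∈ lg_E L N₁` is
  `φ' x + φ' y · s`, `s² = φ' λ`.
-/
import Mathlib
import Fermat.Agent.M59.SinkB.G12.RestrAbs
import Fermat.Agent.M59.SinkB.RigidT.Landen
import Fermat.Agent.SS.Model.Gauss
import Fermat.Agent.SS.Model.F4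

set_option autoImplicit false
set_option linter.unusedSectionVars false
set_option linter.unusedVariables false
set_option linter.style.haveILetI false

noncomputable section

open ModularCurve IntermediateField IsLocalRing
open Fermat.Agent.JT3 Fermat.Agent.SS Fermat.Agent.S36

namespace Fermat.Agent.M59

section Phi

variable (L : Type*) [Field L] [CharZero L] (N₀ N₁ : ℕ) [NeZero N₀] [NeZero N₁]

theorem m59g12_f4_level_even (h2 : 2 ∣ N₀) : ssm_f4_level N₀ = 2 * N₀ := by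
  rw [ssm_f4_level]
  apply Nat.lcm_eq_right
  obtain ⟨c, rfl⟩ := h2
  exact ⟨c, by ring⟩

theorem m59g12_four_dvd (h2 : 2 ∣ N₀) (h : N₁ = 2 * N₀) : 4 ∣ N₁ := by
  obtain ⟨c, rfl⟩ := h2
  exact ⟨c, by rw [h]; ring⟩

/-- `lg_E L N₀` is the plain field of level `N₁ = 2 N₀` (`2 ∣ N₀`). -/
theorem m59g12_E_eq_F (h2 : 2 ∣ N₀) (h : N₁ = 2 * N₀) : lg_E L N₀ = lg_F L N₁ := by
  have h' := ssm_f4 L N₀
  have e : modularFunctionFieldFullC L (ssm_f4_level N₀) = modularFunctionFieldFullC L N₁ := by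
    congr 1
    rw [h]
    exact m59g12_f4_level_even N₀ h2
  rw [h', e]

theorem m59g12_mem_F_of_mem_E (h2 : 2 ∣ N₀) (h : N₁ = 2 * N₀) {x : LaurentSeries L}
    (hx : x ∈ lg_E L N₀) : x ∈ lg_F L N₁ := by
  rw [← m59g12_E_eq_F L N₀ N₁ h2 h]; exact hx

theorem m59g12_mem_E_of_mem_F (h2 : 2 ∣ N₀) (h : N₁ = 2 * N₀) {x : LaurentSeries L}
    (hx : x ∈ lg_F L N₁) : x ∈ lg_E L N₀ := by
  rw [m59g12_E_eq_F L N₀ N₁ h2 h]; exact hx

/-- **`φ' = (X ↦ X²) : lg_E L N₀ → lg_E L N₁`** (`N₁ = 2 N₀`, `2 ∣ N₀`). -/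
def m59g12_phi2 (h2 : 2 ∣ N₀) (h : N₁ = 2 * N₀) : ↥(lg_E L N₀) →ₐ[L] ↥(lg_E L N₁) :=
  ((qExpandAlgHomC L 2).comp (lg_E L N₀).val).codRestrict (lg_E L N₁).toSubalgebra
    (fun x => lg_phi_mem_E L N₁ (m59g12_mem_F_of_mem_E L N₀ N₁ h2 h x.2))

theorem m59g12_phi2_coe (h2 : 2 ∣ N₀) (h : N₁ = 2 * N₀) (x : ↥(lg_E L N₀)) :
    ((m59g12_phi2 L N₀ N₁ h2 h x : ↥(lg_E L N₁)) : LaurentSeries L) =
      qExpand L 2 (x : LaurentSeries L) := rfl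

/-- `φ'` is compatible with the inclusions of a tower `N₀ ∣ M₀`, `N₁ ∣ M₁`. -/
theorem m59g12_phi2_incl {M₀ M₁ : ℕ} [NeZero M₀] [NeZero M₁] (h2 : 2 ∣ N₀) (h : N₁ = 2 * N₀)
    (h2' : 2 ∣ M₀) (h' : M₁ = 2 * M₀)
    (hle : lg_E L N₀ ≤ lg_E L M₀) (hle' : lg_E L N₁ ≤ lg_E L M₁) (x : ↥(lg_E L N₀)) :
    m59g12_phi2 L M₀ M₁ h2' h' (IntermediateField.inclusion hle x) =
      IntermediateField.inclusion hle' (m59g12_phi2 L N₀ N₁ h2 h x) := by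
  apply Subtype.ext
  rw [m59g12_phi2_coe, IntermediateField.coe_inclusion, IntermediateField.coe_inclusion,
    m59g12_phi2_coe]

/-- helper7's generation statement in terms of `φ'`. -/
theorem m59g12_phi2_hgen (h2 : 2 ∣ N₀) (h : N₁ = 2 * N₀) (w : ↥(lg_E L N₁)) :
    ∃ x y : ↥(lg_E L N₀), w = m59g12_phi2 L N₀ N₁ h2 h x + m59g12_phi2 L N₀ N₁ h2 h y *
      m59rt_sE (k := L) N₁ (m59g12_four_dvd N₀ N₁ h2 h) := by
  obtain ⟨x, y, hxy⟩ := m59rt_hgen (k := L) N₁ two_ne_zero (m59g12_four_dvd N₀ N₁ h2 h) w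
  refine ⟨⟨x.1, m59g12_mem_E_of_mem_F L N₀ N₁ h2 h x.2⟩,
    ⟨y.1, m59g12_mem_E_of_mem_F L N₀ N₁ h2 h y.2⟩, ?_⟩
  rw [hxy]
  apply Subtype.ext
  simp only [AddMemClass.coe_add, MulMemClass.coe_mul, lg_phiE_coe, m59g12_phi2_coe, lg_phi_apply]

/-- `λ ∈ lg_E L N₀` and `s² = φ' λ`. -/
theorem m59g12_phi2_sq (h2 : 2 ∣ N₀) (h : N₁ = 2 * N₀) :
    m59rt_sE (k := L) N₁ (m59g12_four_dvd N₀ N₁ h2 h) ^ 2 =
      m59g12_phi2 L N₀ N₁ h2 h (lg_lamE N₀) := by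
  rw [m59rt_sE_sq (k := L) N₁ two_ne_zero (m59g12_four_dvd N₀ N₁ h2 h)]
  apply Subtype.ext
  rw [lg_phiE_coe, m59g12_phi2_coe, lg_phi_apply]
  rfl

end Phi

section Gauss

variable {L : Type*} [Field L] [CharZero L] (O : ValuationSubring L) [IsDiscreteValuationRing O]
  {π : O} (hπ : Irreducible π) (N₀ N₁ : ℕ) [NeZero N₀] [NeZero N₁]

/-- the Gauss valuation subring of `lg_E L N`. -/
abbrev m59g12_gauss (N : ℕ) [NeZero N] : ValuationSubring ↥(lg_E L N) :=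
  gq_valSubOf π hπ.ne_zero hπ.maximalIdeal_eq (lg_E L N) (ssm_ga_E_le_quotField O N)

theorem m59g12_phi2_gauss_mem_iff (h2 : 2 ∣ N₀) (h : N₁ = 2 * N₀) (x : ↥(lg_E L N₀)) :
    m59g12_phi2 L N₀ N₁ h2 h x ∈ m59g12_gauss O hπ N₁ ↔ x ∈ m59g12_gauss O hπ N₀ :=
  ssm_ga_beta_mem_iff 2 π hπ.ne_zero hπ.maximalIdeal_eq (lg_E L N₁) (lg_E L N₀)
    (ssm_ga_E_le_quotField O N₁) (ssm_ga_E_le_quotField O N₀) x _
    (m59g12_phi2_coe L N₀ N₁ h2 h x)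

theorem m59g12_phi2_gauss_nonunits_iff (h2 : 2 ∣ N₀) (h : N₁ = 2 * N₀) (x : ↥(lg_E L N₀)) :
    m59g12_phi2 L N₀ N₁ h2 h x ∈ (m59g12_gauss O hπ N₁).nonunits ↔
      x ∈ (m59g12_gauss O hπ N₀).nonunits :=
  ssm_ga_beta_mem_nonunits_iff 2 π hπ.ne_zero hπ.maximalIdeal_eq (lg_E L N₁) (lg_E L N₀)
    (ssm_ga_E_le_quotField O N₁) (ssm_ga_E_le_quotField O N₀) x _
    (m59g12_phi2_coe L N₀ N₁ h2 h x)

/-- the Gauss ring of level `N₀` is the pull-back of the Gauss ring of level `N₁` along `φ'`. -/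
theorem m59g12_phi2_gauss_comap (h2 : 2 ∣ N₀) (h : N₁ = 2 * N₀) :
    (m59g12_gauss O hπ N₁).comap
        (m59g12_phi2 L N₀ N₁ h2 h : ↥(lg_E L N₀) →+* ↥(lg_E L N₁)) =
      m59g12_gauss O hπ N₀ := by
  ext x
  rw [ValuationSubring.mem_comap]
  exact m59g12_phi2_gauss_mem_iff O hπ N₀ N₁ h2 h x

/-- `λ` is a unit of the Gauss ring (`2` a unit of the residue field). -/
theorem m59g12_lam_gauss_unit (h2r : (2 : ResidueField O) ≠ 0) :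
    (m59g12_gauss O hπ N₀).valuation (lg_lamE N₀) = 1 := by
  have ht : ((lg_lamE N₀ : ↥(lg_E L N₀)) : LaurentSeries L) =
      coeffMap (algebraMap O L) (hm_lam O) := (hm_coeffMap_lam _).symm
  have hb : gq_IsBdd O L ((lg_lamE N₀ : ↥(lg_E L N₀)) : LaurentSeries L) := by
    rw [ht]; exact gq_isBdd_iota _
  apply s36at_val_eq_one hb
  refine ssm_ga_not_mem_nonunits_of_res π hπ.ne_zero hπ.maximalIdeal_eq (lg_E L N₀)
    (ssm_ga_E_le_quotField O N₀) _ hb ?_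
  rw [gq_res_of_eq_iota _ _ ht]
  intro h0
  have h1 := congrArg (fun z : LaurentSeries (ResidueField O) => z.coeff 1) h0
  simp only [HahnSeries.coeff_zero, coeffMap_coeff] at h1
  exact ssm_ga_lam_coeff_one O h2r h1

end Gauss

end Fermat.Agent.M59
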