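/-
M59 / Sink B, cell (G12), [RESTR] (helper1; consumer: helper17's [DELTA-C], #5532 (2)).
Prefix `m59g12_`.

`N' = 2 N''`, `2 ∣ N''` (so `4 ∣ N'`), `q ∤ N'` an odd prime, `(L, O)` a base of [NF2-CTX].
`F1 := lg_E L (N'' q q)` is the PLAIN field `F^C_L(N' q q)` and `φ' = (X ↦ X²) : F1 → E2 := lg_E L (N' q q)`
(`m59g12_phi2`); `ι g1 = φ' g1`.

* `m59g12_restr_VA`    : `VA(N').comap φ' = VA(N'')` (Gauss valuations);
* `m59g12_restr_third` : **`VC.comap φ' = VC2`** for the third valuations of the two bases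
  (`VC.comap φ'` lies over `V1(N'')`, so it is `VA(N'')` or `VC2` by `s36t3_Third.only`; it is not
  `VA(N'')`: `E2 = φ' F1 ⊕ φ' F1 · s`, `s² = φ' λ`, would be unramified at `VC` (`m59g12_quad_absurd`),
  against `π = u z^(q-1)`, `q ≥ 3`);
* **`m59g12_restr`** : a vertical normalisation `(j, h)` of `g = φ' g1` at `VA`, `VC` (base `N'`,
  exponent `m ≥ 1`) gives `h2 ∈ F1` with `u2 := g1 · π^j · (h2^m)⁻¹` a unit at `VA(N'')` and `VC2`
  (SAME `j`), and every congruence `u2 ≡ κ · w2^m` at `VC2` transfers to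
  `g · π^j · (h^m)⁻¹ ≡ κ · w^m` at `VC`, `w` a unit of `VC` (THE ORIGINAL normalisation);
* **`m59g12_restr_iota`** : the same with `g = ss2_dp_iota L (N' q q) g1`, `g1` a function of level
  `N' q q` over `L` (the vocabulary of `m59sb_ResCPow1`); `m59g12_iota_eq_phiT : ι g1 = φ' g1`.
-/
import Mathlib
import Fermat.Agent.M59.SinkB.G12.RestrPhi
import Fermat.Agent.S36.Model.AsmLegFinal
import Fermat.Agent.S36.ATower.Pack
import Fermat.Agent.SS2.DescPhi.NormCover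

set_option autoImplicit false
set_option linter.unusedSectionVars false
set_option linter.unusedVariables false
set_option linter.style.haveILetI false
set_option synthInstance.maxHeartbeats 400000
set_option maxHeartbeats 1000000

noncomputable section

open ModularCurve AlgebraicCurve IntermediateField IsLocalRing
open Fermat.Agent.JT3 Fermat.Agent.SS Fermat.Agent.S35 Fermat.Agent.S36

namespace Fermat.Agent.M59

section Legendre

variable {L : Type*} [Field L] [CharZero L] [Algebra L (AlgebraicClosure ℚ)]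
  (O : ValuationSubring L) [IsDiscreteValuationRing O] {π : O} (hπ : Irreducible π)
variable (N' N'' q : ℕ) [NeZero N'] [NeZero N''] [NeZero q] [hq : Fact q.Prime]
  [CharP (ResidueField O) q] (hq2 : ¬ 2 ∣ q) (hqN' : ¬ q ∣ N') (hqN'' : ¬ q ∣ N'')
  (hN : N' = 2 * N'') (h2 : 2 ∣ N'')

include hN in
theorem m59g12_restr_hN1 : N' * q = 2 * (N'' * q) := by rw [hN]; ring

include hN in
theorem m59g12_restr_hN2 : N' * q * q = 2 * (N'' * q * q) := by rw [hN]; ring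

include h2 in
theorem m59g12_restr_h21 : 2 ∣ N'' * q := Dvd.dvd.mul_right h2 q

include h2 in
theorem m59g12_restr_h22 : 2 ∣ N'' * q * q := Dvd.dvd.mul_right (Dvd.dvd.mul_right h2 q) q

variable (L) in
/-- `φ'` at the top level `N'' q q → N' q q`. -/
abbrev m59g12_phiT : ↥(lg_E L (N'' * q * q)) →ₐ[L] ↥(lg_E L (N' * q * q)) :=
  m59g12_phi2 L (N'' * q * q) (N' * q * q) (m59g12_restr_h22 N'' q h2)
    (m59g12_restr_hN2 N' N'' q hN)

variable (L) in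
/-- `φ'` at the middle level `N'' q → N' q`. -/
abbrev m59g12_phiM : ↥(lg_E L (N'' * q)) →ₐ[L] ↥(lg_E L (N' * q)) :=
  m59g12_phi2 L (N'' * q) (N' * q) (m59g12_restr_h21 N'' q h2) (m59g12_restr_hN1 N' N'' q hN)

/-- **(R-A)**: the Gauss valuation of base `N''` is the restriction of that of base `N'`. -/
theorem m59g12_restr_VA :
    (s36i_VA O hπ (N' * q) q).comap
        (m59g12_phiT L N' N'' q hN h2 : ↥(lg_E L (N'' * q * q)) →+* ↥(lg_E L (N' * q * q))) =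
      s36i_VA O hπ (N'' * q) q :=
  m59g12_phi2_gauss_comap O hπ (N'' * q * q) (N' * q * q) _ _

/-- `VC.comap φ'` lies over the Gauss valuation `V1(N'')` of the middle field. -/
theorem m59g12_restr_over {VC : ValuationSubring ↥(lg_E L (N' * q * q))}
    (T3 : s36asm_Third O hπ N' q hq2 hqN' VC) :
    letI := ssm_gi_algebra (ssm_al_E_le L (N'' * q) q)
    letI := ssm_gi_algebraV (ssm_al_E_le L (N'' * q) q) (ssm_gl_V1 O hπ N'' q)
    ssm_tw_Over ↥(lg_E L (N'' * q)) ↥(ssm_gl_V1 O hπ N'' q)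
      (VC.comap (m59g12_phiT L N' N'' q hN h2 :
        ↥(lg_E L (N'' * q * q)) →+* ↥(lg_E L (N' * q * q)))) := by
  letI := ssm_gi_algebra (ssm_al_E_le L (N'' * q) q)
  letI := ssm_gi_algebraV (ssm_al_E_le L (N'' * q) q) (ssm_gl_V1 O hπ N'' q)
  letI := ssm_gi_algebra (ssm_al_E_le L (N' * q) q)
  letI := ssm_gi_algebraV (ssm_al_E_le L (N' * q) q) (ssm_gl_V1 O hπ N' q)
  haveI := ssm_gi_isScalarTower (ssm_al_E_le L (N' * q) q) (ssm_gl_V1 O hπ N' q)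
  have T3' : s36t3_Third ↥(lg_E L (N' * q)) ↥(ssm_gl_V1 O hπ N' q) q (s36at_leg_piF O hπ N' q)
      (s36asm_z (L := L) N' q hq2 hqN') (s36i_VA O hπ (N' * q) q) VC := T3
  intro z
  rw [ssm_gi_mem_range, ValuationSubring.mem_comap]
  have e : (m59g12_phiT L N' N'' q hN h2 : ↥(lg_E L (N'' * q * q)) →+* ↥(lg_E L (N' * q * q)))
      (algebraMap ↥(lg_E L (N'' * q)) ↥(lg_E L (N'' * q * q)) z) =
      algebraMap ↥(lg_E L (N' * q)) ↥(lg_E L (N' * q * q)) (m59g12_phiM L N' N'' q hN h2 z) :=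
    m59g12_phi2_incl L (N'' * q) (N' * q) (m59g12_restr_h21 N'' q h2)
      (m59g12_restr_hN1 N' N'' q hN) (m59g12_restr_h22 N'' q h2) (m59g12_restr_hN2 N' N'' q hN)
      (ssm_al_E_le L (N'' * q) q) (ssm_al_E_le L (N' * q) q) z
  rw [e, T3'.overC (m59g12_phiM L N' N'' q hN h2 z), ssm_gi_mem_range]
  exact m59g12_phi2_gauss_mem_iff O hπ (N'' * q) (N' * q) _ _ z

end Legendre

section Pack

variable {L : Type*} [Field L] [CharZero L] [Algebra L (AlgebraicClosure ℚ)]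
  (O : ValuationSubring L) [IsDiscreteValuationRing O] {π : O} (hπ : Irreducible π)
variable (N q : ℕ) [NeZero N] [NeZero q] [hq : Fact q.Prime]
  [CharP (ResidueField O) q] (hq2 : ¬ 2 ∣ q) (hqN : ¬ q ∣ N)

/-- what [RESTR] uses of helper11's tower package at a base `N`: uniformisers and archimedean
property at `VA`, `VC`, `z` a unit of `VA`, `π = u z^(q-1)` at `VC`, the constants of `VC`. -/
theorem m59g12_third_pack (u : ↥O) (hu : IsUnit u) (hqu : ((q : ℕ) : ↥O) = π * u)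
    {VC : ValuationSubring ↥(lg_E L (N * q * q))} (T3 : s36asm_Third O hπ N q hq2 hqN VC) :
    s36at_Unif (s36i_VA O hπ (N * q) q) (algebraMap L ↥(lg_E L (N * q * q)) ((π : ↥O) : L)) ∧
    s36wa_Arch (s36i_VA O hπ (N * q) q) ∧
    s36at_Unif VC (s36asm_z (L := L) N q hq2 hqN) ∧ s36wa_Arch VC ∧
    (s36i_VA O hπ (N * q) q).valuation (s36asm_z (L := L) N q hq2 hqN) = 1 ∧
    (∃ u' : ↥(lg_E L (N * q * q)), VC.valuation u' = 1 ∧
      algebraMap L ↥(lg_E L (N * q * q)) ((π : ↥O) : L) =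
        u' * s36asm_z (L := L) N q hq2 hqN ^ (q - 1)) ∧
    (∀ c : L, algebraMap L ↥(lg_E L (N * q * q)) c ∈ VC ↔ c ∈ O) := by
  have T := s36asm_tower_of_third O hπ N q hq2 hqN u hu hqu T3
  letI := ssm_gi_algebra (ssm_al_E_le L (N * q) q)
  letI := ssm_gi_algebra (ssm_al_E_beta_le L (N * q) q hq2)
  letI := ssm_gi_algebraV (ssm_al_E_le L (N * q) q) (ssm_gl_V1 O hπ N q)
  letI := ssm_gi_algebraV (ssm_al_E_le L (N * q) q) (s36i_VV O hπ N q hq2 hqN)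
  letI := ssm_gi_algebraV (ssm_al_E_beta_le L (N * q) q hq2) (s36i_RU O hπ N q hq2 hqN)
  letI := ssm_gi_algebraV (ssm_al_E_beta_le L (N * q) q hq2) (s36i_RG O hπ (N * q) q hq2)
  haveI := ssm_gi_isScalarTower (ssm_al_E_le L (N * q) q) (ssm_gl_V1 O hπ N q)
  haveI := ssm_gi_isScalarTower (ssm_al_E_le L (N * q) q) (s36i_VV O hπ N q hq2 hqN)
  haveI := ssm_gi_isScalarTower (ssm_al_E_beta_le L (N * q) q hq2) (s36i_RU O hπ N q hq2 hqN)
  haveI := ssm_gi_isScalarTower (ssm_al_E_beta_le L (N * q) q hq2)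
    (s36i_RG O hπ (N * q) q hq2)
  haveI := ssm_gi_isScalarTower_base (ssm_al_E_le L (N * q) q)
  haveI := ssm_gi_isScalarTower_base (ssm_al_E_beta_le L (N * q) q hq2)
  have hT : s36at_Tower (K1 := ↥(lg_E L (N * q)))
      (K2 := ↥((lg_E L (N * q)).map (qExpandAlgHomC L q)))
      O (π : L) q (s36i_VA O hπ (N * q) q) (s36i_VB O hπ N q hq2 hqN) VC
      _ _ _ _ _ _ _ _ _ _ := T
  have hq1 : q - 1 + 1 = q := Nat.sub_add_cancel hq.out.one_le
  haveI : FiniteDimensional ↥(lg_E L (N * q)) ↥(lg_E L (N * q * q)) :=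
    ssm_gi_finiteDimensional (n := q - 1) (by rw [hq1]; exact hT.side1.finrank_eq)
  haveI : FiniteDimensional ↥((lg_E L (N * q)).map (qExpandAlgHomC L q))
      ↥(lg_E L (N * q * q)) :=
    ssm_gi_finiteDimensional (n := q - 1) (by rw [hq1]; exact hT.side2.finrank_eq)
  haveI : Algebra.IsSeparable ↥(lg_E L (N * q)) ↥(lg_E L (N * q * q)) := ssm_gi_isSeparable
  haveI : Algebra.IsSeparable ↥((lg_E L (N * q)).map (qExpandAlgHomC L q))
      ↥(lg_E L (N * q * q)) := ssm_gi_isSeparable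
  refine ⟨hT.unifA, hT.archA, hT.unifC, hT.archC, hT.side1.zX, ?_, hT.hVC⟩
  obtain ⟨u', hu', hram⟩ := hT.side1.ram
  exact ⟨u', hu', by rw [← hram]; exact hT.hπF.symm⟩

end Pack

section Main

variable {L : Type*} [Field L] [CharZero L] [Algebra L (AlgebraicClosure ℚ)]
  (O : ValuationSubring L) [IsDiscreteValuationRing O] {π : O} (hπ : Irreducible π)
variable (N' N'' q : ℕ) [NeZero N'] [NeZero N''] [NeZero q] [hq : Fact q.Prime]
  [CharP (ResidueField O) q] (hq2 : ¬ 2 ∣ q) (hqN' : ¬ q ∣ N') (hqN'' : ¬ q ∣ N'')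
  (hN : N' = 2 * N'') (h2 : 2 ∣ N'')

omit [NeZero q] in
include hq2 in
theorem m59g12_two_le_pred : 2 ≤ q - 1 := by
  have h2q : 2 ≤ q := hq.out.two_le
  have hne : q ≠ 2 := by
    rintro rfl
    exact hq2 dvd_rfl
  omega

/-- `2` is a unit of every valuation subring whose constants are those of `O`. -/
theorem m59g12_two_unit {E : Type*} [Field E] [Algebra L E] (V : ValuationSubring E)
    (hV : ∀ c : L, algebraMap L E c ∈ V ↔ c ∈ O) (h2r : (2 : ResidueField O) ≠ 0) :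
    V.valuation (2 : E) = 1 := by
  have hu2 : IsUnit (2 : ↥O) := by
    rw [← IsLocalRing.residue_ne_zero_iff_isUnit, map_ofNat]
    exact h2r
  obtain ⟨v, hv⟩ := hu2
  have h2O : (2 : L) ∈ O := by
    have : ((2 : ↥O) : L) = 2 := rfl
    rw [← this]
    exact (2 : ↥O).2
  have h2iO : (2 : L)⁻¹ ∈ O := by
    have e : (((v⁻¹ : (↥O)ˣ) : ↥O) : L) = (2 : L)⁻¹ := by
      have h1 : ((v : ↥O) : L) * (((v⁻¹ : (↥O)ˣ) : ↥O) : L) = 1 := by
        rw [← O.coe_mul, Units.mul_inv]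
        rfl
      have h3 : ((v : ↥O) : L) = 2 := by rw [hv]; rfl
      rw [h3] at h1
      exact eq_inv_of_mul_eq_one_right h1
    rw [← e]
    exact ((v⁻¹ : (↥O)ˣ) : ↥O).2
  have e2 : (2 : E) = algebraMap L E 2 := (map_ofNat _ 2).symm
  rw [e2]
  refine s36at_val_one_of_inv_mem ?_ ((hV 2).2 h2O) ?_
  · exact (map_ne_zero (algebraMap L E)).2 two_ne_zero
  · rw [← map_inv₀]
    exact (hV _).2 h2iO

/-- **(R-C)**: the third valuation of base `N''` is the restriction of that of base `N'`. -/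
theorem m59g12_restr_third (u : ↥O) (hu : IsUnit u) (hqu : ((q : ℕ) : ↥O) = π * u)
    {VC : ValuationSubring ↥(lg_E L (N' * q * q))} (T3 : s36asm_Third O hπ N' q hq2 hqN' VC)
    {VC2 : ValuationSubring ↥(lg_E L (N'' * q * q))}
    (T3'' : s36asm_Third O hπ N'' q hq2 hqN'' VC2) :
    VC.comap (m59g12_phiT L N' N'' q hN h2 :
      ↥(lg_E L (N'' * q * q)) →+* ↥(lg_E L (N' * q * q))) = VC2 := by
  have hov := m59g12_restr_over O hπ N' N'' q hq2 hqN' hN h2 T3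
  letI := ssm_gi_algebra (ssm_al_E_le L (N'' * q) q)
  letI := ssm_gi_algebraV (ssm_al_E_le L (N'' * q) q) (ssm_gl_V1 O hπ N'' q)
  haveI := ssm_gi_isScalarTower (ssm_al_E_le L (N'' * q) q) (ssm_gl_V1 O hπ N'' q)
  have T3p : s36t3_Third ↥(lg_E L (N'' * q)) ↥(ssm_gl_V1 O hπ N'' q) q
      (s36at_leg_piF O hπ N'' q) (s36asm_z (L := L) N'' q hq2 hqN'')
      (s36i_VA O hπ (N'' * q) q) VC2 := T3''
  rcases T3p.only _ hov with h | h
  · exfalso
    obtain ⟨-, -, hUC, -, -, ⟨u', hu', hram⟩, hVC⟩ :=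
      m59g12_third_pack O hπ N' q hq2 hqN' u hu hqu T3
    obtain ⟨hUA2, harchA2, -, -, -, -, -⟩ :=
      m59g12_third_pack O hπ N'' q hq2 hqN'' u hu hqu T3''
    have h2r : (2 : ResidueField O) ≠ 0 := ssm_gl_two_ne_zero O q hq2
    refine m59g12_quad_absurd
      (m59g12_phiT L N' N'' q hN h2 : ↥(lg_E L (N'' * q * q)) →+* ↥(lg_E L (N' * q * q))) VC
      (m59rt_sE (k := L) (N' * q * q)
        (m59g12_four_dvd (N'' * q * q) (N' * q * q) (m59g12_restr_h22 N'' q h2)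
          (m59g12_restr_hN2 N' N'' q hN)))
      (lg_lamE (N'' * q * q))
      (algebraMap L ↥(lg_E L (N'' * q * q)) ((π : ↥O) : L)) ?_ ?_ ?_ ?_ ?_
      (m59g12_two_unit O VC hVC h2r) (s36asm_z (L := L) N' q hq2 hqN') u' hUC.ne_zero hUC.mem hu'
      (q - 1) (m59g12_two_le_pred q hq2) ?_
    · intro w
      obtain ⟨x, y, hxy⟩ := m59g12_phi2_hgen L (N'' * q * q) (N' * q * q)
        (m59g12_restr_h22 N'' q h2) (m59g12_restr_hN2 N' N'' q hN) w
      exact ⟨x, y, hxy⟩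
    · exact m59g12_phi2_sq L (N'' * q * q) (N' * q * q) (m59g12_restr_h22 N'' q h2)
        (m59g12_restr_hN2 N' N'' q hN)
    · rw [h]; exact hUA2
    · rw [h]; exact harchA2
    · rw [h]; exact m59g12_lam_gauss_unit O hπ (N'' * q * q) h2r
    · rw [← hram]
      exact (m59g12_phiT L N' N'' q hN h2).commutes _
  · exact h

/-- **[RESTR]** (helper17's [DELTA-C], #5532 (2)). -/
theorem m59g12_restr (u : ↥O) (hu : IsUnit u) (hqu : ((q : ℕ) : ↥O) = π * u)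
    {VC : ValuationSubring ↥(lg_E L (N' * q * q))} (T3 : s36asm_Third O hπ N' q hq2 hqN' VC)
    (m : ℕ) (hm : 1 ≤ m) (g1 : ↥(lg_E L (N'' * q * q))) (hg1 : g1 ≠ 0)
    (j : ℤ) (h : ↥(lg_E L (N' * q * q))) (hh : h ≠ 0)
    (hA : (s36i_VA O hπ (N' * q) q).valuation
      (m59g12_phiT L N' N'' q hN h2 g1 *
        algebraMap L ↥(lg_E L (N' * q * q)) ((π : ↥O) : L) ^ j * (h ^ m)⁻¹) = 1)
    (hC : VC.valuation
      (m59g12_phiT L N' N'' q hN h2 g1 *
        algebraMap L ↥(lg_E L (N' * q * q)) ((π : ↥O) : L) ^ j * (h ^ m)⁻¹) = 1) :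
    ∃ VC2 : ValuationSubring ↥(lg_E L (N'' * q * q)), s36asm_Third O hπ N'' q hq2 hqN'' VC2 ∧
      VC.comap (m59g12_phiT L N' N'' q hN h2 :
        ↥(lg_E L (N'' * q * q)) →+* ↥(lg_E L (N' * q * q))) = VC2 ∧
      ∃ h2' : ↥(lg_E L (N'' * q * q)), h2' ≠ 0 ∧
        (s36i_VA O hπ (N'' * q) q).valuation
          (g1 * algebraMap L ↥(lg_E L (N'' * q * q)) ((π : ↥O) : L) ^ j * (h2' ^ m)⁻¹) = 1 ∧
        VC2.valuation
          (g1 * algebraMap L ↥(lg_E L (N'' * q * q)) ((π : ↥O) : L) ^ j * (h2' ^ m)⁻¹) = 1 ∧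
        ∀ (κ : L) (w2 : ↥(lg_E L (N'' * q * q))), O.valuation κ = 1 → VC2.valuation w2 = 1 →
          g1 * algebraMap L ↥(lg_E L (N'' * q * q)) ((π : ↥O) : L) ^ j * (h2' ^ m)⁻¹ -
            algebraMap L ↥(lg_E L (N'' * q * q)) κ * w2 ^ m ∈ VC2.nonunits →
          ∃ w : ↥(lg_E L (N' * q * q)), VC.valuation w = 1 ∧
            m59g12_phiT L N' N'' q hN h2 g1 *
              algebraMap L ↥(lg_E L (N' * q * q)) ((π : ↥O) : L) ^ j * (h ^ m)⁻¹ -
              algebraMap L ↥(lg_E L (N' * q * q)) κ * w ^ m ∈ VC.nonunits := by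
  obtain ⟨VC2, T3''⟩ := s36asm_third_exists O hπ N'' q hq2 hqN'' u hu hqu
  have hC2 := m59g12_restr_third O hπ N' N'' q hq2 hqN' hqN'' hN h2 u hu hqu T3 T3''
  have hA2 := m59g12_restr_VA O hπ N' N'' q hN h2
  obtain ⟨hUA, harchA, hUC, harchC, hzA, ⟨u', hu', hram⟩, hVC⟩ :=
    m59g12_third_pack O hπ N' q hq2 hqN' u hu hqu T3
  obtain ⟨hUA2, harchA2, hUC2, harchC2, hzA2, ⟨u2', hu2', hram2⟩, hVC2⟩ :=
    m59g12_third_pack O hπ N'' q hq2 hqN'' u hu hqu T3''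
  refine ⟨VC2, T3'', hC2, ?_⟩
  -- notation
  set φ : ↥(lg_E L (N'' * q * q)) →+* ↥(lg_E L (N' * q * q)) :=
    (m59g12_phiT L N' N'' q hN h2 : ↥(lg_E L (N'' * q * q)) →+* ↥(lg_E L (N' * q * q))) with hφ
  set πE : ↥(lg_E L (N' * q * q)) := algebraMap L ↥(lg_E L (N' * q * q)) ((π : ↥O) : L) with hπE
  set πF : ↥(lg_E L (N'' * q * q)) := algebraMap L ↥(lg_E L (N'' * q * q)) ((π : ↥O) : L) with hπF
  set zE : ↥(lg_E L (N' * q * q)) := s36asm_z (L := L) N' q hq2 hqN' with hzE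
  set zF : ↥(lg_E L (N'' * q * q)) := s36asm_z (L := L) N'' q hq2 hqN'' with hzF
  have hφπ : φ πF = πE := (m59g12_phiT L N' N'' q hN h2).commutes _
  have hφκ : ∀ κ : L, φ (algebraMap L ↥(lg_E L (N'' * q * q)) κ) =
      algebraMap L ↥(lg_E L (N' * q * q)) κ := fun κ => (m59g12_phiT L N' N'' q hN h2).commutes κ
  have hφg : (m59g12_phiT L N' N'' q hN h2) g1 = φ g1 := rfl
  rw [hφg] at hA hC ⊢
  have hoA := s36at_isOrd hUA harchA
  have hoC := s36at_isOrd hUC harchC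
  have hoA2 := s36at_isOrd hUA2 harchA2
  have hoC2 := s36at_isOrd hUC2 harchC2
  have hπE0 : πE ≠ 0 := hUA.ne_zero
  have hπF0 : πF ≠ 0 := hUA2.ne_zero
  have hzE0 : zE ≠ 0 := hUC.ne_zero
  have hzF0 : zF ≠ 0 := hUC2.ne_zero
  have hφ0 : ∀ x : ↥(lg_E L (N'' * q * q)), x ≠ 0 → φ x ≠ 0 := fun x hx => (map_ne_zero φ).2 hx
  -- units correspond
  have hunitA : ∀ y : ↥(lg_E L (N'' * q * q)),
      (s36i_VA O hπ (N'' * q) q).valuation y = 1 → (s36i_VA O hπ (N' * q) q).valuation (φ y) = 1 := by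
    intro y hy
    rw [← hA2] at hy
    exact (m59g12_comap_val_one φ _ y).1 hy
  have hunitC : ∀ y : ↥(lg_E L (N'' * q * q)), VC2.valuation y = 1 → VC.valuation (φ y) = 1 := by
    intro y hy
    rw [← hC2] at hy
    exact (m59g12_comap_val_one φ _ y).1 hy
  -- (F1) orders at `VA`
  have hF1 : ∀ x : ↥(lg_E L (N'' * q * q)), x ≠ 0 →
      s36at_ord (s36i_VA O hπ (N' * q) q) πE (φ x) = s36at_ord (s36i_VA O hπ (N'' * q) q) πF x := by
    intro x hx
    apply s36at_ord_eq_of_val hUA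
    have h1 := hunitA _ (s36at_ord_spec hUA2 harchA2 hx)
    rwa [map_mul, map_zpow₀, hφπ] at h1
  -- orders of the uniformisers
  have hoCπE : s36at_ord VC zE πE = (q : ℤ) - 1 := by
    have hu'0 : u' ≠ 0 := by
      rintro rfl
      rw [map_zero] at hu'
      exact zero_ne_one hu'
    rw [hram, hoC.mul _ _ hu'0 (pow_ne_zero _ hzE0), (hoC.unit u' hu'0).2 hu', hoC.pow hzE0,
      s36at_ord_self hUC, Nat.cast_pred hq.out.pos]
    ring
  have hoC2πF : s36at_ord VC2 zF πF = (q : ℤ) - 1 := by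
    have hu'0 : u2' ≠ 0 := by
      rintro rfl
      rw [map_zero] at hu2'
      exact zero_ne_one hu2'
    rw [hram2, hoC2.mul _ _ hu'0 (pow_ne_zero _ hzF0), (hoC2.unit u2' hu'0).2 hu2', hoC2.pow hzF0,
      s36at_ord_self hUC2, Nat.cast_pred hq.out.pos]
    ring
  have hq1 : ((q : ℤ) - 1) ≠ 0 := by
    have := hq.out.two_le
    have : (2 : ℤ) ≤ (q : ℤ) := by exact_mod_cast this
    omega
  -- (F2) `φ zF` is a uniformiser of `VC`
  have hF2 : s36at_ord VC zE (φ zF) = 1 := by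
    have hu'0 : u2' ≠ 0 := by
      rintro rfl
      rw [map_zero] at hu2'
      exact zero_ne_one hu2'
    have h1 : πE = φ u2' * φ zF ^ (q - 1) := by rw [← hφπ, hram2, map_mul, map_pow]
    have h2 := congrArg (s36at_ord VC zE) h1
    rw [hoCπE, hoC.mul _ _ (hφ0 _ hu'0) (pow_ne_zero _ (hφ0 _ hzF0)),
      (hoC.unit _ (hφ0 _ hu'0)).2 (hunitC _ hu2'), hoC.pow (hφ0 _ hzF0),
      Nat.cast_pred hq.out.pos, zero_add] at h2
    have h3 : ((q : ℤ) - 1) * (s36at_ord VC zE (φ zF) - 1) = 0 := by linarith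
    rcases mul_eq_zero.1 h3 with h4 | h4
    · exact absurd h4 hq1
    · omega
  -- (F3) orders at `VC`
  have hF3 : ∀ x : ↥(lg_E L (N'' * q * q)), x ≠ 0 →
      s36at_ord VC zE (φ x) = s36at_ord VC2 zF x := by
    intro x hx
    have h1 := hunitC _ (s36at_ord_spec hUC2 harchC2 hx)
    rw [map_mul, map_zpow₀] at h1
    have h2 := (hoC.unit _ (mul_ne_zero (hφ0 _ hx) (zpow_ne_zero _ (hφ0 _ hzF0)))).2 h1
    rw [hoC.mul _ _ (hφ0 _ hx) (zpow_ne_zero _ (hφ0 _ hzF0)), hoC.zpow (hφ0 _ hzF0), hF2] at h2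
    linarith
  -- the orders of `g1`, `h`
  set a := s36at_ord (s36i_VA O hπ (N'' * q) q) πF g1 with ha
  set c := s36at_ord VC2 zF g1 with hc
  set α := s36at_ord (s36i_VA O hπ (N' * q) q) πE h with hα
  set γ := s36at_ord VC zE h with hγ
  have hhm0 : (h ^ m)⁻¹ ≠ 0 := inv_ne_zero (pow_ne_zero m hh)
  have hφg0 : φ g1 ≠ 0 := hφ0 _ hg1
  have hEA : a + j - (m : ℤ) * α = 0 := by
    have h1 := (hoA.unit _ (mul_ne_zero (mul_ne_zero hφg0 (zpow_ne_zero _ hπE0)) hhm0)).2 hA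
    rw [hoA.mul _ _ (mul_ne_zero hφg0 (zpow_ne_zero _ hπE0)) hhm0,
      hoA.mul _ _ hφg0 (zpow_ne_zero _ hπE0), hoA.zpow hπE0, s36at_ord_self hUA,
      hoA.inv (pow_ne_zero m hh), hoA.pow hh, hF1 g1 hg1] at h1
    linarith
  have hEC : c + j * ((q : ℤ) - 1) - (m : ℤ) * γ = 0 := by
    have h1 := (hoC.unit _ (mul_ne_zero (mul_ne_zero hφg0 (zpow_ne_zero _ hπE0)) hhm0)).2 hC
    rw [hoC.mul _ _ (mul_ne_zero hφg0 (zpow_ne_zero _ hπE0)) hhm0,
      hoC.mul _ _ hφg0 (zpow_ne_zero _ hπE0), hoC.zpow hπE0, hoCπE,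
      hoC.inv (pow_ne_zero m hh), hoC.pow hh, hF3 g1 hg1] at h1
    linarith
  -- the element `h2'`
  set h2' : ↥(lg_E L (N'' * q * q)) := πF ^ α * zF ^ (γ - ((q : ℤ) - 1) * α) with hh2'
  have hh2'0 : h2' ≠ 0 := mul_ne_zero (zpow_ne_zero _ hπF0) (zpow_ne_zero _ hzF0)
  have hzA2' : s36at_ord (s36i_VA O hπ (N'' * q) q) πF zF = 0 := (hoA2.unit zF hzF0).2 hzA2
  have hoA2h2 : s36at_ord (s36i_VA O hπ (N'' * q) q) πF h2' = α := by
    rw [hh2', hoA2.mul _ _ (zpow_ne_zero _ hπF0) (zpow_ne_zero _ hzF0), hoA2.zpow hπF0,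
      hoA2.zpow hzF0, s36at_ord_self hUA2, hzA2']
    ring
  have hoC2h2 : s36at_ord VC2 zF h2' = γ := by
    rw [hh2', hoC2.mul _ _ (zpow_ne_zero _ hπF0) (zpow_ne_zero _ hzF0), hoC2.zpow hπF0,
      hoC2.zpow hzF0, s36at_ord_self hUC2, hoC2πF]
    ring
  have hh2m0 : (h2' ^ m)⁻¹ ≠ 0 := inv_ne_zero (pow_ne_zero m hh2'0)
  have hu20 : g1 * πF ^ j * (h2' ^ m)⁻¹ ≠ 0 :=
    mul_ne_zero (mul_ne_zero hg1 (zpow_ne_zero _ hπF0)) hh2m0
  have hU2A : (s36i_VA O hπ (N'' * q) q).valuation (g1 * πF ^ j * (h2' ^ m)⁻¹) = 1 := by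
    rw [← hoA2.unit _ hu20, hoA2.mul _ _ (mul_ne_zero hg1 (zpow_ne_zero _ hπF0)) hh2m0,
      hoA2.mul _ _ hg1 (zpow_ne_zero _ hπF0), hoA2.zpow hπF0, s36at_ord_self hUA2,
      hoA2.inv (pow_ne_zero m hh2'0), hoA2.pow hh2'0, hoA2h2]
    linarith
  have hU2C : VC2.valuation (g1 * πF ^ j * (h2' ^ m)⁻¹) = 1 := by
    rw [← hoC2.unit _ hu20, hoC2.mul _ _ (mul_ne_zero hg1 (zpow_ne_zero _ hπF0)) hh2m0,
      hoC2.mul _ _ hg1 (zpow_ne_zero _ hπF0), hoC2.zpow hπF0, hoC2πF,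
      hoC2.inv (pow_ne_zero m hh2'0), hoC2.pow hh2'0, hoC2h2]
    linarith
  refine ⟨h2', hh2'0, hU2A, hU2C, ?_⟩
  -- transfer back
  intro κ w2 hκ hw2 hcong
  set ρ : ↥(lg_E L (N' * q * q)) := φ h2' * h⁻¹ with hρ
  have hρ0 : ρ ≠ 0 := mul_ne_zero (hφ0 _ hh2'0) (inv_ne_zero hh)
  have hρ1 : VC.valuation ρ = 1 := by
    rw [← hoC.unit _ hρ0, hρ, hoC.mul _ _ (hφ0 _ hh2'0) (inv_ne_zero hh), hoC.inv hh,
      hF3 h2' hh2'0, hoC2h2]
    ring
  refine ⟨φ w2 * ρ, by rw [map_mul, hunitC _ hw2, hρ1, mul_one], ?_⟩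
  have hcong' : φ (g1 * πF ^ j * (h2' ^ m)⁻¹ -
      algebraMap L ↥(lg_E L (N'' * q * q)) κ * w2 ^ m) ∈ VC.nonunits := by
    rw [← hC2] at hcong
    exact (m59g12_comap_nonunits_iff φ VC _).1 hcong
  rw [map_sub, map_mul, map_mul, map_mul, map_zpow₀, map_inv₀, map_pow, map_pow, hφπ, hφκ] at hcong'
  have hρm : ρ ^ m ∈ VC := by
    apply (VC.valuation_le_one_iff _).1
    rw [map_pow, hρ1, one_pow]
  have e : φ g1 * πE ^ j * (h ^ m)⁻¹ - algebraMap L ↥(lg_E L (N' * q * q)) κ * (φ w2 * ρ) ^ m =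
      ρ ^ m * (φ g1 * πE ^ j * (φ h2' ^ m)⁻¹ -
        algebraMap L ↥(lg_E L (N' * q * q)) κ * φ w2 ^ m) := by
    have hφh2 : φ h2' ^ m ≠ 0 := pow_ne_zero m (hφ0 _ hh2'0)
    have hhm : h ^ m ≠ 0 := pow_ne_zero m hh
    have hρpow : ρ ^ m = φ h2' ^ m * (h ^ m)⁻¹ := by rw [hρ, mul_pow, inv_pow]
    rw [mul_pow (φ w2) ρ, mul_sub]
    congr 1
    · rw [hρpow]
      field_simp
    · ring
  rw [e]
  exact ssm_tw_nonunits_mul VC hρm hcong'

end Main

section Iota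

variable {L : Type*} [Field L] [CharZero L] [Algebra ℚ L] [Algebra L (AlgebraicClosure ℚ)]
  (O : ValuationSubring L) [IsDiscreteValuationRing O] {π : O} (hπ : Irreducible π)
variable (N' N'' q : ℕ) [NeZero N'] [NeZero N''] [NeZero q] [hq : Fact q.Prime]
  [CharP (ResidueField O) q] (hq2 : ¬ 2 ∣ q) (hqN' : ¬ q ∣ N') (hqN'' : ¬ q ∣ N'')
  (hN : N' = 2 * N'') (h2 : 2 ∣ N'')

include hN h2 in
/-- a function of level `N' q q` over `L` lies in the plain field `lg_E L (N'' q q)`. -/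
theorem m59g12_lbc_mem_E (g1 : ↥(laurentBaseChange L (modularFunctionFieldFull (N' * q * q)))) :
    (g1 : LaurentSeries L) ∈ lg_E L (N'' * q * q) :=
  m59g12_mem_E_of_mem_F L (N'' * q * q) (N' * q * q) (m59g12_restr_h22 N'' q h2)
    (m59g12_restr_hN2 N' N'' q hN) (Fermat.Agent.SS2.ss2_dp_mem_lgF L (N' * q * q) g1.2)

/-- `ι g1 = φ' g1`. -/
theorem m59g12_iota_eq_phiT
    (g1 : ↥(laurentBaseChange L (modularFunctionFieldFull (N' * q * q)))) :
    (Fermat.Agent.SS2.ss2_dp_iota L (N' * q * q) g1 : ↥(lg_E L (N' * q * q))) =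
      m59g12_phiT L N' N'' q hN h2 ⟨(g1 : LaurentSeries L), m59g12_lbc_mem_E N' N'' q hN h2 g1⟩ := by
  apply Subtype.ext
  rw [Fermat.Agent.SS2.ss2_dp_iota_coe, m59g12_phi2_coe]

include hN h2 in
/-- **[RESTR] in the vocabulary of `m59sb_ResCPow1`** (`g = ι g1`, `g1` a function of level `N' q q`
over `L`; `g1F` = the same Laurent series as an element of the plain field `lg_E L (N'' q q)`). -/
theorem m59g12_restr_iota (u : ↥O) (hu : IsUnit u) (hqu : ((q : ℕ) : ↥O) = π * u)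
    {VC : ValuationSubring ↥(lg_E L (N' * q * q))} (T3 : s36asm_Third O hπ N' q hq2 hqN' VC)
    (m : ℕ) (hm : 1 ≤ m)
    (g1 : ↥(laurentBaseChange L (modularFunctionFieldFull (N' * q * q)))) (hg1 : g1 ≠ 0)
    (j : ℤ) (h : ↥(lg_E L (N' * q * q))) (hh : h ≠ 0)
    (hA : (s36i_VA O hπ (N' * q) q).valuation
      (Fermat.Agent.SS2.ss2_dp_iota L (N' * q * q) g1 *
        algebraMap L ↥(lg_E L (N' * q * q)) ((π : ↥O) : L) ^ j * (h ^ m)⁻¹) = 1)
    (hC : VC.valuation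
      (Fermat.Agent.SS2.ss2_dp_iota L (N' * q * q) g1 *
        algebraMap L ↥(lg_E L (N' * q * q)) ((π : ↥O) : L) ^ j * (h ^ m)⁻¹) = 1) :
    ∃ VC2 : ValuationSubring ↥(lg_E L (N'' * q * q)), s36asm_Third O hπ N'' q hq2 hqN'' VC2 ∧
      ∃ g1F : ↥(lg_E L (N'' * q * q)), (g1F : LaurentSeries L) = (g1 : LaurentSeries L) ∧
      ∃ h2' : ↥(lg_E L (N'' * q * q)), h2' ≠ 0 ∧
        (s36i_VA O hπ (N'' * q) q).valuation
          (g1F * algebraMap L ↥(lg_E L (N'' * q * q)) ((π : ↥O) : L) ^ j * (h2' ^ m)⁻¹) = 1 ∧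
        VC2.valuation
          (g1F * algebraMap L ↥(lg_E L (N'' * q * q)) ((π : ↥O) : L) ^ j * (h2' ^ m)⁻¹) = 1 ∧
        ∀ (κ : L) (w2 : ↥(lg_E L (N'' * q * q))), O.valuation κ = 1 → VC2.valuation w2 = 1 →
          g1F * algebraMap L ↥(lg_E L (N'' * q * q)) ((π : ↥O) : L) ^ j * (h2' ^ m)⁻¹ -
            algebraMap L ↥(lg_E L (N'' * q * q)) κ * w2 ^ m ∈ VC2.nonunits →
          ∃ w : ↥(lg_E L (N' * q * q)), VC.valuation w = 1 ∧
            Fermat.Agent.SS2.ss2_dp_iota L (N' * q * q) g1 *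
              algebraMap L ↥(lg_E L (N' * q * q)) ((π : ↥O) : L) ^ j * (h ^ m)⁻¹ -
              algebraMap L ↥(lg_E L (N' * q * q)) κ * w ^ m ∈ VC.nonunits := by
  rw [m59g12_iota_eq_phiT N' N'' q hN h2 g1] at hA hC ⊢
  have hg1F : (⟨(g1 : LaurentSeries L), m59g12_lbc_mem_E N' N'' q hN h2 g1⟩ :
      ↥(lg_E L (N'' * q * q))) ≠ 0 := by
    intro h0
    apply hg1
    apply Subtype.ext
    have := congrArg (fun x : ↥(lg_E L (N'' * q * q)) => (x : LaurentSeries L)) h0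
    exact this
  obtain ⟨VC2, T3'', -, h2', hh2', hU2A, hU2C, htr⟩ :=
    m59g12_restr O hπ N' N'' q hq2 hqN' hqN'' hN h2 u hu hqu T3 m hm _ hg1F j h hh hA hC
  exact ⟨VC2, T3'', _, rfl, h2', hh2', hU2A, hU2C, htr⟩

end Iota

end Fermat.Agent.M59
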