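/-
M59 / Sink B, cell (G12), [RESTR] WITH `VB` (helper1; consumer: helper17's [DELTA-C], #5616 (2)).
Prefix `m59g12_`.

Context of `G12/Restr.lean`: `N' = 2 N''`, `2 ∣ N''`, `q ∤ N'` an odd prime, `(L, O)` a base of
[NF2-CTX], `φ' = m59g12_phiT : lg_E L (N'' q q) → lg_E L (N' q q)`, `x ↦ x(X²)`.

* `m59g12_W2_phi`      : `W₂(N') ∘ φ' = φ' ∘ W₂(N'')` (checked on the three shapes of generators
  `x, x(X^q), x(X^{q q})`, `x ∈ F_{M''}(L)`, of the plain field `lg_E L (N'' q q) = F_{M'' q q}(L)`);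
* `m59g12_restr_VB`    : **(R-B)** `VB(N').comap φ' = VB(N'')`;
* `m59g12_third_pack3` : the tower package at a base `N` INCLUDING `VB` (uniformiser `π`,
  archimedean) and the weak approximation `hWA3` for `VA, VB, VC`;
* **`m59g12_restr3`**  : [RESTR] with the FULL `m59sb_Unit3` (units at `VA, VB, VC`) as hypothesis at
  base `N'` and as conclusion at base `N''` (SAME `j`; `h2` from weak approximation with prescribed
  orders `ord_A h, ord_B h, ord_C h`), and the transfer back of the `C`-congruence.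
-/
import Mathlib
import Fermat.Agent.M59.SinkB.G12.Restr

set_option autoImplicit false
set_option linter.unusedSectionVars false
set_option linter.unusedVariables false
set_option linter.style.haveILetI false
set_option synthInstance.maxHeartbeats 400000
set_option maxHeartbeats 1000000

noncomputable section

open ModularCurve AlgebraicCurve IntermediateField IsLocalRing
open Fermat.Agent.JT3 Fermat.Agent.SS Fermat.Agent.S35 Fermat.Agent.S36

namespace Fermat.Agent.M59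

section W2

variable (L : Type*) [Field L] [CharZero L] [Algebra L (AlgebraicClosure ℚ)]
variable (N' N'' q : ℕ) [NeZero N'] [NeZero N''] [NeZero q] [hq : Fact q.Prime]
  (hq2 : ¬ 2 ∣ q) (hqN' : ¬ q ∣ N') (hqN'' : ¬ q ∣ N'')
  (hN : N' = 2 * N'') (h2 : 2 ∣ N'')

/-- `W₂` only depends on the underlying Laurent series. -/
theorem m59g12_W2_congr {x y : LaurentSeries L} (e : x = y) (hx : x ∈ lg_E L (N' * q * q))
    (hy : y ∈ lg_E L (N' * q * q)) :
    ((s36w_WE L N' q hq.out hq2 hqN' ⟨x, hx⟩ : ↥(lg_E L (N' * q * q))) : LaurentSeries L) =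
      ((s36w_WE L N' q hq.out hq2 hqN' ⟨y, hy⟩ : ↥(lg_E L (N' * q * q))) : LaurentSeries L) := by
  subst e; rfl

include hN h2 in
/-- `x ∈ F_{M''}(L) = lg_E L N''` gives `x(X²) ∈ lg_E L N'`. -/
theorem m59g12_phi_mem_base {x : LaurentSeries L} (hx : x ∈ lg_F L (ssm_f4_level N'')) :
    qExpand L 2 x ∈ lg_E L N' := by
  have e : ssm_f4_level N'' = N' := by rw [m59g12_f4_level_even N'' h2, hN]
  have hx' : x ∈ lg_F L N' := by
    have := hx
    rw [e] at this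
    exact this
  exact lg_phi_mem_E L N' hx'

omit [Algebra L (AlgebraicClosure ℚ)] [hq : Fact q.Prime] in
theorem m59g12_base_mem_E {x : LaurentSeries L} (hx : x ∈ lg_F L (ssm_f4_level N'')) :
    x ∈ lg_E L N'' := by
  rw [ssm_f4 L N'']; exact hx

/-- `W₂` only depends on the underlying Laurent series (second form). -/
theorem m59g12_W2_coe' (y : ↥(lg_E L (N' * q * q))) {z : LaurentSeries L}
    (e : (y : LaurentSeries L) = z) (hz : z ∈ lg_E L (N' * q * q)) :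
    ((s36w_WE L N' q hq.out hq2 hqN' y : ↥(lg_E L (N' * q * q))) : LaurentSeries L) =
      ((s36w_WE L N' q hq.out hq2 hqN' ⟨z, hz⟩ : ↥(lg_E L (N' * q * q))) : LaurentSeries L) := by
  subst e; rfl

omit [Algebra L (AlgebraicClosure ℚ)] hq in
theorem m59g12_qq2 (x : LaurentSeries L) :
    qExpand L q (qExpand L q (qExpand L 2 x)) = qExpand L 2 (qExpand L q (qExpand L q x)) := by
  rw [qExpand_qExpand, qExpand_qExpand, qExpand_qExpand, qExpand_qExpand]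
  exact qExpand_congr (by ring) _

omit [Algebra L (AlgebraicClosure ℚ)] hq in
theorem m59g12_q2 (x : LaurentSeries L) :
    qExpand L q (qExpand L 2 x) = qExpand L 2 (qExpand L q x) := by
  rw [qExpand_qExpand, qExpand_qExpand]
  exact qExpand_congr (by ring) _

/-- **`W₂` commutes with `φ'`.** -/
theorem m59g12_W2_phi (x : ↥(lg_E L (N'' * q * q))) :
    s36w_WE L N' q hq.out hq2 hqN' (m59g12_phiT L N' N'' q hN h2 x) =
      m59g12_phiT L N' N'' q hN h2 (s36w_WE L N'' q hq.out hq2 hqN'' x) := by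
  set f : ↥(lg_E L (N'' * q * q)) →+* ↥(lg_E L (N' * q * q)) :=
    ((s36w_WE L N' q hq.out hq2 hqN').toRingEquiv : ↥(lg_E L (N' * q * q)) →+* ↥(lg_E L (N' * q * q))).comp
      (m59g12_phiT L N' N'' q hN h2 : ↥(lg_E L (N'' * q * q)) →+* ↥(lg_E L (N' * q * q))) with hf
  set g : ↥(lg_E L (N'' * q * q)) →+* ↥(lg_E L (N' * q * q)) :=
    (m59g12_phiT L N' N'' q hN h2 : ↥(lg_E L (N'' * q * q)) →+* ↥(lg_E L (N' * q * q))).comp
      ((s36w_WE L N'' q hq.out hq2 hqN'').toRingEquiv :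
        ↥(lg_E L (N'' * q * q)) →+* ↥(lg_E L (N'' * q * q))) with hg
  have hF₃ : lg_E L (N'' * q * q) =
      IntermediateField.adjoin L (divisorExpansionsC L (ssm_f4_level N'' * q * q)) :=
    s36w_E_eq L N'' q hq2
  have htop : RingHom.eqLocusField f g = ⊤ := by
    refine s35pe_subfield_eq_top hF₃ _ (fun c => ?_) ?_
    · show f _ = g _
      rw [hf, hg]
      simp only [RingHom.comp_apply, RingHom.coe_coe, AlgEquiv.coe_ringEquiv]
      rw [AlgHom.commutes, AlgEquiv.commutes, AlgEquiv.commutes, AlgHom.commutes]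
    · rintro y ⟨d, hd, hdN, rfl⟩ hmem
      show f _ = g _
      rw [hf, hg]
      simp only [RingHom.comp_apply, RingHom.coe_coe, AlgEquiv.coe_ringEquiv]
      apply Subtype.ext
      have hmemE : ∀ z : LaurentSeries L, z ∈ lg_E L (N'' * q * q) → qExpand L 2 z ∈ lg_E L (N' * q * q) :=
        fun z hz => (m59g12_phiT L N' N'' q hN h2 ⟨z, hz⟩).2
      rw [m59g12_phi2_coe]
      rcases s36w_gen_cases L (ssm_f4_level N'') q hq.out hdN with ⟨x0, hx0, e1⟩ | ⟨x0, hx0, e1⟩ |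
        ⟨x0, hx0, e1⟩
      · have hxE := m59g12_base_mem_E L N'' hx0
        have hxE' := m59g12_phi_mem_base L N' N'' hN h2 hx0
        have hm0 : x0 ∈ lg_E L (N'' * q * q) := e1 ▸ hmem
        rw [m59g12_W2_coe' L N'' q hq2 hqN'' ⟨_, hmem⟩ e1 hm0,
          s36w_coe_WE_of_mem L N'' q hq.out hq2 hqN'' hxE hm0,
          m59g12_W2_coe' L N' q hq2 hqN' _ (z := qExpand L 2 x0)
            (by rw [m59g12_phi2_coe]; exact congrArg _ e1) (hmemE _ hm0),
          s36w_coe_WE_of_mem L N' q hq.out hq2 hqN' hxE' (hmemE _ hm0)]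
        exact m59g12_qq2 L q x0
      · have hxE := m59g12_base_mem_E L N'' hx0
        have hxE' := m59g12_phi_mem_base L N' N'' hN h2 hx0
        have hm0 : qExpand L q x0 ∈ lg_E L (N'' * q * q) := e1 ▸ hmem
        have hm1 : qExpand L q (qExpand L 2 x0) ∈ lg_E L (N' * q * q) := by
          rw [m59g12_q2]; exact hmemE _ hm0
        rw [m59g12_W2_coe' L N'' q hq2 hqN'' ⟨_, hmem⟩ e1 hm0,
          s36w_coe_WE_mid_of_mem L N'' q hq.out hq2 hqN'' hxE hm0,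
          m59g12_W2_coe' L N' q hq2 hqN' _ (z := qExpand L q (qExpand L 2 x0))
            (by rw [m59g12_phi2_coe, m59g12_q2]; exact congrArg _ e1) hm1,
          s36w_coe_WE_mid_of_mem L N' q hq.out hq2 hqN' hxE' hm1]
        exact m59g12_q2 L q x0
      · have hxE := m59g12_base_mem_E L N'' hx0
        have hxE' := m59g12_phi_mem_base L N' N'' hN h2 hx0
        have hm0 : qExpand L q (qExpand L q x0) ∈ lg_E L (N'' * q * q) := e1 ▸ hmem
        have hm1 : qExpand L q (qExpand L q (qExpand L 2 x0)) ∈ lg_E L (N' * q * q) := by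
          rw [m59g12_qq2]; exact hmemE _ hm0
        rw [m59g12_W2_coe' L N'' q hq2 hqN'' ⟨_, hmem⟩ e1 hm0,
          s36w_coe_WE_top_of_mem L N'' q hq.out hq2 hqN'' hxE hm0,
          m59g12_W2_coe' L N' q hq2 hqN' _ (z := qExpand L q (qExpand L q (qExpand L 2 x0)))
            (by rw [m59g12_phi2_coe, m59g12_qq2]; exact congrArg _ e1) hm1,
          s36w_coe_WE_top_of_mem L N' q hq.out hq2 hqN' hxE' hm1]
  have hx : x ∈ RingHom.eqLocusField f g := by rw [htop]; exact Subfield.mem_top x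
  exact hx


end W2

section RB

variable {L : Type*} [Field L] [CharZero L] [Algebra L (AlgebraicClosure ℚ)]
  (O : ValuationSubring L) [IsDiscreteValuationRing O] {π : O} (hπ : Irreducible π)
variable (N' N'' q : ℕ) [NeZero N'] [NeZero N''] [NeZero q] [hq : Fact q.Prime]
  [CharP (ResidueField O) q] (hq2 : ¬ 2 ∣ q) (hqN' : ¬ q ∣ N') (hqN'' : ¬ q ∣ N'')
  (hN : N' = 2 * N'') (h2 : 2 ∣ N'')

/-- **(R-B)**: the valuation `VB = W₂(VA)` of base `N''` is the restriction of that of base `N'`. -/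
theorem m59g12_restr_VB :
    (s36i_VB O hπ N' q hq2 hqN').comap
        (m59g12_phiT L N' N'' q hN h2 : ↥(lg_E L (N'' * q * q)) →+* ↥(lg_E L (N' * q * q))) =
      s36i_VB O hπ N'' q hq2 hqN'' := by
  ext x
  rw [ValuationSubring.mem_comap, ValuationSubring.mem_comap, ValuationSubring.mem_comap,
    ← m59g12_restr_VA O hπ N' N'' q hN h2, ValuationSubring.mem_comap]
  have e := m59g12_W2_phi L N' N'' q hq2 hqN' hqN'' hN h2 x
  show s36w_WE L N' q hq.out hq2 hqN' (m59g12_phiT L N' N'' q hN h2 x) ∈ _ ↔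
    m59g12_phiT L N' N'' q hN h2 (s36w_WE L N'' q hq.out hq2 hqN'' x) ∈ _
  rw [e]

end RB

section Pack3

variable {L : Type*} [Field L] [CharZero L] [Algebra L (AlgebraicClosure ℚ)]
  (O : ValuationSubring L) [IsDiscreteValuationRing O] {π : O} (hπ : Irreducible π)
variable (N q : ℕ) [NeZero N] [NeZero q] [hq : Fact q.Prime]
  [CharP (ResidueField O) q] (hq2 : ¬ 2 ∣ q) (hqN : ¬ q ∣ N)

/-- what [RESTR] uses of helper11's tower package at `VB`: `π` a uniformiser, archimedean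
property, and the weak approximation for `VA`, `VB`, `VC`. -/
theorem m59g12_third_pack3 (u : ↥O) (hu : IsUnit u) (hqu : ((q : ℕ) : ↥O) = π * u)
    {VC : ValuationSubring ↥(lg_E L (N * q * q))} (T3 : s36asm_Third O hπ N q hq2 hqN VC) :
    s36at_Unif (s36i_VB O hπ N q hq2 hqN) (algebraMap L ↥(lg_E L (N * q * q)) ((π : ↥O) : L)) ∧
    s36wa_Arch (s36i_VB O hπ N q hq2 hqN) ∧
    (∀ x1 x2 x3 y1 y2 y3 : ↥(lg_E L (N * q * q)), ∃ x : ↥(lg_E L (N * q * q)),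
      (x - x1) * y1 ∈ (s36i_VA O hπ (N * q) q).nonunits ∧
      (x - x2) * y2 ∈ (s36i_VB O hπ N q hq2 hqN).nonunits ∧ (x - x3) * y3 ∈ VC.nonunits) := by
  have T := s36asm_tower_of_third O hπ N q hq2 hqN u hu hqu T3
  letI := ssm_gi_algebra (ssm_al_E_le L (N * q) q)
  letI := ssm_gi_algebra (ssm_al_E_beta_le L (N * q) q hq2)
  letI := ssm_gi_algebraV (ssm_al_E_le L (N * q) q) (ssm_gl_V1 O hπ N q)
  letI := ssm_gi_algebraV (ssm_al_E_le L (N * q) q) (s36i_VV O hπ N q hq2 hqN)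
  letI := ssm_gi_algebraV (ssm_al_E_beta_le L (N * q) q hq2) (s36i_RU O hπ N q hq2 hqN)
  letI := ssm_gi_algebraV (ssm_al_E_beta_le L (N * q) q hq2) (s36i_RG O hπ (N * q) q hq2)
  haveI := ssm_gi_isScalarTower (ssm_al_E_le L (N * q) q) (ssm_gl_V1 O hπ N q)
  haveI := ssm_gi_isScalarTower (ssm_al_E_le L (N * q) q) (s36i_VV O hπ N q hq2 hqN)
  haveI := ssm_gi_isScalarTower (ssm_al_E_beta_le L (N * q) q hq2) (s36i_RU O hπ N q hq2 hqN)
  haveI := ssm_gi_isScalarTower (ssm_al_E_beta_le L (N * q) q hq2)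
    (s36i_RG O hπ (N * q) q hq2)
  haveI := ssm_gi_isScalarTower_base (ssm_al_E_le L (N * q) q)
  haveI := ssm_gi_isScalarTower_base (ssm_al_E_beta_le L (N * q) q hq2)
  have hT : s36at_Tower (K1 := ↥(lg_E L (N * q)))
      (K2 := ↥((lg_E L (N * q)).map (qExpandAlgHomC L q)))
      O (π : L) q (s36i_VA O hπ (N * q) q) (s36i_VB O hπ N q hq2 hqN) VC
      _ _ _ _ _ _ _ _ _ _ := T
  have hq1 : q - 1 + 1 = q := Nat.sub_add_cancel hq.out.one_le
  haveI : FiniteDimensional ↥(lg_E L (N * q)) ↥(lg_E L (N * q * q)) :=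
    ssm_gi_finiteDimensional (n := q - 1) (by rw [hq1]; exact hT.side1.finrank_eq)
  haveI : FiniteDimensional ↥((lg_E L (N * q)).map (qExpandAlgHomC L q))
      ↥(lg_E L (N * q * q)) :=
    ssm_gi_finiteDimensional (n := q - 1) (by rw [hq1]; exact hT.side2.finrank_eq)
  haveI : Algebra.IsSeparable ↥(lg_E L (N * q)) ↥(lg_E L (N * q * q)) := ssm_gi_isSeparable
  haveI : Algebra.IsSeparable ↥((lg_E L (N * q)).map (qExpandAlgHomC L q))
      ↥(lg_E L (N * q * q)) := ssm_gi_isSeparable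
  exact ⟨hT.unifB, hT.archB, hT.hWA3⟩

end Pack3

section Main3

variable {L : Type*} [Field L] [CharZero L] [Algebra L (AlgebraicClosure ℚ)]
  (O : ValuationSubring L) [IsDiscreteValuationRing O] {π : O} (hπ : Irreducible π)
variable (N' N'' q : ℕ) [NeZero N'] [NeZero N''] [NeZero q] [hq : Fact q.Prime]
  [CharP (ResidueField O) q] (hq2 : ¬ 2 ∣ q) (hqN' : ¬ q ∣ N') (hqN'' : ¬ q ∣ N'')
  (hN : N' = 2 * N'') (h2 : 2 ∣ N'')

/-- equal valuations give equal orders. -/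
theorem m59g12_ord_eq_of_val_eq {E : Type*} [Field E] {V : ValuationSubring E} {ord : E → ℤ}
    (ho : s36a_Ord V ord) {x t : E} (hx : x ≠ 0) (ht : t ≠ 0)
    (h : V.valuation x = V.valuation t) : ord x = ord t := by
  have h1 : V.valuation (x * t⁻¹) = 1 := by
    rw [map_mul, map_inv₀, h, mul_inv_cancel₀ ((Valuation.ne_zero_iff _).2 ht)]
  have h3 := (ho.unit _ (mul_ne_zero hx (inv_ne_zero ht))).2 h1
  rw [ho.mul _ _ hx (inv_ne_zero ht), ho.inv ht] at h3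
  linarith

/-- **[RESTR] with `VB`** (helper17's [DELTA-C], #5616 (2)): units at `VA`, `VB`, `VC` on both
sides. -/
theorem m59g12_restr3 (u : ↥O) (hu : IsUnit u) (hqu : ((q : ℕ) : ↥O) = π * u)
    {VC : ValuationSubring ↥(lg_E L (N' * q * q))} (T3 : s36asm_Third O hπ N' q hq2 hqN' VC)
    (m : ℕ) (hm : 1 ≤ m) (g1 : ↥(lg_E L (N'' * q * q))) (hg1 : g1 ≠ 0)
    (j : ℤ) (h : ↥(lg_E L (N' * q * q))) (hh : h ≠ 0)
    (hA : (s36i_VA O hπ (N' * q) q).valuation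
      (m59g12_phiT L N' N'' q hN h2 g1 *
        algebraMap L ↥(lg_E L (N' * q * q)) ((π : ↥O) : L) ^ j * (h ^ m)⁻¹) = 1)
    (hB : (s36i_VB O hπ N' q hq2 hqN').valuation
      (m59g12_phiT L N' N'' q hN h2 g1 *
        algebraMap L ↥(lg_E L (N' * q * q)) ((π : ↥O) : L) ^ j * (h ^ m)⁻¹) = 1)
    (hC : VC.valuation
      (m59g12_phiT L N' N'' q hN h2 g1 *
        algebraMap L ↥(lg_E L (N' * q * q)) ((π : ↥O) : L) ^ j * (h ^ m)⁻¹) = 1) :
    ∃ VC2 : ValuationSubring ↥(lg_E L (N'' * q * q)), s36asm_Third O hπ N'' q hq2 hqN'' VC2 ∧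
      VC.comap (m59g12_phiT L N' N'' q hN h2 :
        ↥(lg_E L (N'' * q * q)) →+* ↥(lg_E L (N' * q * q))) = VC2 ∧
      ∃ h2' : ↥(lg_E L (N'' * q * q)), h2' ≠ 0 ∧
        (s36i_VA O hπ (N'' * q) q).valuation
          (g1 * algebraMap L ↥(lg_E L (N'' * q * q)) ((π : ↥O) : L) ^ j * (h2' ^ m)⁻¹) = 1 ∧
        (s36i_VB O hπ N'' q hq2 hqN'').valuation
          (g1 * algebraMap L ↥(lg_E L (N'' * q * q)) ((π : ↥O) : L) ^ j * (h2' ^ m)⁻¹) = 1 ∧
        VC2.valuation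
          (g1 * algebraMap L ↥(lg_E L (N'' * q * q)) ((π : ↥O) : L) ^ j * (h2' ^ m)⁻¹) = 1 ∧
        ∀ (κ : L) (w2 : ↥(lg_E L (N'' * q * q))), O.valuation κ = 1 → VC2.valuation w2 = 1 →
          g1 * algebraMap L ↥(lg_E L (N'' * q * q)) ((π : ↥O) : L) ^ j * (h2' ^ m)⁻¹ -
            algebraMap L ↥(lg_E L (N'' * q * q)) κ * w2 ^ m ∈ VC2.nonunits →
          ∃ w : ↥(lg_E L (N' * q * q)), VC.valuation w = 1 ∧
            m59g12_phiT L N' N'' q hN h2 g1 *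
              algebraMap L ↥(lg_E L (N' * q * q)) ((π : ↥O) : L) ^ j * (h ^ m)⁻¹ -
              algebraMap L ↥(lg_E L (N' * q * q)) κ * w ^ m ∈ VC.nonunits := by
  obtain ⟨VC2, T3''⟩ := s36asm_third_exists O hπ N'' q hq2 hqN'' u hu hqu
  have hC2 := m59g12_restr_third O hπ N' N'' q hq2 hqN' hqN'' hN h2 u hu hqu T3 T3''
  have hA2 := m59g12_restr_VA O hπ N' N'' q hN h2
  have hB2 := m59g12_restr_VB O hπ N' N'' q hq2 hqN' hqN'' hN h2
  obtain ⟨hUA, harchA, hUC, harchC, hzA, ⟨u', hu', hram⟩, hVC⟩ :=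
    m59g12_third_pack O hπ N' q hq2 hqN' u hu hqu T3
  obtain ⟨hUA2, harchA2, hUC2, harchC2, hzA2, ⟨u2', hu2', hram2⟩, hVC2⟩ :=
    m59g12_third_pack O hπ N'' q hq2 hqN'' u hu hqu T3''
  obtain ⟨hUB, harchB, -⟩ := m59g12_third_pack3 O hπ N' q hq2 hqN' u hu hqu T3
  obtain ⟨hUB2, harchB2, hWA3⟩ := m59g12_third_pack3 O hπ N'' q hq2 hqN'' u hu hqu T3''
  refine ⟨VC2, T3'', hC2, ?_⟩
  -- notation
  set φ : ↥(lg_E L (N'' * q * q)) →+* ↥(lg_E L (N' * q * q)) :=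
    (m59g12_phiT L N' N'' q hN h2 : ↥(lg_E L (N'' * q * q)) →+* ↥(lg_E L (N' * q * q))) with hφ
  set πE : ↥(lg_E L (N' * q * q)) := algebraMap L ↥(lg_E L (N' * q * q)) ((π : ↥O) : L) with hπE
  set πF : ↥(lg_E L (N'' * q * q)) := algebraMap L ↥(lg_E L (N'' * q * q)) ((π : ↥O) : L) with hπF
  set zE : ↥(lg_E L (N' * q * q)) := s36asm_z (L := L) N' q hq2 hqN' with hzE
  set zF : ↥(lg_E L (N'' * q * q)) := s36asm_z (L := L) N'' q hq2 hqN'' with hzF
  set VA := s36i_VA O hπ (N' * q) q with hVAdef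
  set VA2 := s36i_VA O hπ (N'' * q) q with hVA2def
  set VB := s36i_VB O hπ N' q hq2 hqN' with hVBdef
  set VB2 := s36i_VB O hπ N'' q hq2 hqN'' with hVB2def
  have hφπ : φ πF = πE := (m59g12_phiT L N' N'' q hN h2).commutes _
  have hφκ : ∀ κ : L, φ (algebraMap L ↥(lg_E L (N'' * q * q)) κ) =
      algebraMap L ↥(lg_E L (N' * q * q)) κ := fun κ => (m59g12_phiT L N' N'' q hN h2).commutes κ
  have hφg : (m59g12_phiT L N' N'' q hN h2) g1 = φ g1 := rfl
  rw [hφg] at hA hB hC ⊢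
  have hoA := s36at_isOrd hUA harchA
  have hoB := s36at_isOrd hUB harchB
  have hoC := s36at_isOrd hUC harchC
  have hoA2 := s36at_isOrd hUA2 harchA2
  have hoB2 := s36at_isOrd hUB2 harchB2
  have hoC2 := s36at_isOrd hUC2 harchC2
  have hπE0 : πE ≠ 0 := hUA.ne_zero
  have hπF0 : πF ≠ 0 := hUA2.ne_zero
  have hzE0 : zE ≠ 0 := hUC.ne_zero
  have hzF0 : zF ≠ 0 := hUC2.ne_zero
  have hφ0 : ∀ x : ↥(lg_E L (N'' * q * q)), x ≠ 0 → φ x ≠ 0 := fun x hx => (map_ne_zero φ).2 hx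
  -- units correspond
  have hunitA : ∀ y : ↥(lg_E L (N'' * q * q)), VA2.valuation y = 1 → VA.valuation (φ y) = 1 := by
    intro y hy
    rw [← hA2] at hy
    exact (m59g12_comap_val_one φ _ y).1 hy
  have hunitB : ∀ y : ↥(lg_E L (N'' * q * q)), VB2.valuation y = 1 → VB.valuation (φ y) = 1 := by
    intro y hy
    rw [← hB2] at hy
    exact (m59g12_comap_val_one φ _ y).1 hy
  have hunitC : ∀ y : ↥(lg_E L (N'' * q * q)), VC2.valuation y = 1 → VC.valuation (φ y) = 1 := by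
    intro y hy
    rw [← hC2] at hy
    exact (m59g12_comap_val_one φ _ y).1 hy
  -- (F1) orders at `VA`, `VB`
  have hF1 : ∀ x : ↥(lg_E L (N'' * q * q)), x ≠ 0 →
      s36at_ord VA πE (φ x) = s36at_ord VA2 πF x := by
    intro x hx
    apply s36at_ord_eq_of_val hUA
    have h1 := hunitA _ (s36at_ord_spec hUA2 harchA2 hx)
    rwa [map_mul, map_zpow₀, hφπ] at h1
  have hF1B : ∀ x : ↥(lg_E L (N'' * q * q)), x ≠ 0 →
      s36at_ord VB πE (φ x) = s36at_ord VB2 πF x := by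
    intro x hx
    apply s36at_ord_eq_of_val hUB
    have h1 := hunitB _ (s36at_ord_spec hUB2 harchB2 hx)
    rwa [map_mul, map_zpow₀, hφπ] at h1
  -- orders of the uniformisers
  have hoCπE : s36at_ord VC zE πE = (q : ℤ) - 1 := by
    have hu'0 : u' ≠ 0 := by
      rintro rfl
      rw [map_zero] at hu'
      exact zero_ne_one hu'
    rw [hram, hoC.mul _ _ hu'0 (pow_ne_zero _ hzE0), (hoC.unit u' hu'0).2 hu', hoC.pow hzE0,
      s36at_ord_self hUC, Nat.cast_pred hq.out.pos]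
    ring
  have hoC2πF : s36at_ord VC2 zF πF = (q : ℤ) - 1 := by
    have hu'0 : u2' ≠ 0 := by
      rintro rfl
      rw [map_zero] at hu2'
      exact zero_ne_one hu2'
    rw [hram2, hoC2.mul _ _ hu'0 (pow_ne_zero _ hzF0), (hoC2.unit u2' hu'0).2 hu2', hoC2.pow hzF0,
      s36at_ord_self hUC2, Nat.cast_pred hq.out.pos]
    ring
  have hq1 : ((q : ℤ) - 1) ≠ 0 := by
    have := hq.out.two_le
    have : (2 : ℤ) ≤ (q : ℤ) := by exact_mod_cast this
    omega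
  -- (F2) `φ zF` is a uniformiser of `VC`
  have hF2 : s36at_ord VC zE (φ zF) = 1 := by
    have hu'0 : u2' ≠ 0 := by
      rintro rfl
      rw [map_zero] at hu2'
      exact zero_ne_one hu2'
    have h1 : πE = φ u2' * φ zF ^ (q - 1) := by rw [← hφπ, hram2, map_mul, map_pow]
    have h2 := congrArg (s36at_ord VC zE) h1
    rw [hoCπE, hoC.mul _ _ (hφ0 _ hu'0) (pow_ne_zero _ (hφ0 _ hzF0)),
      (hoC.unit _ (hφ0 _ hu'0)).2 (hunitC _ hu2'), hoC.pow (hφ0 _ hzF0),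
      Nat.cast_pred hq.out.pos, zero_add] at h2
    have h3 : ((q : ℤ) - 1) * (s36at_ord VC zE (φ zF) - 1) = 0 := by linarith
    rcases mul_eq_zero.1 h3 with h4 | h4
    · exact absurd h4 hq1
    · omega
  -- (F3) orders at `VC`
  have hF3 : ∀ x : ↥(lg_E L (N'' * q * q)), x ≠ 0 →
      s36at_ord VC zE (φ x) = s36at_ord VC2 zF x := by
    intro x hx
    have h1 := hunitC _ (s36at_ord_spec hUC2 harchC2 hx)
    rw [map_mul, map_zpow₀] at h1
    have h2 := (hoC.unit _ (mul_ne_zero (hφ0 _ hx) (zpow_ne_zero _ (hφ0 _ hzF0)))).2 h1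
    rw [hoC.mul _ _ (hφ0 _ hx) (zpow_ne_zero _ (hφ0 _ hzF0)), hoC.zpow (hφ0 _ hzF0), hF2] at h2
    linarith
  -- the orders of `g1`, `h`
  set a := s36at_ord VA2 πF g1 with ha
  set b := s36at_ord VB2 πF g1 with hb
  set c := s36at_ord VC2 zF g1 with hc
  set α := s36at_ord VA πE h with hα
  set β := s36at_ord VB πE h with hβ
  set γ := s36at_ord VC zE h with hγ
  have hhm0 : (h ^ m)⁻¹ ≠ 0 := inv_ne_zero (pow_ne_zero m hh)
  have hφg0 : φ g1 ≠ 0 := hφ0 _ hg1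
  have hEA : a + j - (m : ℤ) * α = 0 := by
    have h1 := (hoA.unit _ (mul_ne_zero (mul_ne_zero hφg0 (zpow_ne_zero _ hπE0)) hhm0)).2 hA
    rw [hoA.mul _ _ (mul_ne_zero hφg0 (zpow_ne_zero _ hπE0)) hhm0,
      hoA.mul _ _ hφg0 (zpow_ne_zero _ hπE0), hoA.zpow hπE0, s36at_ord_self hUA,
      hoA.inv (pow_ne_zero m hh), hoA.pow hh, hF1 g1 hg1] at h1
    linarith
  have hEB : b + j - (m : ℤ) * β = 0 := by
    have h1 := (hoB.unit _ (mul_ne_zero (mul_ne_zero hφg0 (zpow_ne_zero _ hπE0)) hhm0)).2 hB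
    rw [hoB.mul _ _ (mul_ne_zero hφg0 (zpow_ne_zero _ hπE0)) hhm0,
      hoB.mul _ _ hφg0 (zpow_ne_zero _ hπE0), hoB.zpow hπE0, s36at_ord_self hUB,
      hoB.inv (pow_ne_zero m hh), hoB.pow hh, hF1B g1 hg1] at h1
    linarith
  have hEC : c + j * ((q : ℤ) - 1) - (m : ℤ) * γ = 0 := by
    have h1 := (hoC.unit _ (mul_ne_zero (mul_ne_zero hφg0 (zpow_ne_zero _ hπE0)) hhm0)).2 hC
    rw [hoC.mul _ _ (mul_ne_zero hφg0 (zpow_ne_zero _ hπE0)) hhm0,
      hoC.mul _ _ hφg0 (zpow_ne_zero _ hπE0), hoC.zpow hπE0, hoCπE,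
      hoC.inv (pow_ne_zero m hh), hoC.pow hh, hF3 g1 hg1] at h1
    linarith
  -- the element `h2'` by weak approximation
  have ht1 : πF ^ α ≠ 0 := zpow_ne_zero _ hπF0
  have ht2 : πF ^ β ≠ 0 := zpow_ne_zero _ hπF0
  have ht3 : zF ^ γ ≠ 0 := zpow_ne_zero _ hzF0
  obtain ⟨h2', hx1, hx2, hx3⟩ := hWA3 (πF ^ α) (πF ^ β) (zF ^ γ) (πF ^ α)⁻¹ (πF ^ β)⁻¹ (zF ^ γ)⁻¹
  have e1 := s36wa_val_eq VA2 ht1 hx1
  have e2 := s36wa_val_eq VB2 ht2 hx2
  have e3 := s36wa_val_eq VC2 ht3 hx3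
  have hh2'0 : h2' ≠ 0 := by
    rintro rfl
    rw [map_zero] at e1
    exact (Valuation.ne_zero_iff _).2 ht1 e1.symm
  have hoA2h2 : s36at_ord VA2 πF h2' = α := by
    rw [m59g12_ord_eq_of_val_eq hoA2 hh2'0 ht1 e1, hoA2.zpow hπF0, s36at_ord_self hUA2]
    ring
  have hoB2h2 : s36at_ord VB2 πF h2' = β := by
    rw [m59g12_ord_eq_of_val_eq hoB2 hh2'0 ht2 e2, hoB2.zpow hπF0, s36at_ord_self hUB2]
    ring
  have hoC2h2 : s36at_ord VC2 zF h2' = γ := by
    rw [m59g12_ord_eq_of_val_eq hoC2 hh2'0 ht3 e3, hoC2.zpow hzF0, s36at_ord_self hUC2]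
    ring
  have hh2m0 : (h2' ^ m)⁻¹ ≠ 0 := inv_ne_zero (pow_ne_zero m hh2'0)
  have hu20 : g1 * πF ^ j * (h2' ^ m)⁻¹ ≠ 0 :=
    mul_ne_zero (mul_ne_zero hg1 (zpow_ne_zero _ hπF0)) hh2m0
  have hU2A : VA2.valuation (g1 * πF ^ j * (h2' ^ m)⁻¹) = 1 := by
    rw [← hoA2.unit _ hu20, hoA2.mul _ _ (mul_ne_zero hg1 (zpow_ne_zero _ hπF0)) hh2m0,
      hoA2.mul _ _ hg1 (zpow_ne_zero _ hπF0), hoA2.zpow hπF0, s36at_ord_self hUA2,
      hoA2.inv (pow_ne_zero m hh2'0), hoA2.pow hh2'0, hoA2h2]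
    linarith
  have hU2B : VB2.valuation (g1 * πF ^ j * (h2' ^ m)⁻¹) = 1 := by
    rw [← hoB2.unit _ hu20, hoB2.mul _ _ (mul_ne_zero hg1 (zpow_ne_zero _ hπF0)) hh2m0,
      hoB2.mul _ _ hg1 (zpow_ne_zero _ hπF0), hoB2.zpow hπF0, s36at_ord_self hUB2,
      hoB2.inv (pow_ne_zero m hh2'0), hoB2.pow hh2'0, hoB2h2]
    linarith
  have hU2C : VC2.valuation (g1 * πF ^ j * (h2' ^ m)⁻¹) = 1 := by
    rw [← hoC2.unit _ hu20, hoC2.mul _ _ (mul_ne_zero hg1 (zpow_ne_zero _ hπF0)) hh2m0,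
      hoC2.mul _ _ hg1 (zpow_ne_zero _ hπF0), hoC2.zpow hπF0, hoC2πF,
      hoC2.inv (pow_ne_zero m hh2'0), hoC2.pow hh2'0, hoC2h2]
    linarith
  refine ⟨h2', hh2'0, hU2A, hU2B, hU2C, ?_⟩
  -- transfer back
  intro κ w2 hκ hw2 hcong
  set ρ : ↥(lg_E L (N' * q * q)) := φ h2' * h⁻¹ with hρ
  have hρ0 : ρ ≠ 0 := mul_ne_zero (hφ0 _ hh2'0) (inv_ne_zero hh)
  have hρ1 : VC.valuation ρ = 1 := by
    rw [← hoC.unit _ hρ0, hρ, hoC.mul _ _ (hφ0 _ hh2'0) (inv_ne_zero hh), hoC.inv hh,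
      hF3 h2' hh2'0, hoC2h2]
    ring
  refine ⟨φ w2 * ρ, by rw [map_mul, hunitC _ hw2, hρ1, mul_one], ?_⟩
  have hcong' : φ (g1 * πF ^ j * (h2' ^ m)⁻¹ -
      algebraMap L ↥(lg_E L (N'' * q * q)) κ * w2 ^ m) ∈ VC.nonunits := by
    rw [← hC2] at hcong
    exact (m59g12_comap_nonunits_iff φ VC _).1 hcong
  rw [map_sub, map_mul, map_mul, map_mul, map_zpow₀, map_inv₀, map_pow, map_pow, hφπ, hφκ] at hcong'
  have hρm : ρ ^ m ∈ VC := by
    apply (VC.valuation_le_one_iff _).1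
    rw [map_pow, hρ1, one_pow]
  have e : φ g1 * πE ^ j * (h ^ m)⁻¹ - algebraMap L ↥(lg_E L (N' * q * q)) κ * (φ w2 * ρ) ^ m =
      ρ ^ m * (φ g1 * πE ^ j * (φ h2' ^ m)⁻¹ -
        algebraMap L ↥(lg_E L (N' * q * q)) κ * φ w2 ^ m) := by
    have hφh2 : φ h2' ^ m ≠ 0 := pow_ne_zero m (hφ0 _ hh2'0)
    have hhm : h ^ m ≠ 0 := pow_ne_zero m hh
    have hρpow : ρ ^ m = φ h2' ^ m * (h ^ m)⁻¹ := by rw [hρ, mul_pow, inv_pow]
    rw [mul_pow (φ w2) ρ, mul_sub]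
    congr 1
    · rw [hρpow]
      field_simp
    · ring
  rw [e]
  exact ssm_tw_nonunits_mul VC hρm hcong'

end Main3

end Fermat.Agent.M59
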