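/-
M59 / Sink B, cell (G12), [RESTR] (helper1): **`m59dl_Restr_stmt` is a theorem** (helper17's inner
seam of `m59sb_DeltaC2_stmt`, `M59/SinkB/Delta/SeamsC.lean`).  Prefix `m59g12_`.

`g = φ' g1` (`m59g12_phiT`, `x ↦ x(X²)`), then `m59g12_restr3` (G12/RestrB.lean) at `m := p`.
-/
import Mathlib
import Fermat.Agent.M59.SinkB.G12.RestrB
import Fermat.Agent.M59.SinkB.Delta.SeamsC

set_option autoImplicit false
set_option linter.unusedSectionVars false
set_option linter.unusedVariables false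
set_option linter.style.haveILetI false
set_option synthInstance.maxHeartbeats 400000
set_option maxHeartbeats 1000000

noncomputable section

namespace Fermat.Agent.M59

open ModularCurve AlgebraicCurve IntermediateField IsLocalRing
open Fermat.Agent.JT3 Fermat.Agent.SS Fermat.Agent.S35 Fermat.Agent.S36

/-- **[RESTR]**: helper17's `m59dl_Restr_stmt`. -/
theorem m59g12_restr_stmt : m59dl_Restr_stmt := by
  intro A q _ _ L1 _ _ π hπ u hu hqu N' N'' _ _ hN h2 hq2 hqN' hqN'' p hp hp2 hpq VC T3 g1 g hg j h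
    hh hU
  obtain ⟨hA, hB, hC⟩ := hU
  have hgφ : g = m59g12_phiT ↥L1 N' N'' q hN h2 g1 := by
    apply Subtype.ext
    rw [hg, m59g12_phi2_coe]
  have hg0 : g ≠ 0 := by
    rintro rfl
    rw [zero_mul, zero_mul, map_zero] at hA
    exact zero_ne_one hA
  have hg1 : g1 ≠ 0 := by
    rintro rfl
    rw [map_zero] at hgφ
    exact hg0 hgφ
  rw [hgφ] at hA hB hC
  obtain ⟨VC2, T3'', -, h2', hh2', hU2A, hU2B, hU2C, htr⟩ :=
    m59g12_restr3 (A.comap (algebraMap ↥L1 (AlgebraicClosure ℚ))) hπ N' N'' q hq2 hqN' hqN'' hN h2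
      u hu hqu T3 p hp.one_le g1 hg1 j h hh hA hB hC
  refine ⟨VC2, T3'', h2', hh2', ⟨hU2A, hU2B, hU2C⟩, ?_⟩
  intro κ w2 hκ hw2 hcong
  obtain ⟨w, hw, hw'⟩ := htr κ w2 hκ hw2 hcong
  exact ⟨w, hw, by rw [hgφ]; exact hw'⟩

end Fermat.Agent.M59
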