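/-
M59 / Sink B, cell (G12) (helper1).  Prefix `m59g12_`.

THE EXIT OF THE THIRD DISJUNCT of `m59sb_G12c_stmt`: a nonzero eigen-character of level `N'`
(`m59sb_LowChar N' q p S a` with `a ℓ = a_ℓ(W)`) gives residual modularity of level `N' q`
(`s44c_lift` at level `N'`, then the old-lift `s58o_lift`).  Twin of `m59sb_exit_low`
(M59/SinkB/Seams.lean), starting from the character instead of a torsion class.
-/
import Mathlib
import Fermat.Agent.M59.SinkB.G12.Seams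
import Fermat.Agent.M59.SinkB.Seams

set_option autoImplicit false
set_option linter.unusedSectionVars false
set_option linter.unusedVariables false
set_option synthInstance.maxHeartbeats 400000
set_option maxHeartbeats 1000000

noncomputable section

namespace Fermat.Agent.M59

open Fermat.Agent.JT3 Fermat.Agent.S44 ModularCurve

/-- **EXIT of the δ-branch**: an eigen-character of level `N'` gives `R(N' q)`. -/
theorem m59g12_exit_lowChar (W : WeierstrassCurve ℤ) {p : ℕ} (hp : p.Prime) (N' q : ℕ) [NeZero N']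
    (hq0 : q ≠ 0) (S : Finset ℕ)
    (hS : ∀ ℓ : ℕ, ℓ.Prime → W.IsGoodPrimeFor ℓ → ¬ ℓ ∣ N' * q → ℓ ≠ p → ℓ ∉ S)
    (h : m59sb_LowChar N' q p S (fun ℓ => W.apOfModel ℓ)) :
    W.IsResiduallyModularOfLevel p (N' * q) := by
  obtain ⟨v, hv0, hv⟩ := h
  obtain ⟨g, 𝔪', hg, hmax, hpm, hcong⟩ := s44c_lift hp
    {ℓ : ℕ | ℓ ∉ S ∧ ¬ ℓ ∣ N' * q} (fun ℓ => W.apOfModel ℓ) v hv0 hv
  have hL : N' * q ≠ 0 := Nat.mul_ne_zero (NeZero.ne N') hq0
  obtain ⟨g', hg', hcoef⟩ := Fermat.Agent.S58.s58o_lift (dvd_mul_right N' q) hL hg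
  refine ⟨g', 𝔪', hg', hmax, hpm, fun ℓ hℓ hgood hℓL hℓp => ?_⟩
  have hℓN' : ¬ ℓ ∣ N' := fun h => hℓL (dvd_mul_of_dvd_left h q)
  obtain ⟨b, hb, hb𝔪⟩ := hcong ℓ hℓ hℓN' ⟨hS ℓ hℓ hgood hℓL hℓp, hℓL⟩
  refine ⟨b, ?_, hb𝔪⟩
  rw [hb, hcoef ℓ (fun r hr hrL _ hrℓ => ?_)]
  have hre : r = ℓ := (Nat.prime_dvd_prime_iff_eq hr hℓ).mp hrℓ
  exact hℓL (hre ▸ hrL)

end Fermat.Agent.M59
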