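/-
M59 / Sink B, cell (G12) assembly, part (a) [PUSH] (helper1).  Prefix `m59g12_`.

Level pair `(N q, N)`, `q ∣ N` (for Sink B: `N = N' q`).  If one of the two push-forwards `(α_q)_* z`,
`(β_q)_* z` of an eigenclass `z ∈ J₀(N q)[p]` is nonzero, it is a nonzero eigenclass of `J₀(N)[p]` with
the same eigenvalues (`s35p_pushJ_hecke_of` + `s36pe_div_comm_alpha / _beta`).
-/
import Mathlib
import Fermat.Agent.S36.PEquiv2

set_option autoImplicit false
set_option linter.unusedSectionVars false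
set_option linter.unusedVariables false
set_option linter.style.haveILetI false
set_option synthInstance.maxHeartbeats 400000
set_option maxHeartbeats 1000000

noncomputable section

namespace Fermat.Agent.M59

open ModularCurve AlgebraicCurve
open Fermat.Agent.JT3 Fermat.Agent.SS Fermat.Agent.S35 Fermat.Agent.S36 Fermat.Agent.S24

/-- **[PUSH]**. -/
theorem m59g12_push (N q : ℕ) [NeZero N] [NeZero q] [NeZero (N * q)] (hq : q.Prime) (hqN : q ∣ N)
    (p : ℕ) (hp0 : p ≠ 0) (S : Finset ℕ) (a : ℕ → ℤ) (z : JZero (N * q)) (hpz : p • z = 0)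
    (heig : ∀ (ℓ : ℕ) (hℓ : ℓ.Prime), ¬ ℓ ∣ N * q → ℓ ∉ S →
      heckeOperatorBar (N * q) ⟨ℓ, hℓ⟩ z = a ℓ • z)
    (hne : s35p_P1J N q z ≠ 0 ∨ s35p_P2J N q z ≠ 0) :
    ∃ z' : JZero N, z' ≠ 0 ∧ p • z' = 0 ∧
      ∀ (ℓ : ℕ) (hℓ : ℓ.Prime), ¬ ℓ ∣ N → ℓ ∉ S →
        heckeOperatorBar N ⟨ℓ, hℓ⟩ z' = a ℓ • z' := by
  have hdvd : ∀ ℓ : ℕ, ℓ.Prime → ¬ ℓ ∣ N → ¬ ℓ ∣ N * q := by
    intro ℓ hℓ hℓN h
    rcases (Nat.Prime.dvd_mul hℓ).1 h with h | h
    · exact hℓN h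
    · rw [Nat.prime_dvd_prime_iff_eq hℓ hq] at h
      exact hℓN (h ▸ hqN)
  rcases hne with h1 | h2
  · refine ⟨s35p_P1J N q z, h1, ?_, ?_⟩
    · rw [← map_nsmul, hpz, map_zero]
    · intro ℓ hℓ hℓN hℓS
      haveI : NeZero ℓ := ⟨hℓ.ne_zero⟩
      have key := s35p_pushJ_hecke_of (hib_finiteAlong_alpha N q) (hib_normFormulaAlong_alpha N q)
        (fun D m hm hD => s36pe_div_comm_alpha N q ℓ hq hqN D m hm hD) z p hp0 hpz
      have e := heig ℓ hℓ (hdvd ℓ hℓ hℓN) hℓS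
      rw [heckeOperatorBar_apply] at e ⊢
      show heckeOperatorAlong (AlgebraicClosure ℚ) N ℓ (s35p_P1J N q z) = _
      have e' : heckeOperatorAlong (AlgebraicClosure ℚ) (N * q) ℓ z = a ℓ • z := e
      unfold s35p_P1J
      rw [← key, e', map_zsmul]
  · refine ⟨s35p_P2J N q z, h2, ?_, ?_⟩
    · rw [← map_nsmul, hpz, map_zero]
    · intro ℓ hℓ hℓN hℓS
      haveI : NeZero ℓ := ⟨hℓ.ne_zero⟩
      have hqℓ : q ≠ ℓ := by
        rintro rfl
        exact hℓN hqN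
      have key := s35p_pushJ_hecke_of (hib_finiteAlong_beta N q) (hib_normFormulaAlong_beta N q)
        (fun D m hm hD => s36pe_div_comm_beta N q ℓ hq hqN hℓ hqℓ D m hm hD) z p hp0 hpz
      have e := heig ℓ hℓ (hdvd ℓ hℓ hℓN) hℓS
      rw [heckeOperatorBar_apply] at e ⊢
      show heckeOperatorAlong (AlgebraicClosure ℚ) N ℓ (s35p_P2J N q z) = _
      have e' : heckeOperatorAlong (AlgebraicClosure ℚ) (N * q) ℓ z = a ℓ • z := e
      unfold s35p_P2J
      rw [← key, e', map_zsmul]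

end Fermat.Agent.M59
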