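/-
M59 / Sink B, cell (G12) assembly (helper1).  Prefix `m59g12_`.

TWO VERTICAL NORMALISATIONS OF THE SAME FUNCTION DIFFER BY AN `m`-TH POWER OF A UNIT: on the (G)-list
`s36c_G`, if `u = g ϖ^j h^(-m)` and `u' = g ϖ^j' h'^(-m)` are units at `VA` and `VC`, then
`u = u' · s^m` with `s` a `VC`-unit (`ord_A ϖ = ±1`).  Hence the property "the `VC`-residue is a
constant times an `m`-th power" does not depend on the normalisation (`m59g12_resC_transfer`).
-/
import Mathlib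
import Fermat.Agent.M59.SinkB.G12.Abel3Delta

set_option autoImplicit false
set_option linter.unusedSectionVars false
set_option linter.unusedVariables false
set_option maxHeartbeats 1000000

namespace Fermat.Agent.M59

open Fermat.Agent.S36

section G

variable {L E : Type*} [Field L] [Field E] [Algebra L E]

/-- the `VC`-information transfers from one vertical normalisation to another. -/
theorem m59g12_resC_transfer {O : ValuationSubring L} {VA VB VC : ValuationSubring E}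
    {N1 N2 : E →* E} {K1 K2 : Subfield E} {q m : ℕ} {ordA ordB ordC : E → ℤ} {ϖ : L} {ε : ℤ}
    {zC : E}
    (G : s36c_G O VA VB VC N1 N2 K1 K2 q m ordA ordB ordC ϖ ε zC) (hm : 1 ≤ m)
    (g : E) (hg : g ≠ 0) (j : ℤ) (h : E) (hh : h ≠ 0)
    (hA1 : VA.valuation (g * algebraMap L E ϖ ^ j * (h ^ m)⁻¹) = 1)
    (hC1 : VC.valuation (g * algebraMap L E ϖ ^ j * (h ^ m)⁻¹) = 1)
    (j' : ℤ) (h' : E) (hh' : h' ≠ 0)
    (hA1' : VA.valuation (g * algebraMap L E ϖ ^ j' * (h' ^ m)⁻¹) = 1)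
    (hC1' : VC.valuation (g * algebraMap L E ϖ ^ j' * (h' ^ m)⁻¹) = 1)
    (κ : L) (w : E) (hw : VC.valuation w = 1)
    (hC : g * algebraMap L E ϖ ^ j' * (h' ^ m)⁻¹ - algebraMap L E κ * w ^ m ∈ VC.nonunits) :
    ∃ w₂ : E, VC.valuation w₂ = 1 ∧
      g * algebraMap L E ϖ ^ j * (h ^ m)⁻¹ - algebraMap L E κ * w₂ ^ m ∈ VC.nonunits := by
  have hϖE : algebraMap L E ϖ ≠ 0 := (map_ne_zero _).2 G.hϖ0
  have hhm : h ^ m ≠ 0 := pow_ne_zero _ hh
  have hhm' : h' ^ m ≠ 0 := pow_ne_zero _ hh'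
  have hzj : algebraMap L E ϖ ^ j ≠ 0 := zpow_ne_zero _ hϖE
  have hzj' : algebraMap L E ϖ ^ j' ≠ 0 := zpow_ne_zero _ hϖE
  set u : E := g * algebraMap L E ϖ ^ j * (h ^ m)⁻¹ with hu
  set u' : E := g * algebraMap L E ϖ ^ j' * (h' ^ m)⁻¹ with hu'
  have hu0 : u ≠ 0 := mul_ne_zero (mul_ne_zero hg hzj) (inv_ne_zero hhm)
  have hu'0 : u' ≠ 0 := mul_ne_zero (mul_ne_zero hg hzj') (inv_ne_zero hhm')
  -- orders at `VA`
  have ho : ∀ (j₀ : ℤ) (h₀ : E), h₀ ≠ 0 →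
      ordA (g * algebraMap L E ϖ ^ j₀ * (h₀ ^ m)⁻¹) = ordA g + j₀ * ε - (m : ℤ) * ordA h₀ := by
    intro j₀ h₀ hh₀
    have h1 : h₀ ^ m ≠ 0 := pow_ne_zero _ hh₀
    have h2 : algebraMap L E ϖ ^ j₀ ≠ 0 := zpow_ne_zero _ hϖE
    rw [G.hoA.mul _ _ (mul_ne_zero hg h2) (inv_ne_zero h1), G.hoA.mul _ _ hg h2,
      G.hoA.zpow hϖE, G.hϖA, G.hoA.inv h1, G.hoA.pow hh₀]
    ring
  have e1 : ordA g + j * ε - (m : ℤ) * ordA h = 0 := by
    rw [← ho j h hh]; exact (G.hoA.unit _ hu0).2 hA1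
  have e2 : ordA g + j' * ε - (m : ℤ) * ordA h' = 0 := by
    rw [← ho j' h' hh']; exact (G.hoA.unit _ hu'0).2 hA1'
  -- `j - j' = m * i`
  obtain ⟨i, hi⟩ : ∃ i : ℤ, j - j' = (m : ℤ) * i := by
    refine ⟨ε * (ordA h - ordA h'), ?_⟩
    have h3 : (j - j') * ε = (m : ℤ) * (ordA h - ordA h') := by linarith
    calc j - j' = (j - j') * (ε * ε) := by rw [G.hε, mul_one]
      _ = ((j - j') * ε) * ε := by ring
      _ = (m : ℤ) * (ε * (ordA h - ordA h')) := by rw [h3]; ring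
  set s : E := algebraMap L E ϖ ^ i * h' * h⁻¹ with hs
  have hs0 : s ≠ 0 := mul_ne_zero (mul_ne_zero (zpow_ne_zero _ hϖE) hh') (inv_ne_zero hh)
  have hus : u = u' * s ^ m := by
    have hj : j = j' + (m : ℤ) * i := by linarith
    have hpow : algebraMap L E ϖ ^ ((m : ℤ) * i) = (algebraMap L E ϖ ^ i) ^ m := by
      rw [mul_comm, zpow_mul, zpow_natCast]
    rw [hu, hu', hs, hj, zpow_add₀ hϖE, hpow, mul_pow, mul_pow, inv_pow]
    field_simp
  have hsm : VC.valuation (s ^ m) = 1 := by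
    have h4 : VC.valuation u = VC.valuation u' * VC.valuation (s ^ m) := by
      rw [hus, map_mul]
    rw [hC1, hC1', one_mul] at h4
    exact h4.symm
  have hs1 : VC.valuation s = 1 := s36a_unit_of_pow VC hm hsm
  refine ⟨w * s, by rw [map_mul, hw, hs1, one_mul], ?_⟩
  have h5 : u - algebraMap L E κ * (w * s) ^ m =
      (u' - algebraMap L E κ * w ^ m) * s ^ m := by
    rw [hus, mul_pow]; ring
  rw [h5, VC.mem_nonunits_iff, map_mul, hsm, mul_one]
  exact VC.mem_nonunits_iff.1 hC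

end G

end Fermat.Agent.M59
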