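/-
M59 / Sink B, leaf 4 [TOR-SURJ]: THE RE-WIRE OF BOX B (odd half) ON THE UNIFORM TORIC CLASSES
(helper29, ruling #5695 (1) of helper15).  Prefix `m59g12u_`.  Twin of the last step of
`M59/SinkB/WireC.lean`, after [G12-U] (`M59/SinkB/G12/AsmU.lean`).

(G12) produces the UNIFORM normal form `m59g12u_TorAtU` (over every unramified level `⊇ T_z`), while
the relational toric data `T1`, `T2` of leaf 4 live over ONE fixed big level `L*`.

* `m59g12u_TorU A N' q hq2 hqN' p n` : the `I_A`-fixed classes killed by `p ^ n` with the uniform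
  normal form.
* `m59g12u_TorL A N' q hq2 hqN' L1 p n` : the `I_A`-fixed classes killed by `p ^ n` whose
  representing function has the normal form OVER THE FIXED LEVEL `L1` (the set `TorS` of the count).
* `m59g12u_exists_T` : ONE finite `I_A`-fixed `T` with `TorU ⊆ TorL L1` for every level `L1 ⊇ T`
  (`TorU ⊆ J[p ^ n]` is finite); `m59g12u_torL_subset_tor`, `m59g12u_torU_subset_tor`.
* `m59g12u_TorSurjPlU_stmt` = `m59sb_TorSurjPl_stmt` LITERALLY with `m59sb_Tor` replaced by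
  `m59g12u_TorU`; `m59g12u_torSurjPlU_of_torSurjPl` (the old leaf implies it).
* **`m59g12u_eq2odd_of_cellsU : m59g12u_G12cU_stmt → m59g12u_TorSurjPlU_stmt → m59t_Eq2Odd_stmt`**
  (copy of `m59sb_coreOddC_of_cells` + `m59sb_eq2odd_ofC`), and
  `m59g12u_eq2odd_of_leavesU : m59sb_Eis_stmt → m59sb_DeltaC2_stmt → m59g12u_TorSurjPlU_stmt →
  m59t_Eq2Odd_stmt`.
-/
import Mathlib
import Fermat.Agent.M59.SinkB.G12.AsmU
import Fermat.Agent.M59.SinkB.WireC

set_option autoImplicit false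
set_option linter.unusedSectionVars false
set_option linter.unusedVariables false
set_option linter.style.haveILetI false
set_option synthInstance.maxHeartbeats 400000
set_option maxHeartbeats 1000000

noncomputable section

namespace Fermat.Agent.M59

open ModularCurve AlgebraicCurve IntermediateField IsLocalRing Module
open Fermat.Agent.JT3 Fermat.Agent.SS Fermat.Agent.S35 Fermat.Agent.S36 Fermat.Agent.S24
  Fermat.Agent.S44 Fermat.Agent.SS2 Fermat.Agent.TW Fermat.Agent.FF Fermat.Agent.MZ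

local notation "Qb" => AlgebraicClosure ℚ

/-! ### the two sets of toric classes -/

section Sets

variable (A : ValuationSubring Qb) (N' q : ℕ) [NeZero N'] [NeZero q] [hq : Fact q.Prime]
  [NeZero (N' * q * q)] (hq2 : ¬ 2 ∣ q) (hqN' : ¬ q ∣ N')

/-- the toric classes of exponent `p ^ n` fixed by `I_A`, normal form over the FIXED level `L1`. -/
def m59g12u_TorL (L1 : IntermediateField ℚ Qb) (p n : ℕ) : Set (JZero (N' * q * q)) :=
  {z | (p ^ n) • z = 0 ∧ (∀ σ ∈ A.inertiaSubgroupIn ℚ, σ • z = z) ∧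
    ∃ f : modularFunctionFieldBar (N' * q * q), s44f_Rep (N' * q * q) (p ^ n) z f ∧
      m59g12u_NFOver A N' q hq2 hqN' (p ^ n) f L1}

/-- the toric classes of exponent `p ^ n` fixed by `I_A`, UNIFORM normal form. -/
def m59g12u_TorU (p n : ℕ) : Set (JZero (N' * q * q)) :=
  {z | (p ^ n) • z = 0 ∧ (∀ σ ∈ A.inertiaSubgroupIn ℚ, σ • z = z) ∧
    m59g12u_TorAtU A N' q hq2 hqN' (p ^ n) z}

/-- a class with the normal form over a level is a toric class in the sense of `m59sb_Tor`. -/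
theorem m59g12u_torL_subset_tor {L1 : IntermediateField ℚ Qb} (hlev : s35d_IsLevel A q L1)
    (p n : ℕ) : m59g12u_TorL A N' q hq2 hqN' L1 p n ⊆ m59sb_Tor A N' q hq2 hqN' p n := by
  rintro z ⟨hz, hfix, f, hrep, hnf⟩
  exact ⟨hz, hfix, f, hrep, L1, hlev, hnf⟩

/-- the uniform toric classes are toric classes in the sense of `m59sb_Tor`. -/
theorem m59g12u_torU_subset_tor (hA : A.LiesOverPrime q) (p n : ℕ) :
    m59g12u_TorU A N' q hq2 hqN' p n ⊆ m59sb_Tor A N' q hq2 hqN' p n := by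
  rintro z ⟨hz, hfix, hU⟩
  exact ⟨hz, hfix, m59g12u_torAt_of_U A N' q hq2 hqN' hA (p ^ n) z hU⟩

/-- **ONE finite `I_A`-fixed set `T`**: over every level `L1 ⊇ T` all uniform toric classes of
exponent `p ^ n` have their normal form. -/
theorem m59g12u_exists_T (hA : A.LiesOverPrime q) (p n : ℕ) [hp : Fact p.Prime] :
    ∃ T : Finset Qb, (∀ t ∈ T, ∀ s ∈ A.inertiaSubgroupIn ℚ, s t = t) ∧
      ∀ L1 : IntermediateField ℚ Qb, s35d_IsLevel A q L1 → (↑T : Set Qb) ⊆ L1 →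
        m59g12u_TorU A N' q hq2 hqN' p n ⊆ m59g12u_TorL A N' q hq2 hqN' L1 p n := by
  classical
  have hfin : (m59g12u_TorU A N' q hq2 hqN' p n).Finite := by
    have h0 := tj_finite (N' * q * q) p n
    have h : {x : JZero (N' * q * q) | p ^ n • x = 0}.Finite := Set.finite_coe_iff.1 h0
    exact h.subset fun z hz => hz.1
  obtain ⟨F, T, hF, hT, hall⟩ := m59g12u_common A N' q hq2 hqN' hA (p ^ n)
    (m59g12u_TorU A N' q hq2 hqN' p n) hfin (fun z hz => hz.2.2)
  refine ⟨T, hT, fun L1 hlev hTL1 z hz => ?_⟩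
  exact ⟨hz.1, hz.2.1, F z, hF z hz, hall L1 hlev hTL1 z hz⟩

end Sets

/-! ### [TOR-SURJ] on the uniform classes -/

/-- **[TOR-SURJ] on the uniform toric classes**, concrete pull-backs (`m59sb_TorSurjPl_stmt` with
`m59sb_Tor` replaced by `m59g12u_TorU`). -/
def m59g12u_TorSurjPlU_stmt : Prop :=
  ∀ (N' q p : ℕ) [NeZero N'] [NeZero q] [Fact q.Prime] [NeZero (N' * q)] [NeZero (N' * q * q)]
    [Fact p.Prime],
    p ≠ 2 → q ≠ p → ∀ (hq2 : ¬ 2 ∣ q) (hqN' : ¬ q ∣ N'), 4 ∣ N' →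
    ∀ A : ValuationSubring Qb, A.LiesOverPrime q →
      ∀ z ∈ m59g12u_TorU A N' q hq2 hqN' p 1,
        ∃ (k : ℕ) (u v : JZero (N' * q)), (p ^ k) • u = 0 ∧ (p ^ k) • v = 0 ∧
          z = m59pl_pa (N' * q) q u + m59pl_pb (N' * q) q v

/-- the old leaf implies the uniform one (for comparison only). -/
theorem m59g12u_torSurjPlU_of_torSurjPl (h : m59sb_TorSurjPl_stmt) : m59g12u_TorSurjPlU_stmt := by
  intro N' q p _ _ hqF _ _ hpF hp2 hqp hq2 hqN' h4 A hA z hz
  exact h N' q p hp2 hqp hq2 hqN' h4 A hA z (m59g12u_torU_subset_tor A N' q hq2 hqN' hA p 1 hz)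

/-! ### the wiring -/

/-- **LEVEL 2 ⟹ LEVEL 1, odd `q`, uniform form** (twin of `m59sb_coreOddC_of_cells`). -/
theorem m59g12u_coreOddC_of_cells (hG : m59g12u_G12cU_stmt) (hTS : m59g12u_TorSurjPlU_stmt) :
    m59sb_CoreOddC_stmt := by
  intro N' q p _ _ _ hq hp2 hqp hq2ne hqN' h4 A hA S a hpS hnE z hz0 hpz hzfix hzeig
  haveI : Fact q.Prime := ⟨hq⟩
  haveI : NeZero (N' * q) := ⟨Nat.mul_ne_zero (NeZero.ne N') (NeZero.ne q)⟩
  haveI : NeZero (N' * q * q) := ⟨Nat.mul_ne_zero (NeZero.ne (N' * q)) (NeZero.ne q)⟩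
  have hq2 : ¬ 2 ∣ q := fun h => hq2ne ((Nat.prime_dvd_prime_iff_eq Nat.prime_two hq).mp h).symm
  rcases hG N' q p hp2 hqp hq2 hqN' h4 A hA S a hpS hnE z hz0 hpz hzfix hzeig with
    hT | hmid | hlow
  · left
    have hzT : z ∈ m59g12u_TorU A N' q hq2 hqN' p 1 := by
      refine ⟨by rw [pow_one]; exact hpz, hzfix, ?_⟩
      rw [pow_one]
      exact hT
    obtain ⟨k, x, y, hx, hy, hzxy⟩ := hTS N' q p hp2 hqp hq2 hqN' h4 A hA z hzT
    exact m59sb_wire_entry (m59pl_pa (N' * q) q) (m59pl_pb (N' * q) q) (m59pl_pullApiOf N' q p) S a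
      z hz0 hpz hzeig k x y hx hy hzxy
  · left
    obtain ⟨z', hz'0, hpz', hz'eig⟩ := hmid
    exact ⟨z', hz'0, hpz', fun ℓ hℓ hℓN hℓS =>
      hz'eig ℓ hℓ (fun h => hℓN (dvd_mul_of_dvd_left h q)) hℓS⟩
  · exact Or.inr (Or.inr hlow)

/-- **Box B of TOP, odd half, from the uniform (G12) and [TOR-SURJ] on the uniform classes.** -/
theorem m59g12u_eq2odd_of_cellsU (hG : m59g12u_G12cU_stmt) (hTS : m59g12u_TorSurjPlU_stmt) :
    m59t_Eq2Odd_stmt :=
  m59sb_eq2odd_ofC (m59g12u_coreOddC_of_cells hG hTS)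

/-- **Box B of TOP, odd half, from [EIS], [DELTA-C2] and [TOR-SURJ] on the uniform classes.** -/
theorem m59g12u_eq2odd_of_leavesU (hEis : m59sb_Eis_stmt) (hDel : m59sb_DeltaC2_stmt)
    (hTS : m59g12u_TorSurjPlU_stmt) : m59t_Eq2Odd_stmt :=
  m59g12u_eq2odd_of_cellsU (m59g12u_G12cU_of hEis hDel) hTS

end Fermat.Agent.M59
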